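/-
Programme MW (S17), block POS, brick NORTHCOTT GLUE (lead).

From the positivity inequality of POS on MINIMAL representatives and a Northcott property of the
point height, the hypothesis `hNorth` of `ASM/Assemble3.fg_of_lam_le`.

Setting: `P0 : Pt N` a Galois-fixed place, `E0 x := normalFormPic … P0 x` the minimal (normal form)
effective divisor of the class `x`, `r0 x := minPolePic … P0 x = deg (E0 x) ≤ g`; `x` is the class of
`E0 x - r0 x • P0`.

* `E0_smul`, `smul_mem_support_E0` : for a rational class `x` the support of `E0 x` is Galois-stable;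
* `hNorth_of_pos` : GIVEN
    - `hUD`     : `UDle lam principal (8 g)` (to move `q lam` between representatives),
    - `hc ≥ 0`  : a point height with the Northcott property `hNorthPt` for places with at most `d`
                  conjugates,
    - `hpos`    : `c * Σ_z (E0 x z) * hc z - C ≤ q lam (E0 x - r0 x • P0)` for rational `x`, `c > 0`,
  the set `{x ∈ J(ℚ) | ∃ a, size a ≤ 2g ∧ mk a = x ∧ q lam a ≤ B}` is finite for every `B`.
-/
import Fermat.Agent.MW.ASM.Assemble3

set_option autoImplicit false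

namespace Fermat.Agent.MW.POS.NorthGlue0

open ModularCurve AlgebraicCurve
open Fermat.Agent.MW.DESC.Descent4 Fermat.Agent.MW.PAIR.Pairing4 Fermat.Agent.MW.PAIR.PairingB4
open Fermat.Agent.MW.ASM.Assemble0 Fermat.Agent.MW.ASM.Reps1 Fermat.Agent.MW.ASM.Assemble3
open Fermat.Agent.J.DESC.NormalForm10 Fermat.Agent.RR.LSpace

variable (N : ℕ) [NeZero N]

/-- the semilinear automorphism of `Fbar N` attached to `σ ∈ G_ℚ`. -/
noncomputable abbrev Ag (σ : GQ) :
    SemilinearAut (AlgebraicClosure ℚ) ↥(modularFunctionFieldBar N) :=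
  arithmeticGalois (modularFunctionFieldFull N) σ

theorem lHypN : LHyp (AlgebraicClosure ℚ) ↥(modularFunctionFieldBar N) :=
  Fermat.Agent.RR.LHypGen.lHyp_of_isGen (Fermat.Agent.RED.TOP.FbarFacts20.isGen_j N)

theorem rHypN : RiemannHyp (AlgebraicClosure ℚ) ↥(modularFunctionFieldBar N) :=
  riemannHyp_genus (Fermat.Agent.RED.TOP.FbarFacts20.isGen_j N)

/-- the minimal effective divisor of the class `x` (normal form with respect to `P0`). -/
noncomputable def E0 (P0 : Pt N) (x : JZero N) : Pt N →₀ ℤ :=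
  normalFormPic (lHypN N) (rHypN N) P0 x

/-- its degree. -/
noncomputable def r0 (P0 : Pt N) (x : JZero N) : ℕ :=
  minPolePic (lHypN N) (rHypN N) P0 x

variable {N}

theorem E0_nonneg (P0 : Pt N) (x : JZero N) : 0 ≤ E0 N P0 x :=
  normalFormPic_nonneg (lHypN N) (rHypN N) P0 x

theorem cdeg_E0 (P0 : Pt N) (x : JZero N) : cdeg (E0 N P0 x) = r0 N P0 x := by
  rw [cdeg_eq_degree]
  exact degree_normalFormPic (lHypN N) (rHypN N) P0 x

theorem size_E0 (P0 : Pt N) (x : JZero N) : size (E0 N P0 x) = r0 N P0 x := by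
  have h := Fermat.Agent.MW.ASM.Reps0.size_eq_cdeg_of_nonneg (E0_nonneg P0 x)
  rw [cdeg_E0] at h
  exact_mod_cast h

theorem r0_le (P0 : Pt N) (x : JZero N) : r0 N P0 x ≤ gN N := by
  show minPolePic (lHypN N) (rHypN N) P0 x ≤ gN N
  refine minPole_le (lHypN N) (rHypN N) P0 _ fun hbot => ?_
  have h1 := riemann_le (Fermat.Agent.RED.TOP.FbarFacts20.isGen_j N)
    (shift P0 ((Quotient.out x : Divisor.degZero (K := AlgebraicClosure ℚ)
      (F := ↥(modularFunctionFieldBar N))) : Divisor _ _) (gN N))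
  rw [hbot, finrank_bot, degree_shift (lHypN N),
    Divisor.mem_degZero.mp (Quotient.out x : Divisor.degZero (K := AlgebraicClosure ℚ)
      (F := ↥(modularFunctionFieldBar N))).2] at h1
  push_cast at h1
  have hg : (genus Fermat.Agent.X0.Kbar (Fermat.Agent.X0.FF N) : ℤ) = (gN N : ℤ) := rfl
  omega

/-- the minimal representative `E0 x - r0 x • P0` of the class `x`. -/
noncomputable def a0 (P0 : Pt N) (x : JZero N) :
    Divisor.degZero (K := AlgebraicClosure ℚ) (F := ↥(modularFunctionFieldBar N)) :=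
  ⟨_, sub_single_mem_degZero (lHypN N) (rHypN N) P0 x⟩

theorem coe_a0 (P0 : Pt N) (x : JZero N) :
    ((a0 P0 x : Divisor.degZero (K := AlgebraicClosure ℚ) (F := ↥(modularFunctionFieldBar N))) :
      Pt N →₀ ℤ) = E0 N P0 x - Finsupp.single P0 ((r0 N P0 x : ℕ) : ℤ) := rfl

theorem mk_a0 (P0 : Pt N) (x : JZero N) : Pic0.mk (a0 P0 x) = x :=
  mk_normalFormPic' (lHypN N) (rHypN N) P0 x

theorem size_a0_le (P0 : Pt N) (x : JZero N) :
    size ((a0 P0 x : Divisor.degZero (K := AlgebraicClosure ℚ)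
      (F := ↥(modularFunctionFieldBar N))) : Pt N →₀ ℤ) ≤ 2 * gN N := by
  classical
  rw [coe_a0]
  have h2 : size (Finsupp.single P0 ((r0 N P0 x : ℕ) : ℤ)) ≤ r0 N P0 x := by
    rw [size]
    by_cases h0 : ((r0 N P0 x : ℕ) : ℤ) = 0
    · rw [h0, Finsupp.single_zero, Finsupp.sum_zero_index]; exact Nat.zero_le _
    · rw [Finsupp.sum_single_index (by simp)]; simp
  have h3 := size_sub_le (E0 N P0 x) (Finsupp.single P0 ((r0 N P0 x : ℕ) : ℤ))
  have h4 := size_E0 P0 x
  have h5 := r0_le P0 x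
  omega

/-- Galois equivariance of the minimal divisor. -/
theorem E0_smul (P0 : Pt N) (hP0 : ∀ σ : GQ, Ag N σ • P0 = P0) (σ : GQ) (x : JZero N) :
    E0 N P0 (σ • x) = Ag N σ • E0 N P0 x :=
  normalFormPic_smul (lHypN N) (rHypN N) P0 (Ag N σ) (hP0 σ) x

/-- for a rational class the support of the minimal divisor is Galois-stable. -/
theorem smul_mem_support_E0 (P0 : Pt N) (hP0 : ∀ σ : GQ, Ag N σ • P0 = P0) {x : JZero N}
    (hx : ∀ σ : GQ, σ • x = x) (σ : GQ) {v : Pt N} (hv : v ∈ (E0 N P0 x).support) :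
    Ag N σ • v ∈ (E0 N P0 x).support := by
  rw [Finsupp.mem_support_iff] at hv ⊢
  have h1 := SemilinearAut.divisor_smul_apply_smul (Ag N σ) (E0 N P0 x) v
  rw [← E0_smul P0 hP0 σ x, hx σ] at h1
  rwa [h1]

theorem card_support_E0_le (P0 : Pt N) (x : JZero N) : (E0 N P0 x).support.card ≤ gN N := by
  classical
  have h1 : ((E0 N P0 x).support.card : ℤ) ≤ cdeg (E0 N P0 x) := by
    rw [cdeg_apply, Finsupp.sum]
    have : ((E0 N P0 x).support.card : ℤ) = ∑ _z ∈ (E0 N P0 x).support, (1 : ℤ) := by simp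
    rw [this]
    refine Finset.sum_le_sum fun z hz => ?_
    have h0 : 0 ≤ E0 N P0 x z := E0_nonneg P0 x z
    have hne : E0 N P0 x z ≠ 0 := Finsupp.mem_support_iff.mp hz
    omega
  rw [cdeg_E0] at h1
  have := r0_le P0 x
  omega

/-- **Northcott glue.** -/
theorem hNorth_of_pos (lam : Pt N → Pt N → ℝ) (hsymm : ∀ x y, lam x y = lam y x)
    (hUD : UDle lam (Divisor.principal (K := AlgebraicClosure ℚ)
      (F := ↥(modularFunctionFieldBar N))) (8 * gN N))
    (P0 : Pt N) (hP0 : ∀ σ : GQ, Ag N σ • P0 = P0)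
    (hc : Pt N → ℝ) (hc0 : ∀ v, 0 ≤ hc v)
    (hNorthPt : ∀ (d : ℕ) (B : ℝ), {v : Pt N | (∃ S : Finset (Pt N), S.card ≤ d ∧
      ∀ σ : GQ, Ag N σ • v ∈ S) ∧ hc v ≤ B}.Finite)
    (hpos : ∃ c : ℝ, 0 < c ∧ ∃ C : ℝ, ∀ x : JZero N, (∀ σ : GQ, σ • x = x) →
      c * ((E0 N P0 x).sum fun z m => (m : ℝ) * hc z) - C ≤
        q lam ((a0 P0 x : Divisor.degZero (K := AlgebraicClosure ℚ)
          (F := ↥(modularFunctionFieldBar N))) : Pt N →₀ ℤ))
    (B : ℝ) :
    {x : JZero N | (∀ σ : GQ, σ • x = x) ∧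
        ∃ a : Divisor.degZero (K := AlgebraicClosure ℚ) (F := ↥(modularFunctionFieldBar N)),
          size (a : Pt N →₀ ℤ) ≤ 2 * gN N ∧ Pic0.mk a = x ∧ q lam (a : Pt N →₀ ℤ) ≤ B}.Finite := by
  classical
  obtain ⟨c, hc_pos, C, hC⟩ := hpos
  -- class invariance of `q lam` on representatives of size `≤ 2g`
  obtain ⟨C', -, hC'⟩ := q_congr_le (lam := lam) (M := 2 * gN N) hsymm
    (fun u hu => cdeg_eq_zero_of_principal N hu)
    (hUD.mono (by omega))
  -- the finite set of admissible places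
  set B' : ℝ := (B + C' + C) / c with hB'
  have hT := hNorthPt (gN N) B'
  set T : Finset (Pt N) := hT.toFinset with hTdef
  -- the finite set of admissible divisors
  set 𝒟 : Finset (Pt N →₀ ℤ) := T.finsupp (fun _ => Finset.Icc (0 : ℤ) (gN N)) with h𝒟
  -- the map `E ↦ class of E - deg E • P0`
  let cls : (Pt N →₀ ℤ) → JZero N := fun E =>
    if h : E - Finsupp.single P0 (cdeg E) ∈
        Divisor.degZero (K := AlgebraicClosure ℚ) (F := ↥(modularFunctionFieldBar N))
    then Pic0.mk ⟨_, h⟩ else 0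
  refine (𝒟.finite_toSet.image cls).subset ?_
  rintro x ⟨hxfix, a, haM, hax, haB⟩
  refine ⟨E0 N P0 x, ?_, ?_⟩
  · -- `E0 x ∈ 𝒟`
    rw [Finset.mem_coe, h𝒟, Finset.mem_finsupp_iff]
    have hq : q lam ((a0 P0 x : Divisor.degZero (K := AlgebraicClosure ℚ)
        (F := ↥(modularFunctionFieldBar N))) : Pt N →₀ ℤ) ≤ B + C' := by
      have hprin : ((a0 P0 x : Divisor.degZero (K := AlgebraicClosure ℚ)
          (F := ↥(modularFunctionFieldBar N))) : Pt N →₀ ℤ) - (a : Pt N →₀ ℤ) ∈
          Divisor.principal (K := AlgebraicClosure ℚ) (F := ↥(modularFunctionFieldBar N)) := by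
        have h1 : Pic0.mk (a0 P0 x - a) = 0 := by
          rw [show Pic0.mk (a0 P0 x - a) = Pic0.mk (a0 P0 x) - Pic0.mk a from rfl, mk_a0, hax,
            sub_self]
        have h2 := (QuotientAddGroup.eq_zero_iff (a0 P0 x - a)).mp h1
        exact AddSubgroup.mem_addSubgroupOf.mp h2
      have h3 := hC' _ _ (by rw [cdeg_eq_degree]; exact (a0 P0 x).2) (size_a0_le P0 x) haM hprin
      have := abs_le.mp h3
      linarith [this.1, this.2]
    have hsum : c * ((E0 N P0 x).sum fun z m => (m : ℝ) * hc z) ≤ B + C' + C := by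
      have := hC x hxfix
      linarith
    have hterm : ∀ z ∈ (E0 N P0 x).support, hc z ≤ B' := by
      intro z hz
      have h0 : ∀ w ∈ (E0 N P0 x).support, 0 ≤ ((E0 N P0 x w : ℤ) : ℝ) * hc w := fun w _ =>
        mul_nonneg (by exact_mod_cast E0_nonneg P0 x w) (hc0 w)
      have h1 : ((E0 N P0 x z : ℤ) : ℝ) * hc z ≤ (E0 N P0 x).sum fun z m => (m : ℝ) * hc z :=
        Finset.single_le_sum h0 hz
      have h2 : (1 : ℝ) ≤ ((E0 N P0 x z : ℤ) : ℝ) := by
        have h0' : 0 ≤ E0 N P0 x z := E0_nonneg P0 x z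
        have hne : E0 N P0 x z ≠ 0 := Finsupp.mem_support_iff.mp hz
        have : (1 : ℤ) ≤ E0 N P0 x z := by omega
        exact_mod_cast this
      have h3 : hc z ≤ ((E0 N P0 x z : ℤ) : ℝ) * hc z := by
        have := mul_le_mul_of_nonneg_right h2 (hc0 z)
        linarith
      rw [hB', le_div_iff₀ hc_pos]
      have h4 : hc z * c ≤ c * ((E0 N P0 x).sum fun z m => (m : ℝ) * hc z) := by
        rw [mul_comm]
        exact mul_le_mul_of_nonneg_left (h3.trans h1) hc_pos.le
      linarith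
    refine ⟨fun z hz => ?_, fun z _ => ?_⟩
    · rw [hTdef, Set.Finite.mem_toFinset]
      exact ⟨⟨(E0 N P0 x).support, card_support_E0_le P0 x,
        fun σ => smul_mem_support_E0 P0 hP0 hxfix σ hz⟩, hterm z hz⟩
    · rw [Finset.mem_Icc]
      refine ⟨E0_nonneg P0 x z, ?_⟩
      have h1 : E0 N P0 x z ≤ cdeg (E0 N P0 x) := by
        rw [cdeg_apply, Finsupp.sum]
        by_cases hz : z ∈ (E0 N P0 x).support
        · exact Finset.single_le_sum (f := fun w => E0 N P0 x w)
            (fun w _ => E0_nonneg P0 x w) hz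
        · rw [Finsupp.notMem_support_iff.mp hz]
          exact Finset.sum_nonneg fun w _ => E0_nonneg P0 x w
      rw [cdeg_E0] at h1
      have := r0_le P0 x
      omega
  · -- `cls (E0 x) = x`
    have hmem : E0 N P0 x - Finsupp.single P0 (cdeg (E0 N P0 x)) ∈
        Divisor.degZero (K := AlgebraicClosure ℚ) (F := ↥(modularFunctionFieldBar N)) := by
      rw [cdeg_E0]; exact (a0 P0 x).2
    show cls (E0 N P0 x) = x
    simp only [cls, dif_pos hmem]
    have he : (⟨_, hmem⟩ : Divisor.degZero (K := AlgebraicClosure ℚ)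
        (F := ↥(modularFunctionFieldBar N))) = a0 P0 x :=
      Subtype.ext (by
        show E0 N P0 x - Finsupp.single P0 (cdeg (E0 N P0 x)) = _
        rw [coe_a0, cdeg_E0])
    rw [he, mk_a0]

end Fermat.Agent.MW.POS.NorthGlue0
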