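/-
PROGRAMME MW (S17), block POS (helper9).  `Jet9`: TAYLOR COEFFICIENTS OF ALL ORDERS at a place, and
the JETS of the embedding of the curve by `|d·P0|` (generalises `EMB/Tangent6` from order one).

Setting as in `EMB/Value6` (`H : LHyp K F`).  For a place `v` with a uniformizer `t` and `g` regular
at `v`:

* `rem H v t g j : F` : the `j`-th remainder (`rem 0 = g`, `rem (j+1) = (rem j - (rem j)(v)) / t`),
  regular at `v` (`rem_mem`);
* `tc H v t g j : K := (rem j)(v)` : the `j`-th Taylor coefficient; `taylor`: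
  `g = ∑ j < m, tc j * t ^ j + t ^ m * rem m`; additivity and `K`-homogeneity in `g`;
* `tc_eq_zero_iff_le_ord` : for `g ≠ 0`, `(∀ j < m, tc j = 0) ↔ m ≤ v.ord g`, and then
  `tc m = (g / t ^ m)(v)` (`tc_eq_valF_div`): the leading coefficient;
* sections of `O(d·P0)`: `jev v t j : Lm P0 d →ₗ[K] K` (`jev 0 = ev`, `jev 1 = dev`),
  `le_ordSec_iff : (m ≤ ordSec v f) ↔ ∀ j < m, jev j f = 0`;
* coordinates: `jet b v t j : Fin n → K` (`jet 0 = pt`, `jet 1 = dpt`), `jev_lin`,
  `le_hyp_iff : (m ≤ hyp b c v) ↔ ∀ j < m, ∑ i, c i * jet j i = 0`.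
-/
import Mathlib
import Fermat.Agent.MW.EMB.Proj6

set_option autoImplicit false
set_option linter.unusedSectionVars false

open AlgebraicCurve

namespace Fermat.Agent.MW.POS.Jet9

open Fermat.Agent.X0.FF Fermat.Agent.RR.LSpace Fermat.Agent.RR.LHypGen
open Fermat.Agent.MW.EMB.Value6 Fermat.Agent.MW.EMB.OnePoint6 Fermat.Agent.MW.EMB.Coord6
open Fermat.Agent.MW.EMB.Tangent6 Fermat.Agent.MW.EMB.Proj6

variable {K F : Type*} [Field K] [Field F] [Algebra K F]

/-! ### Taylor coefficients of a regular function -/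

/-- The `j`-th Taylor remainder of `g` at `v` w.r.t. `t`. -/
noncomputable def rem (H : LHyp K F) (v : Place K F) (t : F) (g : F) : ℕ → F
  | 0 => g
  | j + 1 => (rem H v t g j - algebraMap K F (valF H v (rem H v t g j))) / t

@[simp] theorem rem_zero (H : LHyp K F) (v : Place K F) (t g : F) : rem H v t g 0 = g := rfl

theorem rem_succ (H : LHyp K F) (v : Place K F) (t g : F) (j : ℕ) :
    rem H v t g (j + 1) = (rem H v t g j - algebraMap K F (valF H v (rem H v t g j))) / t := rfl

theorem rem_mem (H : LHyp K F) (v : Place K F) {t : F} (ht : v.ord t = 1) {g : F}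
    (hg : g ∈ v.toValuationSubring) (j : ℕ) : rem H v t g j ∈ v.toValuationSubring := by
  induction j with
  | zero => exact hg
  | succ j ih => rw [rem_succ]; exact sub_valF_div_mem H v ht ih

/-- The `j`-th Taylor coefficient of `g` at `v` w.r.t. `t`. -/
noncomputable def tc (H : LHyp K F) (v : Place K F) (t : F) (g : F) (j : ℕ) : K :=
  valF H v (rem H v t g j)

theorem tc_zero (H : LHyp K F) (v : Place K F) (t g : F) : tc H v t g 0 = valF H v g := rfl

theorem rem_eq (H : LHyp K F) (v : Place K F) {t : F} (ht0 : t ≠ 0) (g : F) (j : ℕ) :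
    rem H v t g j = algebraMap K F (tc H v t g j) + t * rem H v t g (j + 1) := by
  rw [rem_succ, tc]; field_simp; ring

/-- The finite Taylor formula. -/
theorem taylor (H : LHyp K F) (v : Place K F) {t : F} (ht0 : t ≠ 0) (g : F) (m : ℕ) :
    g = ∑ j ∈ Finset.range m, algebraMap K F (tc H v t g j) * t ^ j + t ^ m * rem H v t g m := by
  induction m with
  | zero => simp
  | succ m ih =>
    rw [Finset.sum_range_succ, pow_succ]
    conv_lhs => rw [ih, rem_eq H v ht0 g m]
    ring

theorem rem_add (H : LHyp K F) (v : Place K F) {t : F} (ht : v.ord t = 1) {g g' : F}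
    (hg : g ∈ v.toValuationSubring) (hg' : g' ∈ v.toValuationSubring) (j : ℕ) :
    rem H v t (g + g') j = rem H v t g j + rem H v t g' j := by
  induction j with
  | zero => rfl
  | succ j ih =>
    rw [rem_succ, rem_succ, rem_succ, ih,
      valF_add H v (rem_mem H v ht hg j) (rem_mem H v ht hg' j), map_add]
    ring

theorem tc_add (H : LHyp K F) (v : Place K F) {t : F} (ht : v.ord t = 1) {g g' : F}
    (hg : g ∈ v.toValuationSubring) (hg' : g' ∈ v.toValuationSubring) (j : ℕ) :
    tc H v t (g + g') j = tc H v t g j + tc H v t g' j := by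
  rw [tc, tc, tc, rem_add H v ht hg hg', valF_add H v (rem_mem H v ht hg j) (rem_mem H v ht hg' j)]

theorem rem_smul (H : LHyp K F) (v : Place K F) {t : F} (ht : v.ord t = 1) (c : K) {g : F}
    (hg : g ∈ v.toValuationSubring) (j : ℕ) :
    rem H v t (c • g) j = c • rem H v t g j := by
  induction j with
  | zero => rfl
  | succ j ih =>
    rw [rem_succ, rem_succ, ih, valF_smul H v c (rem_mem H v ht hg j)]
    simp only [Algebra.smul_def, map_mul]
    ring

theorem tc_smul (H : LHyp K F) (v : Place K F) {t : F} (ht : v.ord t = 1) (c : K) {g : F}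
    (hg : g ∈ v.toValuationSubring) (j : ℕ) :
    tc H v t (c • g) j = c * tc H v t g j := by
  rw [tc, tc, rem_smul H v ht c hg, valF_smul H v c (rem_mem H v ht hg j)]

/-- If the first `m` Taylor coefficients vanish then `g = t ^ m * rem m`. -/
theorem eq_pow_mul_rem (H : LHyp K F) (v : Place K F) {t : F} (ht0 : t ≠ 0) (g : F) (m : ℕ)
    (h : ∀ j < m, tc H v t g j = 0) : g = t ^ m * rem H v t g m := by
  have h1 := taylor H v ht0 g m
  rw [Finset.sum_eq_zero (fun j hj => by rw [h j (Finset.mem_range.mp hj), map_zero, zero_mul]),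
    zero_add] at h1
  exact h1

/-- The leading coefficient. -/
theorem tc_eq_valF_div (H : LHyp K F) (v : Place K F) {t : F} (ht0 : t ≠ 0) (g : F) (m : ℕ)
    (h : ∀ j < m, tc H v t g j = 0) : tc H v t g m = valF H v (g / t ^ m) := by
  have h1 := eq_pow_mul_rem H v ht0 g m h
  rw [tc]
  congr 1
  rw [eq_div_iff (pow_ne_zero m ht0), mul_comm]
  exact h1.symm

/-- The vanishing order is read off from the Taylor coefficients. -/
theorem tc_eq_zero_iff_le_ord (H : LHyp K F) (v : Place K F) {t : F} (ht : v.ord t = 1) {g : F}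
    (hg : g ∈ v.toValuationSubring) (hg0 : g ≠ 0) (m : ℕ) :
    (∀ j < m, tc H v t g j = 0) ↔ (m : ℤ) ≤ v.ord g := by
  have ht0 : t ≠ 0 := by rintro rfl; simp at ht
  constructor
  · intro h
    have h1 := eq_pow_mul_rem H v ht0 g m h
    have hr0 : rem H v t g m ≠ 0 := by
      intro h0; rw [h0, mul_zero] at h1; exact hg0 h1
    have hord : v.ord g = m + v.ord (rem H v t g m) := by
      conv_lhs => rw [h1]
      rw [v.ord_mul (pow_ne_zero m ht0) hr0, ord_pow_uniformizer v ht]
    have := ffp_ord_nonneg_of_mem v (rem_mem H v ht hg m)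
    omega
  · intro h
    induction m with
    | zero => intro j hj; omega
    | succ m ih =>
      have hm : ∀ j < m, tc H v t g j = 0 := ih (by push_cast at h; omega)
      intro j hj
      rcases Nat.lt_succ_iff_lt_or_eq.mp hj with hlt | rfl
      · exact hm j hlt
      · have h1 := eq_pow_mul_rem H v ht0 g j hm
        have hr0 : rem H v t g j ≠ 0 := by
          intro h0; rw [h0, mul_zero] at h1; exact hg0 h1
        have hord : v.ord g = j + v.ord (rem H v t g j) := by
          conv_lhs => rw [h1]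
          rw [v.ord_mul (pow_ne_zero j ht0) hr0, ord_pow_uniformizer v ht]
        rw [tc, valF_eq_zero_iff H v (rem_mem H v ht hg j)]
        right
        push_cast at h
        omega

/-! ### Jets of the sections of `O(d·P0)` -/

/-- The `j`-th Taylor coefficient at `v`, w.r.t. the uniformizer `t`, of the section `f`. -/
noncomputable def jev (H : LHyp K F) (P0 : Place K F) (d : ℕ) {t0 : F} (ht0 : P0.ord t0 = 1)
    (v : Place K F) {t : F} (ht : v.ord t = 1) (j : ℕ) : Lm P0 d →ₗ[K] K where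
  toFun f := tc H v t (triv P0 d t0 v * (f : F)) j
  map_add' f g := by
    rw [Submodule.coe_add, mul_add]
    exact tc_add H v ht (triv_mul_mem P0 ht0 v f.2) (triv_mul_mem P0 ht0 v g.2) j
  map_smul' c f := by
    rw [Submodule.coe_smul, mul_smul_comm, RingHom.id_apply, smul_eq_mul]
    exact tc_smul H v ht c (triv_mul_mem P0 ht0 v f.2) j

theorem jev_apply (H : LHyp K F) (P0 : Place K F) (d : ℕ) {t0 : F} (ht0 : P0.ord t0 = 1)
    (v : Place K F) {t : F} (ht : v.ord t = 1) (j : ℕ) (f : Lm P0 d) :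
    jev H P0 d ht0 v ht j f = tc H v t (triv P0 d t0 v * (f : F)) j := rfl

theorem jev_zero (H : LHyp K F) (P0 : Place K F) (d : ℕ) {t0 : F} (ht0 : P0.ord t0 = 1)
    (v : Place K F) {t : F} (ht : v.ord t = 1) : jev H P0 d ht0 v ht 0 = ev H P0 d ht0 v := rfl

theorem jev_one (H : LHyp K F) (P0 : Place K F) (d : ℕ) {t0 : F} (ht0 : P0.ord t0 = 1)
    (v : Place K F) {t : F} (ht : v.ord t = 1) : jev H P0 d ht0 v ht 1 = dev H P0 d ht0 v ht := rfl

/-- The vanishing order of a section is read off from its jet. -/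
theorem le_ordSec_iff (H : LHyp K F) (P0 : Place K F) (d : ℕ) {t0 : F} (ht0 : P0.ord t0 = 1)
    (v : Place K F) {t : F} (ht : v.ord t = 1) (f : Lm P0 d) (hf : (f : F) ≠ 0) (m : ℕ) :
    (m : ℤ) ≤ ordSec P0 d t0 v (f : F) ↔ ∀ j < m, jev H P0 d ht0 v ht j f = 0 := by
  rw [ordSec]
  exact (tc_eq_zero_iff_le_ord H v ht (triv_mul_mem P0 ht0 v f.2)
    (mul_ne_zero (triv_ne_zero P0 d ht0 v) hf) m).symm

/-- The leading coefficient of a section. -/
theorem jev_eq_valF_div (H : LHyp K F) (P0 : Place K F) (d : ℕ) {t0 : F} (ht0 : P0.ord t0 = 1)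
    (v : Place K F) {t : F} (ht : v.ord t = 1) (f : Lm P0 d) (m : ℕ)
    (h : ∀ j < m, jev H P0 d ht0 v ht j f = 0) :
    jev H P0 d ht0 v ht m f = valF H v (triv P0 d t0 v * (f : F) / t ^ m) := by
  have ht0' : t ≠ 0 := by rintro rfl; simp at ht
  exact tc_eq_valF_div H v ht0' _ m h

/-- For a nonzero section vanishing to order exactly `m`, the `m`-th coefficient is nonzero. -/
theorem jev_ne_zero_of_ordSec_eq (H : LHyp K F) (P0 : Place K F) (d : ℕ) {t0 : F}
    (ht0 : P0.ord t0 = 1) (v : Place K F) {t : F} (ht : v.ord t = 1) (f : Lm P0 d)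
    (hf : (f : F) ≠ 0) (m : ℕ) (hm : ordSec P0 d t0 v (f : F) = m) :
    jev H P0 d ht0 v ht m f ≠ 0 := by
  intro h0
  have h1 : ∀ j < m, jev H P0 d ht0 v ht j f = 0 :=
    (le_ordSec_iff H P0 d ht0 v ht f hf m).mp hm.ge
  have h2 : ∀ j < m + 1, jev H P0 d ht0 v ht j f = 0 := by
    intro j hj
    rcases Nat.lt_succ_iff_lt_or_eq.mp hj with hlt | rfl
    · exact h1 j hlt
    · exact h0
  have := (le_ordSec_iff H P0 d ht0 v ht f hf (m + 1)).mpr h2
  push_cast at this
  omega

/-! ### Jets of the embedding in coordinates -/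

section Coordinates

variable (H : LHyp K F) (P0 : Place K F) (d : ℕ) {t0 : F} (ht0 : P0.ord t0 = 1) {n : ℕ}
  (b : Module.Basis (Fin n) K (Lm P0 d))

/-- The `j`-th jet vector of the embedded curve at `v` w.r.t. the uniformizer `t`. -/
noncomputable def jet (v : Place K F) {t : F} (ht : v.ord t = 1) (j : ℕ) : Fin n → K :=
  fun i => jev H P0 d ht0 v ht j (b i)

theorem jet_zero (v : Place K F) {t : F} (ht : v.ord t = 1) :
    jet H P0 d ht0 b v ht 0 = pt H P0 d ht0 b v := rfl

theorem jet_one (v : Place K F) {t : F} (ht : v.ord t = 1) :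
    jet H P0 d ht0 b v ht 1 = dpt H P0 d ht0 b v ht := rfl

theorem jev_lin (v : Place K F) {t : F} (ht : v.ord t = 1) (j : ℕ) (c : Fin n → K) :
    jev H P0 d ht0 v ht j (lin P0 d b c) = ∑ i, c i * jet H P0 d ht0 b v ht j i := by
  simp [lin, jet, map_sum]

/-- The multiplicity of `v` in a hyperplane section is read off from the jet. -/
theorem le_hyp_iff {c : Fin n → K} (hc : c ≠ 0) (v : Place K F) {t : F} (ht : v.ord t = 1)
    (m : ℕ) :
    (m : ℤ) ≤ hyp H P0 d b hc v ↔ ∀ j < m, ∑ i, c i * jet H P0 d ht0 b v ht j i = 0 := by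
  rw [hyp_apply H P0 d ht0 b hc v, le_ordSec_iff H P0 d ht0 v ht _ (lin_ne_zero P0 d b hc) m]
  exact forall₂_congr fun j _ => by rw [jev_lin]

/-- The leading coefficient of a linear form at a point of its hyperplane section. -/
theorem sum_mul_jet_ne_zero {c : Fin n → K} (hc : c ≠ 0) (v : Place K F) {t : F}
    (ht : v.ord t = 1) (m : ℕ) (hm : hyp H P0 d b hc v = m) :
    ∑ i, c i * jet H P0 d ht0 b v ht m i ≠ 0 := by
  rw [← jev_lin]
  refine jev_ne_zero_of_ordSec_eq H P0 d ht0 v ht _ (lin_ne_zero P0 d b hc) m ?_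
  rw [← hyp_apply H P0 d ht0 b hc v, hm]

end Coordinates

end Fermat.Agent.MW.POS.Jet9
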