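/-
PROGRAMME MW (S17), block POS (helper9).  `Minors9`: the pure linear algebra behind
"Hadamard along the diagonals".

`K` a field with an absolute value `abv` (archimedean or not: NO constant appears), `A` an
`r × r` matrix whose COLUMNS `A · k` are vectors `y_k ∈ K^r`.  Suppose that for every `s` and every
linear form `c` (coefficient vector, all `abv (c i) ≤ M`) vanishing on the earlier columns
`y_k, k < s`, one has `abv (c(y_s)) ≤ β s * M`.  Then `abv (det A) ≤ ∏ s, β s`.

Proof: Laplace expansion along the last column; the cofactor vector is a linear form vanishing on the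
earlier columns, and its coefficients are determinants of the projected earlier columns, to which the
induction hypothesis applies.
-/
import Mathlib

set_option autoImplicit false
set_option linter.unusedSectionVars false

namespace Fermat.Agent.MW.POS.Minors9

open Matrix Finset

variable {K : Type*} [Field K]

/-- The hypothesis of the wedge induction for a square matrix of column vectors. -/
def StepBound (abv : AbsoluteValue K ℝ) {r : ℕ} (A : Matrix (Fin r) (Fin r) K) (β : Fin r → ℝ) :
    Prop :=
  ∀ (s : Fin r) (c : Fin r → K) (M : ℝ), (∀ i, abv (c i) ≤ M) →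
    (∀ k : Fin r, k < s → ∑ i, c i * A i k = 0) → abv (∑ i, c i * A i s) ≤ β s * M

/-- Cofactor expansion along the last column, with the cofactor vector made explicit. -/
theorem det_eq_sum_cofactor_last {r : ℕ} (A : Matrix (Fin (r + 1)) (Fin (r + 1)) K) :
    A.det = ∑ i : Fin (r + 1), ((-1) ^ (i + Fin.last r : ℕ) *
      (A.submatrix i.succAbove Fin.castSucc).det) * A i (Fin.last r) := by
  rw [Matrix.det_succ_column A (Fin.last r)]
  refine Finset.sum_congr rfl fun i _ => ?_
  rw [Fin.succAbove_last]
  ring

/-- The cofactor vector of the last column kills every other column. -/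
theorem sum_cofactor_mul_eq_zero {r : ℕ} (A : Matrix (Fin (r + 1)) (Fin (r + 1)) K)
    (k : Fin (r + 1)) (hk : k ≠ Fin.last r) :
    ∑ i : Fin (r + 1), ((-1) ^ (i + Fin.last r : ℕ) *
      (A.submatrix i.succAbove Fin.castSucc).det) * A i k = 0 := by
  classical
  -- the matrix with the last column replaced by the column `k`
  set B : Matrix (Fin (r + 1)) (Fin (r + 1)) K := A.updateCol (Fin.last r) fun i => A i k with hB
  have hdet : B.det = 0 := by
    refine Matrix.det_zero_of_column_eq hk ?_
    intro i
    rw [hB, Matrix.updateCol_ne hk, Matrix.updateCol_self]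
  have hsub : ∀ i : Fin (r + 1),
      B.submatrix i.succAbove Fin.castSucc = A.submatrix i.succAbove Fin.castSucc := by
    intro i
    ext a b
    rw [Matrix.submatrix_apply, Matrix.submatrix_apply, hB,
      Matrix.updateCol_ne (Fin.castSucc_lt_last b).ne]
  have hlast : ∀ i : Fin (r + 1), B i (Fin.last r) = A i k := by
    intro i
    rw [hB, Matrix.updateCol_self]
  rw [← hdet, det_eq_sum_cofactor_last B]
  exact Finset.sum_congr rfl fun i _ => by rw [hsub, hlast]

/-- **Wedge induction.**  No constant, any absolute value. -/
theorem abv_det_le_prod (abv : AbsoluteValue K ℝ) :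
    ∀ {r : ℕ} (A : Matrix (Fin r) (Fin r) K) (β : Fin r → ℝ), StepBound abv A β →
      abv A.det ≤ ∏ s, β s := by
  intro r
  induction r with
  | zero =>
    intro A β _
    simp
  | succ r ih =>
    intro A β h
    classical
    -- the cofactor vector
    set c : Fin (r + 1) → K := fun i : Fin (r + 1) =>
      (-1) ^ (i + Fin.last r : ℕ) * (A.submatrix i.succAbove Fin.castSucc).det with hc
    have hdet : A.det = ∑ i, c i * A i (Fin.last r) := det_eq_sum_cofactor_last A
    have hvan : ∀ k : Fin (r + 1), k < Fin.last r → ∑ i, c i * A i k = 0 := fun k hk =>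
      sum_cofactor_mul_eq_zero A k hk.ne
    -- bound of the cofactors by the induction hypothesis
    have hcof : ∀ i : Fin (r + 1), abv (c i) ≤ ∏ s : Fin r, β (Fin.castSucc s) := by
      intro i
      have h1 : abv (c i) = abv (A.submatrix i.succAbove Fin.castSucc).det := by
        rw [hc]
        simp only
        rw [abv.map_mul, abv.map_pow, abv.map_neg, abv.map_one, one_pow, one_mul]
      rw [h1]
      refine ih _ (fun s => β (Fin.castSucc s)) ?_
      intro s c' M hM hvan'
      -- extend `c'` by `0` at the coordinate `i`
      set c'' : Fin (r + 1) → K := Fin.insertNth (α := fun _ => K) i 0 c' with hc''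
      have hsum : ∀ k : Fin (r + 1), ∑ j, c'' j * A j k = ∑ j', c' j' * A (i.succAbove j') k := by
        intro k
        rw [Fin.sum_univ_succAbove _ i]
        simp [hc'']
      have hM'' : ∀ j, abv (c'' j) ≤ M := by
        intro j
        refine Fin.succAboveCases i ?_ (fun j' => ?_) j
        · rw [hc'', Fin.insertNth_apply_same, abv.map_zero]
          exact le_trans (abv.nonneg _) (hM s)
        · rw [hc'', Fin.insertNth_apply_succAbove]
          exact hM j'
      have hv'' : ∀ k : Fin (r + 1), k < Fin.castSucc s → ∑ j, c'' j * A j k = 0 := by
        intro k hk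
        have hklast : k ≠ Fin.last r := (lt_trans hk (Fin.castSucc_lt_last s)).ne
        obtain ⟨k', rfl⟩ := Fin.exists_castSucc_eq.mpr hklast
        rw [hsum]
        have := hvan' k' (by simpa using hk)
        simpa [Matrix.submatrix_apply] using this
      have := h (Fin.castSucc s) c'' M hM'' hv''
      rw [hsum] at this
      simpa [Matrix.submatrix_apply] using this
    rw [hdet, Fin.prod_univ_castSucc, mul_comm]
    exact h (Fin.last r) c _ hcof hvan

end Fermat.Agent.MW.POS.Minors9
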