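/-
PROGRAMME MW (S17), block POS (helper9).  `HadLoc9`: the LOCAL CONFLUENT HADAMARD INEQUALITY
("Hadamard along the diagonals") at one absolute value of `Qbar`, deduced from the local one-sided
uniform decomposition `LocUD` by the wedge induction of `Minors9` and the jets of `Jet9`.

Setting: `F / Qbar` with `H : LHyp Qbar F`, the embedding by `|d·P0|` in the coordinates of a basis
`b` of `L(d·P0)` (block EMB), `v` a place of `ℚ` with HT's absolute value `absV v` and sup norm
`supN v`.

* `wedge2 x y` : the vector of `2 × 2` minors; `chi v z y` : the chordal distance of two points of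
  the curve, `kap v y t` : its diagonal (adjunction) value w.r.t. the uniformizer `t`,
  `chiT v tu z y` : both together (`tu` a choice of uniformizers);
* `cnt R a` : the number of earlier occurrences of `R a` in the sequence `R : Fin r → Place`; the
  confluent evaluation matrix of the forms `ω i` has the columns `jet (R a) (cnt R a)`;
* `LocUD Cud` : the local one-sided uniform decomposition with multiplicity, leading-coefficient
  form (to be supplied by block CHOW+UD);
* **`absV_det_le`** : `|det (ω_i (jet_a))|_v ≤ ∏_a [archC r v * supN ω * Cud v * supN (pt (R a)) *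
  ∏_j chi (zF j) (R a) * ∏_{a' < a} chiT (R a') (R a)]` when every nonzero combination of the `ω i`
  vanishes on the divisor `Σ_j zF j` (disjoint from the `R a`).
-/
import Mathlib
import Fermat.Agent.MW.HT.Lin3
import Fermat.Agent.MW.PAIR.Pairing4
import Fermat.Agent.MW.POS.Minors9
import Fermat.Agent.MW.POS.Jet9

set_option autoImplicit false
set_option linter.unusedSectionVars false

open AlgebraicCurve

namespace Fermat.Agent.MW.POS.HadLoc9

open Finset
open Fermat.Agent.RR.LSpace
open Fermat.Agent.MW.EMB.Value6 Fermat.Agent.MW.EMB.OnePoint6 Fermat.Agent.MW.EMB.Coord6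
open Fermat.Agent.MW.EMB.Tangent6 Fermat.Agent.MW.EMB.Proj6
open Fermat.Agent.MW.PAIR.Pairing4
open Fermat.Agent.MW.POS.Minors9 Fermat.Agent.MW.POS.Jet9
open Fermat.Agent.MW.HT.Place3 (Qbar absV)
open Fermat.Agent.MW.HT.Ht3 (supN supN_nonneg le_supN supN_le)
open Fermat.Agent.MW.HT.Lin3 (archC supN_linearMap_le)

/-- The places of `ℚ` (HT's vocabulary). -/
abbrev VPl : Type := Fermat.Agent.MW.HT.Place3.Place

/-! ### Counting earlier occurrences in a sequence -/

section Count

variable {α : Type*} [DecidableEq α] {r : ℕ}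

/-- The number of occurrences of `z` strictly before the index `a`. -/
def cntAt (R : Fin r → α) (a : Fin r) (z : α) : ℕ :=
  (univ.filter fun a' : Fin r => a' < a ∧ R a' = z).card

/-- The number of earlier occurrences of `R a`: the order of the jet in the column `a`. -/
def cnt (R : Fin r → α) (a : Fin r) : ℕ := cntAt R a (R a)

theorem cnt_lt_of_lt (R : Fin r → α) {a₁ a₂ : Fin r} (h : a₁ < a₂) (hR : R a₁ = R a₂) :
    cnt R a₁ < cnt R a₂ := by
  unfold cnt cntAt
  refine Finset.card_lt_card ?_
  rw [Finset.ssubset_iff_of_subset]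
  · refine ⟨a₁, ?_, ?_⟩
    · simp [h, hR]
    · simp
  · intro a' ha'
    simp only [mem_filter, mem_univ, true_and] at ha' ⊢
    exact ⟨ha'.1.trans h, ha'.2.trans hR⟩

theorem cnt_lt_cntAt (R : Fin r → α) {a a' : Fin r} (h : a' < a) :
    cnt R a' < cntAt R a (R a') := by
  unfold cnt cntAt
  refine Finset.card_lt_card ?_
  rw [Finset.ssubset_iff_of_subset]
  · refine ⟨a', ?_, ?_⟩
    · simp [h]
    · simp
  · intro a'' ha''
    simp only [mem_filter, mem_univ, true_and] at ha'' ⊢
    exact ⟨ha''.1.trans h, ha''.2⟩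

/-- Every order below the number of earlier occurrences of `z` is realised by an earlier column
at `z`. -/
theorem exists_cnt_eq (R : Fin r → α) (a : Fin r) (z : α) {j : ℕ} (hj : j < cntAt R a z) :
    ∃ a' : Fin r, a' < a ∧ R a' = z ∧ cnt R a' = j := by
  set S := univ.filter fun a' : Fin r => a' < a ∧ R a' = z with hS
  have hinj : Set.InjOn (cnt R) (S : Set (Fin r)) := by
    intro a₁ h₁ a₂ h₂ h12
    have h₁' : a₁ < a ∧ R a₁ = z := by simpa [hS] using h₁
    have h₂' : a₂ < a ∧ R a₂ = z := by simpa [hS] using h₂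
    rcases lt_trichotomy a₁ a₂ with h | h | h
    · exact absurd h12 (cnt_lt_of_lt R h (h₁'.2.trans h₂'.2.symm)).ne
    · exact h
    · exact absurd h12.symm (cnt_lt_of_lt R h (h₂'.2.trans h₁'.2.symm)).ne
  have himg : S.image (cnt R) = Finset.range S.card := by
    refine Finset.eq_of_subset_of_card_le ?_ ?_
    · intro k hk
      obtain ⟨a', ha', rfl⟩ := Finset.mem_image.mp hk
      simp only [hS, mem_filter, mem_univ, true_and] at ha'
      rw [Finset.mem_range]
      have := cnt_lt_cntAt R ha'.1
      rw [ha'.2] at this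
      exact this
    · rw [Finset.card_range, Finset.card_image_of_injOn hinj]
  have hjmem : j ∈ S.image (cnt R) := by
    rw [himg, Finset.mem_range]; exact hj
  obtain ⟨a', ha', rfl⟩ := Finset.mem_image.mp hjmem
  simp only [hS, mem_filter, mem_univ, true_and] at ha'
  exact ⟨a', ha'.1, ha'.2, rfl⟩

end Count

/-! ### The value of `eff` at a point -/

theorem eff_apply {Pt ι : Type*} [DecidableEq Pt] (s : Finset ι) (z : ι → Pt) (w : Pt) :
    eff s z w = ((s.filter fun j => z j = w).card : ℤ) := by
  classical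
  rw [eff, Finsupp.finsetSum_apply, Finset.card_filter]
  push_cast
  refine Finset.sum_congr rfl fun j _ => ?_
  rw [Finsupp.single_apply]

/-! ### Local distances on the embedded curve -/

section Local

variable {F : Type*} [Field F] [Algebra Qbar F]
variable (H : LHyp Qbar F) (P0 : Place Qbar F) (d : ℕ) {t0 : F} (ht0 : P0.ord t0 = 1) {n : ℕ}
  (b : Module.Basis (Fin n) Qbar (Lm P0 d))

/-- The vector of `2 × 2` minors of two vectors. -/
noncomputable def wedge2 (x y : Fin n → Qbar) : Fin n × Fin n → Qbar := fun p => x p.1 * y p.2 - x p.2 * y p.1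

/-- The `v`-adic chordal distance of two points of the embedded curve. -/
noncomputable def chi (v : VPl) (z y : Place Qbar F) : ℝ :=
  supN v (wedge2 (pt H P0 d ht0 b z) (pt H P0 d ht0 b y)) /
    (supN v (pt H P0 d ht0 b z) * supN v (pt H P0 d ht0 b y))

/-- The diagonal (adjunction) value of the chordal distance w.r.t. a uniformizer. -/
noncomputable def kap (v : VPl) (y : Place Qbar F) {t : F} (ht : y.ord t = 1) : ℝ :=
  supN v (wedge2 (pt H P0 d ht0 b y) (dpt H P0 d ht0 b y ht)) / supN v (pt H P0 d ht0 b y) ^ 2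

theorem chi_nonneg (v : VPl) (z y : Place Qbar F) : 0 ≤ chi H P0 d ht0 b v z y :=
  div_nonneg (supN_nonneg v _) (mul_nonneg (supN_nonneg v _) (supN_nonneg v _))

theorem kap_nonneg (v : VPl) (y : Place Qbar F) {t : F} (ht : y.ord t = 1) :
    0 ≤ kap H P0 d ht0 b v y ht :=
  div_nonneg (supN_nonneg v _) (pow_nonneg (supN_nonneg v _) 2)

/-- A choice of uniformizers at all places. -/
abbrev Unif (F : Type*) [Field F] [Algebra Qbar F] : Type _ :=
  ∀ z : Place Qbar F, {t : F // z.ord t = 1}

/-- The chordal distance extended to the diagonal. -/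
noncomputable def chiT (v : VPl) (tu : Unif F) (z y : Place Qbar F) : ℝ := by
  classical
  exact if z = y then kap H P0 d ht0 b v y (tu y).2 else chi H P0 d ht0 b v z y

theorem chiT_nonneg (v : VPl) (tu : Unif F) (z y : Place Qbar F) :
    0 ≤ chiT H P0 d ht0 b v tu z y := by
  classical
  unfold chiT
  split_ifs
  · exact kap_nonneg H P0 d ht0 b v y _
  · exact chi_nonneg H P0 d ht0 b v z y

/-- **The local one-sided uniform decomposition with multiplicity** (leading-coefficient form):
for a linear form `c` whose hyperplane section contains `m·y + Σ_{j ∈ s} z j` (`z j ≠ y`), the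
`m`-th Taylor coefficient of `c` at `y` is bounded by the chordal distances. -/
def LocUD (Cud : VPl → ℝ) : Prop :=
  ∀ (v : VPl) (c : Fin n → Qbar) (hc : c ≠ 0) (y : Place Qbar F) (t : F) (ht : y.ord t = 1)
    (m : ℕ) (ι : Type) (s : Finset ι) (z : ι → Place Qbar F),
    (∀ j ∈ s, z j ≠ y) → eff s z + Finsupp.single y (m : ℤ) ≤ hyp H P0 d b hc →
    absV v (∑ i, c i * jet H P0 d ht0 b y ht m i) ≤
      Cud v * supN v c * supN v (pt H P0 d ht0 b y) * kap H P0 d ht0 b v y ht ^ m *
        ∏ j ∈ s, chi H P0 d ht0 b v (z j) y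

/-! ### The confluent evaluation matrix and the local Hadamard inequality -/

/-- The confluent evaluation matrix of the forms `ω i` on the sequence of places `R`: the column `a`
is the jet of order `cnt R a` at `R a`. -/
noncomputable def confMat (tu : Unif F) {r : ℕ} (R : Fin r → Place Qbar F)
    (ω : Fin r → Fin n → Qbar) : Matrix (Fin r) (Fin r) Qbar := by
  classical
  exact fun i a => ∑ k, ω i k * jet H P0 d ht0 b (R a) (tu (R a)).2 (cnt R a) k

theorem confMat_apply [DecidableEq (Place Qbar F)] (tu : Unif F) {r : ℕ}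
    (R : Fin r → Place Qbar F) (ω : Fin r → Fin n → Qbar) (i a : Fin r) :
    confMat H P0 d ht0 b tu R ω i a =
      ∑ k, ω i k * jet H P0 d ht0 b (R a) (tu (R a)).2 (cnt R a) k := by
  unfold confMat
  congr!

/-- Splitting `eff` over a sum type. -/
theorem eff_sum_elim {Pt : Type*} {ι κ : Type*} [Fintype ι] [Fintype κ] (p : κ → Prop)
    [DecidablePred p] [DecidablePred fun j : ι ⊕ κ => Sum.elim (fun _ => True) p j]
    (z : ι → Pt) (R : κ → Pt) :
    eff (univ.filter fun j : ι ⊕ κ => Sum.elim (fun _ => True) p j) (Sum.elim z R) =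
      eff univ z + eff (univ.filter p) R := by
  classical
  unfold eff
  rw [Finset.sum_filter, Fintype.sum_sum_type, Finset.sum_filter]
  simp

/-- Splitting a product over a sum type. -/
theorem prod_sum_elim {ι κ : Type*} [Fintype ι] [Fintype κ] (p : κ → Prop)
    [DecidablePred p] [DecidablePred fun j : ι ⊕ κ => Sum.elim (fun _ => True) p j]
    (f : ι → ℝ) (g : κ → ℝ) :
    ∏ j ∈ univ.filter (fun j : ι ⊕ κ => Sum.elim (fun _ => True) p j), Sum.elim f g j =
      (∏ j, f j) * ∏ a ∈ univ.filter p, g a := by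
  classical
  rw [Finset.prod_filter, Fintype.prod_sum_type, Finset.prod_filter]
  simp

/-- **The local confluent Hadamard inequality.** -/
theorem absV_det_le {Cud : VPl → ℝ} (hUD : LocUD H P0 d ht0 b Cud) (hCud : ∀ v, 0 ≤ Cud v)
    (v : VPl) (tu : Unif F) {r : ℕ} (R : Fin r → Place Qbar F) {qF : ℕ}
    (zF : Fin qF → Place Qbar F) (hdisj : ∀ j a, zF j ≠ R a) (ω : Fin r → Fin n → Qbar)
    (hω : ∀ (c' : Fin r → Qbar) (hl : (∑ i, c' i • ω i) ≠ 0),
      eff univ zF ≤ hyp H P0 d b hl) :
    absV v (confMat H P0 d ht0 b tu R ω).det ≤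
      ∏ a, (archC r v * supN v (fun p : Fin n × Fin r => ω p.2 p.1) * Cud v *
        supN v (pt H P0 d ht0 b (R a)) * (∏ j, chi H P0 d ht0 b v (zF j) (R a)) *
        ∏ a' ∈ univ.filter (· < a), chiT H P0 d ht0 b v tu (R a') (R a)) := by
  classical
  refine abv_det_le_prod (absV v) _ _ ?_
  intro a c' M hM hvan
  beta_reduce
  have hr : 0 < r := Fin.pos a
  have hM0 : 0 ≤ M := le_trans ((absV v).nonneg _) (hM a)
  have harch : 0 ≤ archC r v := (Fermat.Agent.MW.HT.Lin3.archC_pos hr v).le
  -- the combined linear form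
  set l : Fin n → Qbar := ∑ i, c' i • ω i with hl
  have hlk : ∀ k, l k = ∑ i, c' i * ω i k := by
    intro k
    simp [hl, Finset.sum_apply]
  have hcol : ∀ a'' : Fin r, ∑ i, c' i * confMat H P0 d ht0 b tu R ω i a'' =
      ∑ k, l k * jet H P0 d ht0 b (R a'') (tu (R a'')).2 (cnt R a'') k := by
    intro a''
    simp only [confMat_apply, hlk, Finset.mul_sum, Finset.sum_mul]
    rw [Finset.sum_comm]
    exact Finset.sum_congr rfl fun k _ => Finset.sum_congr rfl fun i _ => by ring
  set y : Place Qbar F := R a with hy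
  have hprodF0 : 0 ≤ ∏ j, chi H P0 d ht0 b v (zF j) y :=
    Finset.prod_nonneg fun j _ => chi_nonneg H P0 d ht0 b v _ _
  have hprodT0 : 0 ≤ ∏ a' ∈ univ.filter (· < a), chiT H P0 d ht0 b v tu (R a') y :=
    Finset.prod_nonneg fun j _ => chiT_nonneg H P0 d ht0 b v tu _ _
  have hβ0 : 0 ≤ archC r v * supN v (fun p : Fin n × Fin r => ω p.2 p.1) * Cud v *
      supN v (pt H P0 d ht0 b y) * (∏ j, chi H P0 d ht0 b v (zF j) y) *
      ∏ a' ∈ univ.filter (· < a), chiT H P0 d ht0 b v tu (R a') y :=
    mul_nonneg (mul_nonneg (mul_nonneg (mul_nonneg (mul_nonneg harch (supN_nonneg v _))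
      (hCud v)) (supN_nonneg v _)) hprodF0) hprodT0
  rw [hcol a]
  by_cases hl0 : l = 0
  · rw [hl0]
    simp only [Pi.zero_apply, zero_mul, Finset.sum_const_zero, map_zero]
    exact mul_nonneg hβ0 hM0
  -- (1) the norm of the combined form
  have hnorm : supN v l ≤ archC r v * supN v (fun p : Fin n × Fin r => ω p.2 p.1) * M := by
    have h1 := supN_linearMap_le v (fun p : Fin n × Fin r => ω p.2 p.1) c'
    have h2 : (fun k => ∑ᶠ i, (fun p : Fin n × Fin r => ω p.2 p.1) (k, i) * c' i) = l := by
      funext k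
      rw [finsum_eq_sum_of_fintype, hlk]
      exact Finset.sum_congr rfl fun i _ => by ring
    rw [h2, Nat.card_fin] at h1
    refine h1.trans ?_
    exact mul_le_mul_of_nonneg_left (supN_le v c' hM0 hM)
      (mul_nonneg harch (supN_nonneg v _))
  -- (2) multiplicities of the earlier points in the hyperplane section of `l`
  have hcount : ∀ z : Place Qbar F, ((cntAt R a z : ℕ) : ℤ) ≤ hyp H P0 d b hl0 z := by
    intro z
    rw [le_hyp_iff H P0 d ht0 b hl0 z (tu z).2]
    intro j hj
    obtain ⟨a', ha', hRa', hcnt⟩ := exists_cnt_eq R a z hj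
    have h3 := hvan a' ha'
    rw [hcol a'] at h3
    subst hRa'
    rw [hcnt] at h3
    exact h3
  -- (3) the divisor inequality
  have hdiv : eff (univ.filter fun j : Fin qF ⊕ Fin r =>
        Sum.elim (fun _ => True) (fun a' => a' < a ∧ R a' ≠ y) j) (Sum.elim zF R) +
      Finsupp.single y ((cnt R a : ℕ) : ℤ) ≤ hyp H P0 d b hl0 := by
    rw [eff_sum_elim (fun a' => a' < a ∧ R a' ≠ y) zF R]
    intro w
    rw [Finsupp.add_apply, Finsupp.add_apply, eff_apply, eff_apply, Finsupp.single_apply]
    have hzF : ((univ.filter fun j => zF j = w).card : ℤ) ≤ hyp H P0 d b hl0 w := by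
      have := hω c' hl0 w
      rwa [eff_apply] at this
    by_cases hw : y = w
    · subst hw
      rw [if_pos rfl]
      have e1 : (univ.filter fun j => zF j = y) = ∅ := by
        refine Finset.filter_eq_empty_iff.mpr fun j _ => ?_
        exact hdisj j a
      have e2 : ((univ.filter fun a' => a' < a ∧ R a' ≠ y).filter fun j => R j = y) = ∅ := by
        refine Finset.filter_eq_empty_iff.mpr fun j hj => ?_
        exact (Finset.mem_filter.mp hj).2.2
      rw [e1, e2]
      simp only [card_empty, Nat.cast_zero, zero_add]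
      exact hcount y
    · rw [if_neg hw, add_zero]
      by_cases hex : ∃ j0, zF j0 = w
      · obtain ⟨j0, rfl⟩ := hex
        have e2 : ((univ.filter fun a' => a' < a ∧ R a' ≠ y).filter fun j => R j = zF j0) = ∅ := by
          refine Finset.filter_eq_empty_iff.mpr fun j _ => ?_
          exact fun h => hdisj j0 j h.symm
        rw [e2]
        simpa using hzF
      · have e1 : (univ.filter fun j => zF j = w) = ∅ := by
          refine Finset.filter_eq_empty_iff.mpr fun j _ => ?_
          exact fun h => hex ⟨j, h⟩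
        rw [e1]
        have hsub : ((univ.filter fun a' => a' < a ∧ R a' ≠ y).filter fun j => R j = w) ⊆
            univ.filter fun a' : Fin r => a' < a ∧ R a' = w := by
          intro j hj
          simp only [mem_filter, mem_univ, true_and] at hj ⊢
          exact ⟨hj.1.1, hj.2⟩
        have hle := Finset.card_le_card hsub
        have := hcount w
        unfold cntAt at this
        simp only [card_empty, Nat.cast_zero, zero_add]
        exact le_trans (by exact_mod_cast hle) this
  have hne : ∀ j ∈ (univ.filter fun j : Fin qF ⊕ Fin r =>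
      Sum.elim (fun _ => True) (fun a' => a' < a ∧ R a' ≠ y) j), Sum.elim zF R j ≠ y := by
    intro j hj
    rcases j with j | a'
    · exact hdisj j a
    · exact (Finset.mem_filter.mp hj).2.2
  -- (4) the local uniform decomposition
  have hloc := hUD v l hl0 y (tu y).1 (tu y).2 (cnt R a) (Fin qF ⊕ Fin r) _ (Sum.elim zF R) hne hdiv
  refine hloc.trans ?_
  -- (5) bookkeeping of the products
  have hprod1 : ∏ j ∈ univ.filter (fun j : Fin qF ⊕ Fin r =>
        Sum.elim (fun _ => True) (fun a' => a' < a ∧ R a' ≠ y) j),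
        chi H P0 d ht0 b v (Sum.elim zF R j) y =
      (∏ j, chi H P0 d ht0 b v (zF j) y) *
        ∏ a' ∈ univ.filter (fun a' => a' < a ∧ R a' ≠ y), chi H P0 d ht0 b v (R a') y := by
    rw [← prod_sum_elim (fun a' => a' < a ∧ R a' ≠ y)
      (fun j => chi H P0 d ht0 b v (zF j) y) (fun a' => chi H P0 d ht0 b v (R a') y)]
    refine Finset.prod_congr rfl fun j _ => ?_
    rcases j with j | a' <;> rfl
  have hprod2 : ∏ a' ∈ univ.filter (· < a), chiT H P0 d ht0 b v tu (R a') y =
      kap H P0 d ht0 b v y (tu y).2 ^ cnt R a *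
        ∏ a' ∈ univ.filter (fun a' => a' < a ∧ R a' ≠ y), chi H P0 d ht0 b v (R a') y := by
    rw [← Finset.prod_filter_mul_prod_filter_not (univ.filter (· < a)) (fun a' => R a' = y)]
    congr 1
    · rw [Finset.filter_filter]
      rw [Finset.prod_congr rfl (g := fun _ => kap H P0 d ht0 b v y (tu y).2)]
      · rw [Finset.prod_const]
        rfl
      · intro a' ha'
        have h1 : R a' = y := (Finset.mem_filter.mp ha').2.2
        unfold chiT
        rw [if_pos h1]
    · rw [Finset.filter_filter]
      refine Finset.prod_congr rfl fun a' ha' => ?_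
      have h1 : ¬ R a' = y := (Finset.mem_filter.mp ha').2.2
      unfold chiT
      rw [if_neg h1]
  rw [hprod1, hprod2]
  have hk0 : 0 ≤ kap H P0 d ht0 b v y (tu y).2 ^ cnt R a :=
    pow_nonneg (kap_nonneg H P0 d ht0 b v y _) _
  have hq0 : 0 ≤ ∏ a' ∈ univ.filter (fun a' => a' < a ∧ R a' ≠ y),
      chi H P0 d ht0 b v (R a') y :=
    Finset.prod_nonneg fun j _ => chi_nonneg H P0 d ht0 b v _ _
  have hrest : 0 ≤ Cud v * supN v (pt H P0 d ht0 b y) *
      (kap H P0 d ht0 b v y (tu y).2 ^ cnt R a) *
      ((∏ j, chi H P0 d ht0 b v (zF j) y) *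
        ∏ a' ∈ univ.filter (fun a' => a' < a ∧ R a' ≠ y), chi H P0 d ht0 b v (R a') y) :=
    mul_nonneg (mul_nonneg (mul_nonneg (hCud v) (supN_nonneg v _)) hk0)
      (mul_nonneg hprodF0 hq0)
  have := mul_le_mul_of_nonneg_right hnorm hrest
  calc Cud v * supN v l * supN v (pt H P0 d ht0 b y) *
        kap H P0 d ht0 b v y (tu y).2 ^ cnt R a *
        ((∏ j, chi H P0 d ht0 b v (zF j) y) *
          ∏ a' ∈ univ.filter (fun a' => a' < a ∧ R a' ≠ y), chi H P0 d ht0 b v (R a') y)
      = supN v l * (Cud v * supN v (pt H P0 d ht0 b y) *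
        (kap H P0 d ht0 b v y (tu y).2 ^ cnt R a) *
        ((∏ j, chi H P0 d ht0 b v (zF j) y) *
          ∏ a' ∈ univ.filter (fun a' => a' < a ∧ R a' ≠ y), chi H P0 d ht0 b v (R a') y)) := by
        ring
    _ ≤ archC r v * supN v (fun p : Fin n × Fin r => ω p.2 p.1) * M *
        (Cud v * supN v (pt H P0 d ht0 b y) *
        (kap H P0 d ht0 b v y (tu y).2 ^ cnt R a) *
        ((∏ j, chi H P0 d ht0 b v (zF j) y) *
          ∏ a' ∈ univ.filter (fun a' => a' < a ∧ R a' ≠ y), chi H P0 d ht0 b v (R a') y)) := this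
    _ = _ := by ring

end Local

end Fermat.Agent.MW.POS.HadLoc9
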