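/-
PROGRAMME MW (S17), block POS (helper9).  `HadGlob9`: from the LOCAL confluent Hadamard inequality
(`HadLoc9.absV_det_le`) to the GLOBAL one, by HT's local ⇒ global principle and the product formula.

* Part 1: `log_absV_det_le`, the logarithmic form of the local inequality (`EmbPos` = positivity
  hypotheses `pt ≠ 0`, separation of points, immersion);
* Part 2: `GS f w S` ("`f` is adelic on the orbit of `w` with global sum `S`") and its calculus;
* Part 3: `GalEq` (Galois equivariance of jets and hyperplane sections, block EMB (E6)), the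
  conjugate uniformizers `conjUnif`, `jet_conj`, `pt_conj`, `dpt_conj`, `cnt_conj`;
* Part 4: the master tuple `tup` of a configuration (jets, points, tangent vectors, auxiliary
  points, forms), `tup_conj` (the conjugate of a configuration is a configuration), `detY`;
* Part 5: **`had_global`**: for a sequence of places `R : Fin r → Place` (repetitions = confluent
  case), auxiliary points `zF` (disjoint from `R`), forms `ω i` all of whose nonzero combinations
  vanish on `Σ_j zF j`, and a nonvanishing confluent determinant: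
    `Σ_{a' < a} lamT (R a') (R a) + Σ_{a, j} lamO (zF j) (R a)
        ≤ Σ_a ht (pt (R a)) + r * (log r + ht ω + Σ_v log (Cud v))`,
  `lamO z y = ht (pt z) + ht (pt y) - ht (wedge2 (pt z) (pt y))`,
  `lamD y = 2 ht (pt y) - ht (wedge2 (pt y) (dpt y))` its diagonal (adjunction) value.
-/
import Mathlib
import Fermat.Prelude.Def_AlgebraicCurve_BaseChangeGalois
import Fermat.Agent.MW.POS.HadLoc9

set_option autoImplicit false
set_option linter.unusedSectionVars false

open AlgebraicCurve

namespace Fermat.Agent.MW.POS.HadGlob9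

open Finset
open Fermat.Agent.RR.LSpace
open Fermat.Agent.MW.EMB.Value6 Fermat.Agent.MW.EMB.OnePoint6 Fermat.Agent.MW.EMB.Coord6
open Fermat.Agent.MW.EMB.Tangent6 Fermat.Agent.MW.EMB.Proj6
open Fermat.Agent.MW.PAIR.Pairing4
open Fermat.Agent.MW.POS.Minors9 Fermat.Agent.MW.POS.Jet9 Fermat.Agent.MW.POS.HadLoc9
open Fermat.Agent.MW.HT.Place3 (Qbar GQ absV)
open Fermat.Agent.MW.HT.Ht3 (supN supN_nonneg le_supN supN_le supN_pos)
open Fermat.Agent.MW.HT.Lin3 (archC supN_linearMap_le archC_pos)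

section LogLocal

variable {F : Type*} [Field F] [Algebra Qbar F]
variable (H : LHyp Qbar F) (P0 : Place Qbar F) (d : ℕ) {t0 : F} (ht0 : P0.ord t0 = 1) {n : ℕ}
  (b : Module.Basis (Fin n) Qbar (Lm P0 d))

/-- `log` of the chordal distance. -/
theorem log_chi (v : VPl) {z y : Place Qbar F}
    (hz : pt H P0 d ht0 b z ≠ 0) (hy : pt H P0 d ht0 b y ≠ 0)
    (hw : wedge2 (pt H P0 d ht0 b z) (pt H P0 d ht0 b y) ≠ 0) :
    Real.log (chi H P0 d ht0 b v z y) =
      Real.log (supN v (wedge2 (pt H P0 d ht0 b z) (pt H P0 d ht0 b y))) -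
        Real.log (supN v (pt H P0 d ht0 b z)) - Real.log (supN v (pt H P0 d ht0 b y)) := by
  have h1 := (supN_pos v hz).ne'
  have h2 := (supN_pos v hy).ne'
  have h3 := (supN_pos v hw).ne'
  rw [chi, Real.log_div h3 (mul_ne_zero h1 h2), Real.log_mul h1 h2]
  ring

theorem chi_pos (v : VPl) {z y : Place Qbar F}
    (hz : pt H P0 d ht0 b z ≠ 0) (hy : pt H P0 d ht0 b y ≠ 0)
    (hw : wedge2 (pt H P0 d ht0 b z) (pt H P0 d ht0 b y) ≠ 0) :
    0 < chi H P0 d ht0 b v z y :=
  div_pos (supN_pos v hw) (mul_pos (supN_pos v hz) (supN_pos v hy))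

/-- `log` of the diagonal value. -/
theorem log_kap (v : VPl) {y : Place Qbar F} {t : F} (ht : y.ord t = 1)
    (hy : pt H P0 d ht0 b y ≠ 0)
    (hw : wedge2 (pt H P0 d ht0 b y) (dpt H P0 d ht0 b y ht) ≠ 0) :
    Real.log (kap H P0 d ht0 b v y ht) =
      Real.log (supN v (wedge2 (pt H P0 d ht0 b y) (dpt H P0 d ht0 b y ht))) -
        2 * Real.log (supN v (pt H P0 d ht0 b y)) := by
  have h2 := (supN_pos v hy).ne'
  have h3 := (supN_pos v hw).ne'
  rw [kap, Real.log_div h3 (pow_ne_zero 2 h2), Real.log_pow]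
  push_cast
  ring

theorem kap_pos (v : VPl) {y : Place Qbar F} {t : F} (ht : y.ord t = 1)
    (hy : pt H P0 d ht0 b y ≠ 0)
    (hw : wedge2 (pt H P0 d ht0 b y) (dpt H P0 d ht0 b y ht) ≠ 0) :
    0 < kap H P0 d ht0 b v y ht :=
  div_pos (supN_pos v hw) (pow_pos (supN_pos v hy) 2)

/-- The logarithm of the extended chordal distance, as a function of the coordinate vectors. -/
noncomputable def logChiT (v : VPl) (tu : Unif F) (z y : Place Qbar F) : ℝ := by
  classical
  exact if z = y then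
    Real.log (supN v (wedge2 (pt H P0 d ht0 b y) (dpt H P0 d ht0 b y (tu y).2))) -
      2 * Real.log (supN v (pt H P0 d ht0 b y))
  else
    Real.log (supN v (wedge2 (pt H P0 d ht0 b z) (pt H P0 d ht0 b y))) -
      Real.log (supN v (pt H P0 d ht0 b z)) - Real.log (supN v (pt H P0 d ht0 b y))

/-- The positivity hypotheses on the embedding (from EMB: `pt_ne_zero`, `pt_indep`,
`pt_dpt_indep`). -/
structure EmbPos : Prop where
  nz : ∀ y : Place Qbar F, pt H P0 d ht0 b y ≠ 0
  sep : ∀ z y : Place Qbar F, z ≠ y →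
    wedge2 (pt H P0 d ht0 b z) (pt H P0 d ht0 b y) ≠ 0
  imm : ∀ (y : Place Qbar F) (t : F) (ht : y.ord t = 1),
    wedge2 (pt H P0 d ht0 b y) (dpt H P0 d ht0 b y ht) ≠ 0

theorem chiT_pos (hE : EmbPos H P0 d ht0 b) (v : VPl) (tu : Unif F) (z y : Place Qbar F) :
    0 < chiT H P0 d ht0 b v tu z y := by
  classical
  unfold chiT
  split_ifs with h
  · exact kap_pos H P0 d ht0 b v _ (hE.nz y) (hE.imm y _ _)
  · exact chi_pos H P0 d ht0 b v (hE.nz z) (hE.nz y) (hE.sep z y h)

theorem log_chiT (hE : EmbPos H P0 d ht0 b) (v : VPl) (tu : Unif F) (z y : Place Qbar F) :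
    Real.log (chiT H P0 d ht0 b v tu z y) = logChiT H P0 d ht0 b v tu z y := by
  classical
  unfold chiT logChiT
  split_ifs with h
  · exact log_kap H P0 d ht0 b v _ (hE.nz y) (hE.imm y _ _)
  · exact log_chi H P0 d ht0 b v (hE.nz z) (hE.nz y) (hE.sep z y h)

/-- **The local confluent Hadamard inequality, logarithmic form.** -/
theorem log_absV_det_le (hE : EmbPos H P0 d ht0 b) {Cud : VPl → ℝ}
    (hUD : LocUD H P0 d ht0 b Cud) (hCud : ∀ v, 1 ≤ Cud v)
    (v : VPl) (tu : Unif F) {r : ℕ} (R : Fin r → Place Qbar F) {qF : ℕ}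
    (zF : Fin qF → Place Qbar F) (hdisj : ∀ j a, zF j ≠ R a) (ω : Fin r → Fin n → Qbar)
    (hω : ∀ (c' : Fin r → Qbar) (hl : (∑ i, c' i • ω i) ≠ 0),
      eff univ zF ≤ hyp H P0 d b hl)
    (hdet : (confMat H P0 d ht0 b tu R ω).det ≠ 0) :
    Real.log (absV v (confMat H P0 d ht0 b tu R ω).det) ≤
      ∑ a, (Real.log (supN v (fun p : Fin n × Fin r => ω p.2 p.1)) +
        Real.log (supN v (pt H P0 d ht0 b (R a))) +
        (∑ j, (Real.log (supN v (wedge2 (pt H P0 d ht0 b (zF j)) (pt H P0 d ht0 b (R a)))) -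
          Real.log (supN v (pt H P0 d ht0 b (zF j))) -
          Real.log (supN v (pt H P0 d ht0 b (R a))))) +
        ∑ a' ∈ univ.filter (· < a), logChiT H P0 d ht0 b v tu (R a') (R a)) +
      r * (Real.log (archC r v) + Real.log (Cud v)) := by
  classical
  have hC0 : ∀ v, 0 ≤ Cud v := fun v => le_trans zero_le_one (hCud v)
  have hloc := absV_det_le H P0 d ht0 b hUD hC0 v tu R zF hdisj ω hω
  have hpos : 0 < absV v (confMat H P0 d ht0 b tu R ω).det := (absV v).pos hdet
  refine (Real.log_le_log hpos hloc).trans ?_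
  -- `r = 0` is trivial; otherwise all factors are positive
  rcases Nat.eq_zero_or_pos r with hr0 | hr
  · subst hr0
    simp
  have hω0 : (fun p : Fin n × Fin r => ω p.2 p.1) ≠ 0 := by
    intro h0
    apply hdet
    have hz : confMat H P0 d ht0 b tu R ω = 0 := by
      ext i a
      rw [confMat_apply]
      refine Finset.sum_eq_zero fun k _ => ?_
      have := congrFun h0 (k, i)
      simp only [Pi.zero_apply] at this
      rw [this, zero_mul]
    rw [hz]
    have : Nonempty (Fin r) := ⟨⟨0, hr⟩⟩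
    exact Matrix.det_zero
  have hA : 0 < archC r v := archC_pos hr v
  have hW : 0 < supN v (fun p : Fin n × Fin r => ω p.2 p.1) := supN_pos v hω0
  have hCp : 0 < Cud v := lt_of_lt_of_le zero_lt_one (hCud v)
  have hfac : ∀ a, 0 < archC r v * supN v (fun p : Fin n × Fin r => ω p.2 p.1) * Cud v *
      supN v (pt H P0 d ht0 b (R a)) * (∏ j, chi H P0 d ht0 b v (zF j) (R a)) *
      ∏ a' ∈ univ.filter (· < a), chiT H P0 d ht0 b v tu (R a') (R a) := by
    intro a
    refine mul_pos (mul_pos (mul_pos (mul_pos (mul_pos hA hW) hCp) (supN_pos v (hE.nz _))) ?_) ?_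
    · exact Finset.prod_pos fun j _ =>
        chi_pos H P0 d ht0 b v (hE.nz _) (hE.nz _) (hE.sep _ _ (hdisj j a))
    · exact Finset.prod_pos fun a' _ => chiT_pos H P0 d ht0 b hE v tu _ _
  rw [Real.log_prod (fun a _ => (hfac a).ne')]
  have hterm : ∀ a, Real.log (archC r v * supN v (fun p : Fin n × Fin r => ω p.2 p.1) * Cud v *
      supN v (pt H P0 d ht0 b (R a)) * (∏ j, chi H P0 d ht0 b v (zF j) (R a)) *
      ∏ a' ∈ univ.filter (· < a), chiT H P0 d ht0 b v tu (R a') (R a)) =
      (Real.log (supN v (fun p : Fin n × Fin r => ω p.2 p.1)) +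
        Real.log (supN v (pt H P0 d ht0 b (R a))) +
        (∑ j, (Real.log (supN v (wedge2 (pt H P0 d ht0 b (zF j)) (pt H P0 d ht0 b (R a)))) -
          Real.log (supN v (pt H P0 d ht0 b (zF j))) -
          Real.log (supN v (pt H P0 d ht0 b (R a))))) +
        ∑ a' ∈ univ.filter (· < a), logChiT H P0 d ht0 b v tu (R a') (R a)) +
      (Real.log (archC r v) + Real.log (Cud v)) := by
    intro a
    have hP := (supN_pos v (hE.nz (R a))).ne'
    have hF : (∏ j, chi H P0 d ht0 b v (zF j) (R a)) ≠ 0 :=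
      (Finset.prod_pos fun j _ =>
        chi_pos H P0 d ht0 b v (hE.nz _) (hE.nz _) (hE.sep _ _ (hdisj j a))).ne'
    have hT : (∏ a' ∈ univ.filter (· < a), chiT H P0 d ht0 b v tu (R a') (R a)) ≠ 0 :=
      (Finset.prod_pos fun a' _ => chiT_pos H P0 d ht0 b hE v tu _ _).ne'
    rw [Real.log_mul (by positivity) hT, Real.log_mul (by positivity) hF,
      Real.log_mul (by positivity) hP, Real.log_mul (by positivity) hCp.ne',
      Real.log_mul hA.ne' hW.ne',
      Real.log_prod (fun j _ =>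
        (chi_pos H P0 d ht0 b v (hE.nz _) (hE.nz _) (hE.sep _ _ (hdisj j a))).ne'),
      Real.log_prod (fun a' _ => (chiT_pos H P0 d ht0 b hE v tu _ _).ne')]
    rw [Finset.sum_congr rfl (fun j _ =>
      log_chi H P0 d ht0 b v (hE.nz (zF j)) (hE.nz (R a)) (hE.sep _ _ (hdisj j a))),
      Finset.sum_congr rfl (fun a' _ => log_chiT H P0 d ht0 b hE v tu (R a') (R a))]
    ring
  rw [Finset.sum_congr rfl (fun a _ => hterm a), Finset.sum_add_distrib, Finset.sum_const,
    Finset.card_univ, Fintype.card_fin, nsmul_eq_mul]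

end LogLocal

/-! ### Part 2: a small calculus for global sums -/

section GSCalc

open Fermat.Agent.MW.HT.Orbit3 Fermat.Agent.MW.HT.Glob3 Fermat.Agent.MW.HT.PF3
open Fermat.Agent.MW.HT.Ht3 (ht ht_map adelic_log_supN_map)

variable {ι κ : Type*} [Finite ι] [Finite κ]

/-- `f` is adelic on the orbit of `w` and its global sum is `S`. -/
def GS (f : VPl → (ι → Qbar) → ℝ) (w : ι → Qbar) (S : ℝ) : Prop :=
  Adelic f w ∧ gsum f w = S

theorem GS.add {f g : VPl → (ι → Qbar) → ℝ} {w : ι → Qbar} {S T : ℝ} (hf : GS f w S)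
    (hg : GS g w T) : GS (fun v y => f v y + g v y) w (S + T) :=
  ⟨hf.1.add hg.1, by rw [gsum_add hf.1 hg.1, hf.2, hg.2]⟩

theorem GS.sub {f g : VPl → (ι → Qbar) → ℝ} {w : ι → Qbar} {S T : ℝ} (hf : GS f w S)
    (hg : GS g w T) : GS (fun v y => f v y - g v y) w (S - T) :=
  ⟨hf.1.sub hg.1, by rw [gsum_sub hf.1 hg.1, hf.2, hg.2]⟩

theorem GS.const_mul {f : VPl → (ι → Qbar) → ℝ} {w : ι → Qbar} {S : ℝ} (hf : GS f w S)
    (c : ℝ) : GS (fun v y => c * f v y) w (c * S) :=
  ⟨hf.1.const_mul c, by rw [gsum_const_mul, hf.2]⟩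

theorem GS.finset_sum {α : Type*} (s : Finset α) {f : α → VPl → (ι → Qbar) → ℝ}
    {w : ι → Qbar} {S : α → ℝ} (hf : ∀ a ∈ s, GS (f a) w (S a)) :
    GS (fun v y => ∑ a ∈ s, f a v y) w (∑ a ∈ s, S a) :=
  ⟨adelic_finset_sum s fun a ha => (hf a ha).1, by
    rw [gsum_finset_sum s fun a ha => (hf a ha).1]
    exact Finset.sum_congr rfl fun a ha => (hf a ha).2⟩

theorem GS.ite (c : Prop) [Decidable c] {f g : VPl → (ι → Qbar) → ℝ} {w : ι → Qbar} {S T : ℝ}
    (hf : GS f w S) (hg : GS g w T) :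
    GS (fun v y => if c then f v y else g v y) w (if c then S else T) := by
  split_ifs with h
  · simpa only [if_pos h] using hf
  · simpa only [if_neg h] using hg

theorem GS.log_supN {φ : (ι → Qbar) → (κ → Qbar)}
    (hφ : ∀ (σ : GQ) (y : ι → Qbar), φ (σ • y) = σ • φ y) (w : ι → Qbar) :
    GS (fun v y => Real.log (supN v (φ y))) w (ht (φ w)) :=
  ⟨adelic_log_supN_map hφ w, (ht_map hφ w).symm⟩

end GSCalc

/-! ### Part 3: Galois conjugation of configurations -/

section Conj

variable {F : Type*} [Field F] [Algebra Qbar F]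
variable (H : LHyp Qbar F) (P0 : Place Qbar F) (d : ℕ) {t0 : F} (ht0 : P0.ord t0 = 1) {n : ℕ}
  (b : Module.Basis (Fin n) Qbar (Lm P0 d))
variable (gal : GQ → SemilinearAut Qbar F)

/-- Galois equivariance of the jets of the embedding and of the hyperplane sections (block EMB (E6)
for a rational basis). -/
structure GalEq : Prop where
  jet_smul : ∀ (σ : GQ) (v : Place Qbar F) {t : F} (ht : v.ord t = 1)
    (ht' : (gal σ • v).ord (gal σ • t) = 1) (j : ℕ) (i : Fin n),
    jet H P0 d ht0 b (gal σ • v) ht' j i = σ (jet H P0 d ht0 b v ht j i)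
  hyp_smul : ∀ (σ : GQ) (c : Fin n → Qbar) (hc : c ≠ 0) (hc' : (fun i => σ (c i)) ≠ 0)
    (v : Place Qbar F), hyp H P0 d b hc' (gal σ • v) = hyp H P0 d b hc v

theorem jet_congr (v : Place Qbar F) {t t' : F} (h : t = t') (ht : v.ord t = 1)
    (ht' : v.ord t' = 1) (j : ℕ) : jet H P0 d ht0 b v ht j = jet H P0 d ht0 b v ht' j := by
  subst h
  rfl

/-- The conjugate choice of uniformizers. -/
noncomputable def conjUnif (σ : GQ) (tu : Unif F) : Unif F := fun z' =>
  ⟨gal σ • (tu ((gal σ)⁻¹ • z')).1, by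
    have h := SemilinearAut.ord_smul (gal σ) ((gal σ)⁻¹ • z') (tu ((gal σ)⁻¹ • z')).1
    rw [smul_inv_smul] at h
    rw [h]
    exact (tu _).2⟩

theorem conjUnif_smul (σ : GQ) (tu : Unif F) (z : Place Qbar F) :
    (conjUnif gal σ tu (gal σ • z)).1 = gal σ • (tu z).1 := by
  show gal σ • (tu ((gal σ)⁻¹ • (gal σ • z))).1 = _
  rw [inv_smul_smul]

variable {gal}

theorem jet_conj (hG : GalEq H P0 d ht0 b gal) (σ : GQ) (tu : Unif F) (z : Place Qbar F)
    (j : ℕ) (i : Fin n) :
    jet H P0 d ht0 b (gal σ • z) (conjUnif gal σ tu (gal σ • z)).2 j i =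
      σ (jet H P0 d ht0 b z (tu z).2 j i) := by
  have h1 := conjUnif_smul gal σ tu z
  have ht' : (gal σ • z).ord (gal σ • (tu z).1) = 1 := by
    rw [SemilinearAut.ord_smul]; exact (tu z).2
  rw [jet_congr H P0 d ht0 b (gal σ • z) h1 _ ht']
  exact hG.jet_smul σ z (tu z).2 ht' j i

theorem pt_conj (hG : GalEq H P0 d ht0 b gal) (σ : GQ) (z : Place Qbar F) (i : Fin n) :
    pt H P0 d ht0 b (gal σ • z) i = σ (pt H P0 d ht0 b z i) := by
  classical
  obtain ⟨t, ht⟩ : ∃ t : F, z.ord t = 1 := ⟨_, Fermat.Agent.X0.FF.ffu_ord z⟩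
  have ht' : (gal σ • z).ord (gal σ • t) = 1 := by rw [SemilinearAut.ord_smul]; exact ht
  have := hG.jet_smul σ z ht ht' 0 i
  rwa [jet_zero, jet_zero] at this

theorem dpt_conj (hG : GalEq H P0 d ht0 b gal) (σ : GQ) (tu : Unif F) (z : Place Qbar F)
    (i : Fin n) :
    dpt H P0 d ht0 b (gal σ • z) (conjUnif gal σ tu (gal σ • z)).2 i =
      σ (dpt H P0 d ht0 b z (tu z).2 i) := by
  have := jet_conj H P0 d ht0 b hG σ tu z 1 i
  rwa [jet_one, jet_one] at this

theorem cnt_conj [DecidableEq (Place Qbar F)] (σ : GQ) {r : ℕ} (R : Fin r → Place Qbar F)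
    (a : Fin r) : cnt (fun a => gal σ • R a) a = cnt R a := by
  unfold cnt cntAt
  congr 1
  refine Finset.filter_congr fun a' _ => ?_
  rw [(MulAction.injective (gal σ)).eq_iff]

end Conj

/-! ### Part 4: the master configuration -/

section Master

open Fermat.Agent.MW.HT.Orbit3 (smul_apply)

variable {F : Type*} [Field F] [Algebra Qbar F] [DecidableEq (Place Qbar F)]
variable (H : LHyp Qbar F) (P0 : Place Qbar F) (d : ℕ) {t0 : F} (ht0 : P0.ord t0 = 1) {n : ℕ}
  (b : Module.Basis (Fin n) Qbar (Lm P0 d))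
variable {gal : GQ → SemilinearAut Qbar F}

/-- The rows of the master configuration: jets, points, tangent vectors, auxiliary points,
linear forms. -/
abbrev Row (r qF : ℕ) : Type := Fin r ⊕ (Fin r ⊕ (Fin r ⊕ (Fin qF ⊕ Fin r)))

/-- row of the `a`-th jet -/
def rJ {r qF : ℕ} (a : Fin r) : Row r qF := Sum.inl a
/-- row of the `a`-th point -/
def rP {r qF : ℕ} (a : Fin r) : Row r qF := Sum.inr (Sum.inl a)
/-- row of the `a`-th tangent vector -/
def rD {r qF : ℕ} (a : Fin r) : Row r qF := Sum.inr (Sum.inr (Sum.inl a))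
/-- row of the `j`-th auxiliary point -/
def rZ {r qF : ℕ} (j : Fin qF) : Row r qF := Sum.inr (Sum.inr (Sum.inr (Sum.inl j)))
/-- row of the `i`-th linear form -/
def rW {r qF : ℕ} (i : Fin r) : Row r qF := Sum.inr (Sum.inr (Sum.inr (Sum.inr i)))

/-- The master tuple of a configuration. -/
noncomputable def tup (tu : Unif F) {r qF : ℕ} (R : Fin r → Place Qbar F)
    (zF : Fin qF → Place Qbar F) (ω : Fin r → Fin n → Qbar) : Row r qF × Fin n → Qbar :=
  fun p => Sum.elim (fun a => jet H P0 d ht0 b (R a) (tu (R a)).2 (cnt R a) p.2)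
    (Sum.elim (fun a => pt H P0 d ht0 b (R a) p.2)
      (Sum.elim (fun a => dpt H P0 d ht0 b (R a) (tu (R a)).2 p.2)
        (Sum.elim (fun j => pt H P0 d ht0 b (zF j) p.2) (fun i => ω i p.2)))) p.1

/-- A row of a tuple. -/
def rowOf {r qF : ℕ} (y : Row r qF × Fin n → Qbar) (ρ : Row r qF) : Fin n → Qbar :=
  fun k => y (ρ, k)

/-- The matrix of linear forms of a tuple. -/
def WY {r qF : ℕ} (y : Row r qF × Fin n → Qbar) : Fin n × Fin r → Qbar :=
  fun p => y (rW p.2, p.1)

/-- The confluent determinant of a tuple. -/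
noncomputable def detY {r qF : ℕ} (y : Row r qF × Fin n → Qbar) : Qbar :=
  Matrix.det (fun i a : Fin r => ∑ k, y (rW i, k) * y (rJ a, k))

theorem rowOf_smul {r qF : ℕ} (σ : GQ) (y : Row r qF × Fin n → Qbar) (ρ : Row r qF) :
    rowOf (σ • y) ρ = σ • rowOf y ρ := rfl

theorem WY_smul {r qF : ℕ} (σ : GQ) (y : Row r qF × Fin n → Qbar) :
    WY (σ • y) = σ • WY y := rfl

theorem wedge2_smul (σ : GQ) (x y : Fin n → Qbar) :
    wedge2 (σ • x) (σ • y) = σ • wedge2 x y := by
  funext p
  simp only [wedge2, smul_apply, map_sub, map_mul]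

theorem detY_smul {r qF : ℕ} (σ : GQ) (y : Row r qF × Fin n → Qbar) :
    detY (σ • y) = σ (detY y) := by
  unfold detY
  have h := RingHom.map_det ((σ : Qbar ≃ₐ[ℚ] Qbar) : Qbar →+* Qbar)
    (fun i a : Fin r => ∑ k, y (rW i, k) * y (rJ a, k))
  rw [show σ (Matrix.det fun i a : Fin r => ∑ k, y (rW i, k) * y (rJ a, k)) =
    ((σ : Qbar ≃ₐ[ℚ] Qbar) : Qbar →+* Qbar)
      (Matrix.det fun i a : Fin r => ∑ k, y (rW i, k) * y (rJ a, k)) from rfl, h]
  congr 1
  ext i a
  simp only [RingHom.mapMatrix_apply, Matrix.map_apply, smul_apply, map_sum, map_mul]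
  rfl

theorem detY_tup (tu : Unif F) {r qF : ℕ} (R : Fin r → Place Qbar F)
    (zF : Fin qF → Place Qbar F) (ω : Fin r → Fin n → Qbar) :
    detY (tup H P0 d ht0 b tu R zF ω) = (confMat H P0 d ht0 b tu R ω).det := by
  unfold detY
  congr 1
  ext i a
  rw [confMat_apply]
  rfl

/-- The master tuple of the conjugate configuration. -/
theorem tup_conj (hG : GalEq H P0 d ht0 b gal) (σ : GQ) (tu : Unif F) {r qF : ℕ}
    (R : Fin r → Place Qbar F) (zF : Fin qF → Place Qbar F) (ω : Fin r → Fin n → Qbar) :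
    σ • tup H P0 d ht0 b tu R zF ω =
      tup H P0 d ht0 b (conjUnif gal σ tu) (fun a => gal σ • R a) (fun j => gal σ • zF j)
        (fun i k => σ (ω i k)) := by
  funext p
  obtain ⟨ρ, k⟩ := p
  rw [smul_apply]
  rcases ρ with a | a | a | j | i
  · show σ (jet H P0 d ht0 b (R a) (tu (R a)).2 (cnt R a) k) =
      jet H P0 d ht0 b (gal σ • R a) (conjUnif gal σ tu (gal σ • R a)).2
        (cnt (fun a => gal σ • R a) a) k
    rw [cnt_conj, jet_conj H P0 d ht0 b hG]
  · show σ (pt H P0 d ht0 b (R a) k) = pt H P0 d ht0 b (gal σ • R a) k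
    rw [pt_conj H P0 d ht0 b hG]
  · show σ (dpt H P0 d ht0 b (R a) (tu (R a)).2 k) =
      dpt H P0 d ht0 b (gal σ • R a) (conjUnif gal σ tu (gal σ • R a)).2 k
    rw [dpt_conj H P0 d ht0 b hG]
  · show σ (pt H P0 d ht0 b (zF j) k) = pt H P0 d ht0 b (gal σ • zF j) k
    rw [pt_conj H P0 d ht0 b hG]
  · rfl

end Master

/-! ### Part 5: the global confluent Hadamard inequality -/

section Global

open Fermat.Agent.MW.HT.Orbit3 Fermat.Agent.MW.HT.Glob3 Fermat.Agent.MW.HT.PF3
open Fermat.Agent.MW.HT.Ht3 (ht)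
open Fermat.Agent.MW.HT.Lin3 (finsum_log_archC support_log_archC)

variable {F : Type*} [Field F] [Algebra Qbar F] [DecidableEq (Place Qbar F)]
variable (H : LHyp Qbar F) (P0 : Place Qbar F) (d : ℕ) {t0 : F} (ht0 : P0.ord t0 = 1) {n : ℕ}
  (b : Module.Basis (Fin n) Qbar (Lm P0 d))
variable {gal : GQ → SemilinearAut Qbar F}

/-- The local majorant as a function of the master tuple; `E a' a` is the coincidence pattern
`R a' = R a` of the configuration. -/
noncomputable def GY {r qF : ℕ} (E : Fin r → Fin r → Prop) [DecidableRel E] (v : VPl)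
    (y : Row r qF × Fin n → Qbar) : ℝ :=
  ∑ a, (Real.log (supN v (WY y)) + Real.log (supN v (rowOf y (rP a))) +
    (∑ j, (Real.log (supN v (wedge2 (rowOf y (rZ j)) (rowOf y (rP a)))) -
      Real.log (supN v (rowOf y (rZ j))) - Real.log (supN v (rowOf y (rP a))))) +
    ∑ a' ∈ univ.filter (· < a),
      (if E a' a then
        Real.log (supN v (wedge2 (rowOf y (rP a)) (rowOf y (rD a)))) -
          2 * Real.log (supN v (rowOf y (rP a)))
      else
        Real.log (supN v (wedge2 (rowOf y (rP a')) (rowOf y (rP a)))) -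
          Real.log (supN v (rowOf y (rP a'))) - Real.log (supN v (rowOf y (rP a)))))

theorem GY_congr {r qF : ℕ} {E E' : Fin r → Fin r → Prop} [DecidableRel E] [DecidableRel E']
    (h : ∀ a' a, E a' a ↔ E' a' a) (v : VPl) (y : Row r qF × Fin n → Qbar) :
    GY E v y = GY E' v y := by
  unfold GY
  refine Finset.sum_congr rfl fun a _ => ?_
  congr 1
  refine Finset.sum_congr rfl fun a' _ => ?_
  exact if_congr (h a' a) rfl rfl

/-- The global value of the majorant. -/
noncomputable def SY {r qF : ℕ} (E : Fin r → Fin r → Prop) [DecidableRel E]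
    (w : Row r qF × Fin n → Qbar) : ℝ :=
  ∑ a, (ht (WY w) + ht (rowOf w (rP a)) +
    (∑ j, (ht (wedge2 (rowOf w (rZ j)) (rowOf w (rP a))) -
      ht (rowOf w (rZ j)) - ht (rowOf w (rP a)))) +
    ∑ a' ∈ univ.filter (· < a),
      (if E a' a then
        ht (wedge2 (rowOf w (rP a)) (rowOf w (rD a))) - 2 * ht (rowOf w (rP a))
      else
        ht (wedge2 (rowOf w (rP a')) (rowOf w (rP a))) -
          ht (rowOf w (rP a')) - ht (rowOf w (rP a))))

theorem gs_GY {r qF : ℕ} (E : Fin r → Fin r → Prop) [DecidableRel E]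
    (w : Row r qF × Fin n → Qbar) : GS (GY E) w (SY E w) := by
  have hrow : ∀ ρ : Row r qF, GS (fun v y => Real.log (supN v (rowOf y ρ))) w (ht (rowOf w ρ)) :=
    fun ρ => GS.log_supN (φ := fun y => rowOf y ρ) (fun σ y => rowOf_smul σ y ρ) w
  have hwed : ∀ ρ ρ' : Row r qF,
      GS (fun v y => Real.log (supN v (wedge2 (rowOf y ρ) (rowOf y ρ')))) w
        (ht (wedge2 (rowOf w ρ) (rowOf w ρ'))) :=
    fun ρ ρ' => GS.log_supN (φ := fun y => wedge2 (rowOf y ρ) (rowOf y ρ'))
      (fun σ y => by rw [rowOf_smul, rowOf_smul, wedge2_smul]) w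
  have hW : GS (fun v y => Real.log (supN v (WY y))) w (ht (WY w)) :=
    GS.log_supN (φ := fun y => WY y) (fun σ y => WY_smul σ y) w
  unfold GY SY
  refine GS.finset_sum _ fun a _ => ?_
  refine GS.add (GS.add (GS.add hW (hrow _)) ?_) ?_
  · refine GS.finset_sum _ fun j _ => ?_
    exact GS.sub (GS.sub (hwed _ _) (hrow _)) (hrow _)
  · refine GS.finset_sum _ fun a' _ => ?_
    refine GS.ite _ ?_ ?_
    · exact GS.sub (hwed _ _) (GS.const_mul (hrow _) 2)
    · exact GS.sub (GS.sub (hwed _ _) (hrow _)) (hrow _)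

/-- The local inequality for the master tuple of a configuration. -/
theorem log_detY_tup_le (hE : EmbPos H P0 d ht0 b) {Cud : VPl → ℝ}
    (hUD : LocUD H P0 d ht0 b Cud) (hCud : ∀ v, 1 ≤ Cud v)
    (v : VPl) (tu : Unif F) {r : ℕ} (R : Fin r → Place Qbar F) {qF : ℕ}
    (zF : Fin qF → Place Qbar F) (hdisj : ∀ j a, zF j ≠ R a) (ω : Fin r → Fin n → Qbar)
    (hω : ∀ (c' : Fin r → Qbar) (hl : (∑ i, c' i • ω i) ≠ 0),
      eff univ zF ≤ hyp H P0 d b hl)
    (hdet : detY (tup H P0 d ht0 b tu R zF ω) ≠ 0) :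
    Real.log (absV v (detY (tup H P0 d ht0 b tu R zF ω))) ≤
      GY (fun a' a => R a' = R a) v (tup H P0 d ht0 b tu R zF ω) +
        r * (Real.log (archC r v) + Real.log (Cud v)) := by
  rw [detY_tup] at hdet ⊢
  have h := log_absV_det_le H P0 d ht0 b hE hUD hCud v tu R zF hdisj ω hω hdet
  refine h.trans (le_of_eq ?_)
  congr 1
  unfold GY
  refine Finset.sum_congr rfl fun a _ => ?_
  congr 1
  refine Finset.sum_congr rfl fun a' _ => ?_
  unfold logChiT
  split_ifs <;> rfl

theorem hyp_congr {c c' : Fin n → Qbar} (h : c = c') (hc : c ≠ 0) (hc' : c' ≠ 0) :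
    hyp H P0 d b hc = hyp H P0 d b hc' := by
  subst h
  rfl

/-- The global symmetric functions: off the diagonal, on the diagonal, and both together. -/
noncomputable def lamO (z y : Place Qbar F) : ℝ :=
  ht (pt H P0 d ht0 b z) + ht (pt H P0 d ht0 b y) -
    ht (wedge2 (pt H P0 d ht0 b z) (pt H P0 d ht0 b y))

/-- The diagonal (adjunction) value. -/
noncomputable def lamD (y : Place Qbar F) {t : F} (ht' : y.ord t = 1) : ℝ :=
  2 * ht (pt H P0 d ht0 b y) - ht (wedge2 (pt H P0 d ht0 b y) (dpt H P0 d ht0 b y ht'))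

/-- The global function with its diagonal values w.r.t. the uniformizers `tu`. -/
noncomputable def lamT (tu : Unif F) (z y : Place Qbar F) : ℝ :=
  if z = y then lamD H P0 d ht0 b y (tu y).2 else lamO H P0 d ht0 b z y

/-- **The global confluent Hadamard inequality.** -/
theorem had_global (hE : EmbPos H P0 d ht0 b) (hG : GalEq H P0 d ht0 b gal) {Cud : VPl → ℝ}
    (hUD : LocUD H P0 d ht0 b Cud) (hCud : ∀ v, 1 ≤ Cud v)
    (hfin : {v : VPl | Cud v ≠ 1}.Finite)
    (tu : Unif F) {r : ℕ} (R : Fin r → Place Qbar F) {qF : ℕ}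
    (zF : Fin qF → Place Qbar F) (hdisj : ∀ j a, zF j ≠ R a) (ω : Fin r → Fin n → Qbar)
    (hω : ∀ (c' : Fin r → Qbar) (hl : (∑ i, c' i • ω i) ≠ 0),
      eff univ zF ≤ hyp H P0 d b hl)
    (hdet : (confMat H P0 d ht0 b tu R ω).det ≠ 0) :
    (∑ a, ∑ a' ∈ univ.filter (· < a), lamT H P0 d ht0 b tu (R a') (R a)) +
        ∑ a, ∑ j, lamO H P0 d ht0 b (zF j) (R a) ≤
      ∑ a, ht (pt H P0 d ht0 b (R a)) +
        r * (Real.log r + ht (fun p : Fin n × Fin r => ω p.2 p.1) + ∑ᶠ v, Real.log (Cud v)) := by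
  set w := tup H P0 d ht0 b tu R zF ω with hw
  have hdetw : detY w ≠ 0 := by rw [hw, detY_tup]; exact hdet
  have hdeq : ∀ (σ : GQ) (y : Row r qF × Fin n → Qbar), detY (σ • y) = σ (detY y) :=
    fun σ y => detY_smul σ y
  -- the left side: product formula
  have hf : GS (fun v y => Real.log (absV v (detY y))) w 0 :=
    ⟨adelic_log_absV hdeq hdetw, product_formula hdeq hdetw⟩
  -- the right side
  have hg := gs_GY (fun a' a => R a' = R a) w
  -- the constants
  set c : VPl → ℝ := fun v => r * (Real.log (archC r v) + Real.log (Cud v)) with hc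
  have hsuppCud : (Function.support fun v => Real.log (Cud v)).Finite := by
    refine hfin.subset fun v hv => ?_
    intro h1
    apply hv
    show Real.log (Cud v) = 0
    rw [h1, Real.log_one]
  have hsupp : (Function.support c).Finite := by
    refine ((support_log_archC r).union hsuppCud).subset fun v hv => ?_
    by_contra hcon
    rw [Set.mem_union, not_or] at hcon
    apply hv
    have h1 : Real.log (archC r v) = 0 := by
      by_contra h; exact hcon.1 h
    have h2 : Real.log (Cud v) = 0 := by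
      by_contra h; exact hcon.2 h
    show r * (Real.log (archC r v) + Real.log (Cud v)) = 0
    rw [h1, h2, add_zero, mul_zero]
  have hcsum : ∑ᶠ v, c v = r * (Real.log r + ∑ᶠ v, Real.log (Cud v)) := by
    have h1 : ∑ᶠ v, c v = (r : ℝ) * ∑ᶠ v, (Real.log (archC r v) + Real.log (Cud v)) := by
      rw [mul_finsum]
    rw [h1, finsum_add_distrib (support_log_archC r) hsuppCud, finsum_log_archC]
  -- the local inequality on the orbit
  have hloc : ∀ v, ∀ y ∈ orbitFS w, Real.log (absV v (detY y)) ≤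
      GY (fun a' a => R a' = R a) v y + c v := by
    intro v y hy
    obtain ⟨σ, rfl⟩ := mem_orbitFS.mp hy
    have hdetσ : detY (σ • w) ≠ 0 := by
      rw [detY_smul]; exact (map_ne_zero _).mpr hdetw
    rw [hw, tup_conj H P0 d ht0 b hG] at hdetσ ⊢
    have hdisj' : ∀ j a, gal σ • zF j ≠ gal σ • R a := fun j a h =>
      hdisj j a (MulAction.injective (gal σ) h)
    have hω' : ∀ (c' : Fin r → Qbar)
        (hl : (∑ i, c' i • (fun k => σ (ω i k))) ≠ 0),
        eff univ (fun j => gal σ • zF j) ≤ hyp H P0 d b hl := by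
      intro c' hl
      -- the form `l` with `σ ∘ l = l'`
      set c'' : Fin r → Qbar := fun i => σ.symm (c' i) with hc''
      have hll : (∑ i, c' i • (fun k => σ (ω i k))) = fun k => σ ((∑ i, c'' i • ω i) k) := by
        funext k
        simp only [Finset.sum_apply, Pi.smul_apply, smul_eq_mul, map_sum, map_mul, hc'',
          AlgEquiv.apply_symm_apply]
      have hl0 : (∑ i, c'' i • ω i) ≠ 0 := by
        intro h0
        apply hl
        rw [hll, h0]
        funext k
        simp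
      have hl' : (fun k => σ ((∑ i, c'' i • ω i) k)) ≠ 0 := by rw [← hll]; exact hl
      rw [hyp_congr H P0 d b hll hl hl']
      intro w'
      have hw' : w' = gal σ • ((gal σ)⁻¹ • w') := (smul_inv_smul _ _).symm
      rw [hw', hG.hyp_smul σ _ hl0 hl', eff_apply, ]
      have h1 := hω c'' hl0 ((gal σ)⁻¹ • w')
      rw [eff_apply] at h1
      refine le_trans (le_of_eq ?_) h1
      congr 2
      refine Finset.filter_congr fun j _ => ?_
      rw [(MulAction.injective (gal σ)).eq_iff]
    have h := log_detY_tup_le H P0 d ht0 b hE hUD hCud v (conjUnif gal σ tu)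
      (fun a => gal σ • R a) (fun j => gal σ • zF j) hdisj' (fun i k => σ (ω i k)) hω' hdetσ
    rw [GY_congr (E' := fun a' a => R a' = R a)
      (fun a' a => (MulAction.injective (gal σ)).eq_iff)] at h
    exact h
  have hmain := gsum_le_add_const hsupp hf.1 hg.1 hloc
  rw [hf.2, hg.2, hcsum] at hmain
  -- bookkeeping
  have hSY : SY (fun a' a => R a' = R a) w =
      ∑ a, ht (pt H P0 d ht0 b (R a)) + r * ht (fun p : Fin n × Fin r => ω p.2 p.1) -
        (∑ a, ∑ j, lamO H P0 d ht0 b (zF j) (R a)) -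
        ∑ a, ∑ a' ∈ univ.filter (· < a), lamT H P0 d ht0 b tu (R a') (R a) := by
    unfold SY
    have hterm : ∀ a : Fin r, (ht (WY w) + ht (rowOf w (rP a)) +
        (∑ j, (ht (wedge2 (rowOf w (rZ j)) (rowOf w (rP a))) -
          ht (rowOf w (rZ j)) - ht (rowOf w (rP a)))) +
        ∑ a' ∈ univ.filter (· < a),
          (if R a' = R a then
            ht (wedge2 (rowOf w (rP a)) (rowOf w (rD a))) - 2 * ht (rowOf w (rP a))
          else
            ht (wedge2 (rowOf w (rP a')) (rowOf w (rP a))) -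
              ht (rowOf w (rP a')) - ht (rowOf w (rP a)))) =
        ht (pt H P0 d ht0 b (R a)) + ht (fun p : Fin n × Fin r => ω p.2 p.1) -
          (∑ j, lamO H P0 d ht0 b (zF j) (R a)) -
          ∑ a' ∈ univ.filter (· < a), lamT H P0 d ht0 b tu (R a') (R a) := by
      intro a
      have e1 : (∑ j, (ht (wedge2 (rowOf w (rZ j)) (rowOf w (rP a))) -
          ht (rowOf w (rZ j)) - ht (rowOf w (rP a)))) =
          -∑ j, lamO H P0 d ht0 b (zF j) (R a) := by
        rw [← Finset.sum_neg_distrib]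
        refine Finset.sum_congr rfl fun j _ => ?_
        show _ = -(ht (pt H P0 d ht0 b (zF j)) + ht (pt H P0 d ht0 b (R a)) -
          ht (wedge2 (pt H P0 d ht0 b (zF j)) (pt H P0 d ht0 b (R a))))
        show ht (wedge2 (pt H P0 d ht0 b (zF j)) (pt H P0 d ht0 b (R a))) -
          ht (pt H P0 d ht0 b (zF j)) - ht (pt H P0 d ht0 b (R a)) = _
        ring
      have e2 : (∑ a' ∈ univ.filter (· < a),
          (if R a' = R a then
            ht (wedge2 (rowOf w (rP a)) (rowOf w (rD a))) - 2 * ht (rowOf w (rP a))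
          else
            ht (wedge2 (rowOf w (rP a')) (rowOf w (rP a))) -
              ht (rowOf w (rP a')) - ht (rowOf w (rP a)))) =
          -∑ a' ∈ univ.filter (· < a), lamT H P0 d ht0 b tu (R a') (R a) := by
        rw [← Finset.sum_neg_distrib]
        refine Finset.sum_congr rfl fun a' _ => ?_
        unfold lamT
        split_ifs with h
        · show ht (wedge2 (pt H P0 d ht0 b (R a)) (dpt H P0 d ht0 b (R a) (tu (R a)).2)) -
            2 * ht (pt H P0 d ht0 b (R a)) = -(2 * ht (pt H P0 d ht0 b (R a)) -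
              ht (wedge2 (pt H P0 d ht0 b (R a)) (dpt H P0 d ht0 b (R a) (tu (R a)).2)))
          ring
        · show ht (wedge2 (pt H P0 d ht0 b (R a')) (pt H P0 d ht0 b (R a))) -
            ht (pt H P0 d ht0 b (R a')) - ht (pt H P0 d ht0 b (R a)) =
            -(ht (pt H P0 d ht0 b (R a')) + ht (pt H P0 d ht0 b (R a)) -
              ht (wedge2 (pt H P0 d ht0 b (R a')) (pt H P0 d ht0 b (R a))))
          ring
      rw [e1, e2]
      show ht (fun p : Fin n × Fin r => ω p.2 p.1) + ht (pt H P0 d ht0 b (R a)) + _ + _ = _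
      ring
    rw [Finset.sum_congr rfl (fun a _ => hterm a)]
    simp only [Finset.sum_sub_distrib, Finset.sum_add_distrib, Finset.sum_const, Finset.card_univ,
      Fintype.card_fin, nsmul_eq_mul]
  rw [hSY] at hmain
  linarith

end Global

end Fermat.Agent.MW.POS.HadGlob9
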