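/-
Programme MW (S17), block POS, brick NORTHCOTT FOR POINTS (lead), abstract form.

`finite_of_northcott_tuple` : let `pt : Pt → (Fin n → Qbar)` be projectively injective with nonzero
values and equivariant for an action `act` of `G_ℚ` on `Pt`.  If tuples with a coordinate `1`,
bounded height and bounded orbit are finite in number (`HT.northcott_tuple`), then the points `v` with
at most `d` conjugates and `ht (pt v) ≤ B` are finite in number.
This is the hypothesis `hNorthPt` of `POS/NorthGlue0.hNorth_of_pos` (with `hc v := ht (pt v)`).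
-/
import Fermat.Agent.MW.HT.Ht3

set_option autoImplicit false

namespace Fermat.Agent.MW.POS.NorthPt0

open Fermat.Agent.MW.HT.Place3 Fermat.Agent.MW.HT.Orbit3 Fermat.Agent.MW.HT.Ht3

variable {Pt : Type*} {n : ℕ}

/-- the tuple `pt v` normalised to have `i₀`-th coordinate `1`. -/
noncomputable def nrm (pt : Pt → Fin n → Qbar) (i₀ : Fin n) (v : Pt) : Fin n → Qbar :=
  (pt v i₀)⁻¹ • pt v

theorem nrm_apply_self (pt : Pt → Fin n → Qbar) (i₀ : Fin n) (v : Pt) (h : pt v i₀ ≠ 0) :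
    nrm pt i₀ v i₀ = 1 := by
  simp [nrm, h]

theorem smul_nrm (pt : Pt → Fin n → Qbar) (act : GQ → Pt → Pt)
    (hact : ∀ σ v, pt (act σ v) = σ • pt v) (i₀ : Fin n) (σ : GQ) (v : Pt) :
    σ • nrm pt i₀ v = nrm pt i₀ (act σ v) := by
  funext i
  simp only [nrm, hact, smul_apply, Pi.smul_apply, smul_eq_mul, map_mul, map_inv₀]

theorem finite_of_northcott_tuple (pt : Pt → Fin n → Qbar) (hne : ∀ v, pt v ≠ 0)
    (hinj : ∀ (v w : Pt) (c : Qbar), c ≠ 0 → pt v = c • pt w → v = w)
    (act : GQ → Pt → Pt) (hact : ∀ σ v, pt (act σ v) = σ • pt v)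
    (hNT : ∀ (d : ℕ) (B : ℝ) (i₀ : Fin n),
      {x : Fin n → Qbar | x i₀ = 1 ∧ (orbitFS x).card ≤ d ∧ ht x ≤ B}.Finite)
    (d : ℕ) (B : ℝ) :
    {v : Pt | (∃ S : Finset Pt, S.card ≤ d ∧ ∀ σ : GQ, act σ v ∈ S) ∧ ht (pt v) ≤ B}.Finite := by
  classical
  -- a nonvanishing coordinate of each point
  have hex : ∀ v : Pt, ∃ i₀ : Fin n, pt v i₀ ≠ 0 := fun v => Function.ne_iff.mp (hne v)
  choose idx hidx using hex
  -- the finite target
  set T : Set (Fin n × (Fin n → Qbar)) :=
    ⋃ i₀ : Fin n, (fun x => (i₀, x)) '' {x : Fin n → Qbar | x i₀ = 1 ∧ (orbitFS x).card ≤ d ∧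
      ht x ≤ B} with hT
  have hTfin : T.Finite := Set.finite_iUnion fun i₀ => (hNT d B i₀).image _
  refine Set.Finite.of_finite_image (f := fun v => (idx v, nrm pt (idx v) v)) (hTfin.subset ?_) ?_
  · rintro _ ⟨v, ⟨⟨S, hS, hSv⟩, hv⟩, rfl⟩
    refine Set.mem_iUnion.mpr ⟨idx v, nrm pt (idx v) v, ⟨nrm_apply_self pt _ v (hidx v), ?_, ?_⟩, rfl⟩
    · refine le_trans (Finset.card_le_card (t := S.image (nrm pt (idx v))) ?_)
        (Finset.card_image_le.trans hS)
      intro y hy
      obtain ⟨σ, rfl⟩ := mem_orbitFS.mp hy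
      rw [smul_nrm pt act hact]
      exact Finset.mem_image_of_mem _ (hSv σ)
    · unfold nrm
      rw [ht_smul _ (inv_ne_zero (hidx v))]
      exact hv
  · intro v _ w _ hvw
    have h1 : idx v = idx w := congrArg Prod.fst hvw
    have h2 : nrm pt (idx v) v = nrm pt (idx w) w := congrArg Prod.snd hvw
    rw [← h1] at h2
    refine hinj v w (pt v (idx v) * (pt w (idx v))⁻¹) ?_ ?_
    · refine mul_ne_zero (hidx v) (inv_ne_zero ?_)
      rw [h1]; exact hidx w
    · have h3 : pt v = pt v (idx v) • nrm pt (idx v) v := by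
        unfold nrm
        rw [smul_smul, mul_inv_cancel₀ (hidx v), one_smul]
      calc pt v = pt v (idx v) • nrm pt (idx v) v := h3
        _ = pt v (idx v) • nrm pt (idx v) w := by rw [h2]
        _ = (pt v (idx v) * (pt w (idx v))⁻¹) • pt w := by unfold nrm; rw [smul_smul]

end Fermat.Agent.MW.POS.NorthPt0
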