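/-
Programme MW (S17), block POS (lead): `NorthPt0.finite_of_northcott_tuple` with the Northcott
hypothesis discharged by `HT/North3.northcott_tuple`.
-/
import Fermat.Agent.MW.POS.NorthPt0
import Fermat.Agent.MW.HT.North3

set_option autoImplicit false

namespace Fermat.Agent.MW.POS.NorthPt1

open Fermat.Agent.MW.HT.Place3 Fermat.Agent.MW.HT.Orbit3 Fermat.Agent.MW.HT.Ht3

variable {Pt : Type*} {n : ℕ}

/-- **Northcott for points**: a projectively injective, Galois-equivariant coordinate map has only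
finitely many points of bounded height with at most `d` conjugates. -/
theorem finite_of_bounded (pt : Pt → Fin n → Qbar) (hne : ∀ v, pt v ≠ 0)
    (hinj : ∀ (v w : Pt) (c : Qbar), c ≠ 0 → pt v = c • pt w → v = w)
    (act : GQ → Pt → Pt) (hact : ∀ σ v, pt (act σ v) = σ • pt v) (d : ℕ) (B : ℝ) :
    {v : Pt | (∃ S : Finset Pt, S.card ≤ d ∧ ∀ σ : GQ, act σ v ∈ S) ∧ ht (pt v) ≤ B}.Finite :=
  Fermat.Agent.MW.POS.NorthPt0.finite_of_northcott_tuple pt hne hinj act hact
    (fun d B i₀ => Fermat.Agent.MW.HT.North3.northcott_tuple d B i₀) d B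

end Fermat.Agent.MW.POS.NorthPt1
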