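/-
PROGRAMME MW (S17), block POS (helper1, on request of helper9).  `JetGal1` = SEMILINEAR EQUIVARIANCE
of the Taylor coefficients / jets of `POS/Jet9` and of the hyperplane sections of `EMB/Proj6`
(ABSTRACT: `F / K` with `H : LHyp K F`, `g : SemilinearAut K F`).

* `rem_smulAut : rem H (g • v) (g • t) (g • f) j = g • rem H v t f j`;
* `tc_smulAut  : tc H (g • v) (g • t) (g • f) j = baseAut g (tc H v t f j)`;
* with `g • P0 = P0`, `g • t0 = t0`: `jev_smulAut`, and for a basis `b` of `Lm P0 d` with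
  `g • b i = b i`:  `jet_smulAut : jet b (g • v) ht' j = fun i => baseAut g (jet b v ht j i)`,
  `hyp_smulAut : hyp b hc' (g • v) = hyp b hc v` (`c' = baseAut g ∘ c`),
  `smul_hyp : g • hyp b hc = hyp b hc'`, `map_ne_zero_of_ne_zero` (`c ≠ 0 → baseAut g ∘ c ≠ 0`).
-/
import Mathlib
import Fermat.Agent.MW.POS.Jet9
import Fermat.Agent.MW.EMB.GalVal1

set_option autoImplicit false
set_option linter.unusedSectionVars false

open AlgebraicCurve

namespace Fermat.Agent.MW.POS.JetGal1

open Fermat.Agent.X0.FF Fermat.Agent.RR.LSpace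
open Fermat.Agent.MW.EMB.Value6 Fermat.Agent.MW.EMB.OnePoint6 Fermat.Agent.MW.EMB.Coord6
open Fermat.Agent.MW.EMB.Tangent6 Fermat.Agent.MW.EMB.Proj6 Fermat.Agent.MW.EMB.GalVal1
open Fermat.Agent.MW.POS.Jet9

variable {K F : Type*} [Field K] [Field F] [Algebra K F]

/-! ### Taylor remainders and coefficients -/

theorem rem_smulAut (H : LHyp K F) (g : SemilinearAut K F) (v : Place K F) (t f : F) (j : ℕ) :
    rem H (g • v) (g • t) (g • f) j = g • rem H v t f j := by
  induction j with
  | zero => rfl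
  | succ j ih =>
    rw [rem_succ, rem_succ, ih, Fermat.Agent.MW.EMB.GalVal1.valF_smul,
      Fermat.Agent.MW.EMB.GalVal1.smul_div', Fermat.Agent.MW.EMB.GalVal1.smul_sub',
      SemilinearAut.smul_algebraMap]

theorem tc_smulAut (H : LHyp K F) (g : SemilinearAut K F) (v : Place K F) (t f : F) (j : ℕ) :
    tc H (g • v) (g • t) (g • f) j = SemilinearAut.baseAut g (tc H v t f j) := by
  rw [tc, tc, rem_smulAut, Fermat.Agent.MW.EMB.GalVal1.valF_smul]

/-! ### Jets of sections and of the embedding -/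

section Jets

variable (g : SemilinearAut K F) {P0 : Place K F} (hP : g • P0 = P0) (d : ℕ) {t0 : F}
  (hg0 : g • t0 = t0)

include hP hg0

theorem jev_smulAut (H : LHyp K F) (ht0 : P0.ord t0 = 1) (v : Place K F) {t : F}
    (ht : v.ord t = 1) (ht' : (g • v).ord (g • t) = 1) (j : ℕ) (f : Lm P0 d) :
    jev H P0 d ht0 (g • v) ht' j (smulLm g hP d f) =
      SemilinearAut.baseAut g (jev H P0 d ht0 v ht j f) := by
  rw [jev_apply, jev_apply, coe_smulLm, triv_smul g hP d hg0, ← smul_mul', tc_smulAut]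

variable {n : ℕ} (b : Module.Basis (Fin n) K (Lm P0 d))
  (hb : ∀ i, g • ((b i : Lm P0 d) : F) = b i)

include hb

/-- **Equivariance of the jets of all orders** w.r.t. a `g`-fixed basis. -/
theorem jet_smulAut (H : LHyp K F) (ht0 : P0.ord t0 = 1) (v : Place K F) {t : F}
    (ht : v.ord t = 1) (ht' : (g • v).ord (g • t) = 1) (j : ℕ) :
    jet H P0 d ht0 b (g • v) ht' j =
      fun i => SemilinearAut.baseAut g (jet H P0 d ht0 b v ht j i) := by
  funext i
  have hb' : smulLm g hP d (b i) = b i := Subtype.ext (hb i)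
  show jev H P0 d ht0 (g • v) ht' j (b i) = _
  conv_lhs => rw [← hb']
  exact jev_smulAut g hP d hg0 H ht0 v ht ht' j (b i)

omit hP hg0 hb in
theorem map_ne_zero_of_ne_zero {c : Fin n → K} (hc : c ≠ 0) :
    (fun i => SemilinearAut.baseAut g (c i)) ≠ 0 := by
  intro h
  apply hc
  funext i
  have := congrFun h i
  simpa using this

/-- **Equivariance of the hyperplane sections** (multiplicities). -/
theorem hyp_smulAut (H : LHyp K F) (ht0 : P0.ord t0 = 1) {c : Fin n → K} (hc : c ≠ 0)
    (hc' : (fun i => SemilinearAut.baseAut g (c i)) ≠ 0) (v : Place K F) :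
    hyp H P0 d b hc' (g • v) = hyp H P0 d b hc v := by
  rw [hyp_apply H P0 d ht0 b hc' (g • v), hyp_apply H P0 d ht0 b hc v,
    ← smulLm_lin g hP d hg0 b hb c, coe_smulLm, ordSec_smul g hP d hg0]

/-- **Equivariance of the hyperplane sections** (divisors). -/
theorem smul_hyp (H : LHyp K F) (ht0 : P0.ord t0 = 1) {c : Fin n → K} (hc : c ≠ 0)
    (hc' : (fun i => SemilinearAut.baseAut g (c i)) ≠ 0) :
    g • hyp H P0 d b hc = hyp H P0 d b hc' := by
  ext w
  rw [SemilinearAut.divisor_smul_apply]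
  have h := hyp_smulAut g hP d hg0 b hb H ht0 hc hc' (g⁻¹ • w)
  rw [smul_inv_smul] at h
  exact h.symm

end Jets

end Fermat.Agent.MW.POS.JetGal1
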