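/-
PROGRAMME MW (S17), block POS (helper1).  `JetGalMod1` = the CONCRETE Galois equivariance of jets and
hyperplane sections for `X₀(N)` embedded by the rational basis `ratBasis N d` of `L(d·P0)`
(`EMB/Modular1`), w.r.t. the arithmetic Galois action `gal N σ`:

* `jet_gal : jet (ratBasis N d) (gal N σ • v) ht' j = fun i => σ (jet (ratBasis N d) v ht j i)`;
* `hyp_gal : hyp (ratBasis N d) hc' (gal N σ • v) = hyp (ratBasis N d) hc v` (`c' = σ ∘ c`);
* `smul_hyp_gal : gal N σ • hyp (ratBasis N d) hc = hyp (ratBasis N d) hc'`;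
* `hyp_gal_rat` : a hyperplane with RATIONAL coefficients (`σ (c i) = c i`) has a Galois-stable
  section;
* `tc_gal`, `rem_gal` for arbitrary functions.
-/
import Mathlib
import Fermat.Agent.MW.POS.JetGal1
import Fermat.Agent.MW.EMB.Modular1

set_option autoImplicit false
set_option linter.unusedSectionVars false

open AlgebraicCurve ModularCurve

namespace Fermat.Agent.MW.POS.JetGalMod1

open Fermat.Agent.X0 Fermat.Agent.X0.FF Fermat.Agent.RR.LSpace Fermat.Agent.RR.LHypGen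
open Fermat.Agent.MW.EMB.OnePoint6 Fermat.Agent.MW.EMB.Proj6
open Fermat.Agent.MW.EMB.Modular1 Fermat.Agent.MW.POS.Jet9 Fermat.Agent.MW.POS.JetGal1
open Fermat.Agent.RED.TOP.FbarFacts20

variable (N : ℕ) [NeZero N]

theorem rem_gal (σ : GQ) (v : Place Kbar (FF N)) (t f : FF N) (j : ℕ) :
    rem (lHyp_of_isGen (isGen_j N)) (gal N σ • v) (gal N σ • t) (gal N σ • f) j =
      gal N σ • rem (lHyp_of_isGen (isGen_j N)) v t f j :=
  rem_smulAut _ (gal N σ) v t f j

theorem tc_gal (σ : GQ) (v : Place Kbar (FF N)) (t f : FF N) (j : ℕ) :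
    tc (lHyp_of_isGen (isGen_j N)) (gal N σ • v) (gal N σ • t) (gal N σ • f) j =
      σ (tc (lHyp_of_isGen (isGen_j N)) v t f j) :=
  tc_smulAut _ (gal N σ) v t f j

/-- **Galois equivariance of the jets of all orders** w.r.t. the rational basis. -/
theorem jet_gal (d : ℕ) (σ : GQ) (v : Place Kbar (FF N)) {t : FF N} (ht : v.ord t = 1)
    (ht' : (gal N σ • v).ord (gal N σ • t) = 1) (j : ℕ) :
    jet (lHyp_of_isGen (isGen_j N)) (P0 N) d (ord_t0 N) (ratBasis N d) (gal N σ • v) ht' j =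
      fun i => σ (jet (lHyp_of_isGen (isGen_j N)) (P0 N) d (ord_t0 N) (ratBasis N d) v ht j i) :=
  jet_smulAut (gal N σ) (gal_smul_P0 N σ) d (gal_smul_t0 N σ) (ratBasis N d)
    (gal_smul_ratBasis N d σ) _ (ord_t0 N) v ht ht' j

omit [NeZero N] in
theorem map_ne_zero_gal {n : ℕ} (σ : GQ) {c : Fin n → Kbar} (hc : c ≠ 0) :
    (fun i => σ (c i)) ≠ 0 := by
  intro h
  apply hc
  funext i
  have := congrFun h i
  simpa using this

/-- **Galois equivariance of the hyperplane sections** (multiplicities). -/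
theorem hyp_gal (d : ℕ) (σ : GQ) {c : Fin (Module.finrank Kbar (Lm (P0 N) d)) → Kbar} (hc : c ≠ 0)
    (hc' : (fun i => σ (c i)) ≠ 0) (v : Place Kbar (FF N)) :
    hyp (lHyp_of_isGen (isGen_j N)) (P0 N) d (ratBasis N d) hc' (gal N σ • v) =
      hyp (lHyp_of_isGen (isGen_j N)) (P0 N) d (ratBasis N d) hc v :=
  hyp_smulAut (gal N σ) (gal_smul_P0 N σ) d (gal_smul_t0 N σ) (ratBasis N d)
    (gal_smul_ratBasis N d σ) _ (ord_t0 N) hc hc' v

/-- **Galois equivariance of the hyperplane sections** (divisors). -/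
theorem smul_hyp_gal (d : ℕ) (σ : GQ) {c : Fin (Module.finrank Kbar (Lm (P0 N) d)) → Kbar}
    (hc : c ≠ 0) (hc' : (fun i => σ (c i)) ≠ 0) :
    gal N σ • hyp (lHyp_of_isGen (isGen_j N)) (P0 N) d (ratBasis N d) hc =
      hyp (lHyp_of_isGen (isGen_j N)) (P0 N) d (ratBasis N d) hc' :=
  smul_hyp (gal N σ) (gal_smul_P0 N σ) d (gal_smul_t0 N σ) (ratBasis N d)
    (gal_smul_ratBasis N d σ) _ (ord_t0 N) hc hc'

/-- A hyperplane with rational coefficients has a Galois-stable section. -/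
theorem smul_hyp_gal_rat (d : ℕ) (σ : GQ) {c : Fin (Module.finrank Kbar (Lm (P0 N) d)) → Kbar}
    (hc : c ≠ 0) (hrat : ∀ i, σ (c i) = c i) :
    gal N σ • hyp (lHyp_of_isGen (isGen_j N)) (P0 N) d (ratBasis N d) hc =
      hyp (lHyp_of_isGen (isGen_j N)) (P0 N) d (ratBasis N d) hc := by
  have hcc : (fun i => σ (c i)) = c := funext hrat
  have hc' : (fun i => σ (c i)) ≠ 0 := by rw [hcc]; exact hc
  rw [smul_hyp_gal N d σ hc hc']
  congr 1

end Fermat.Agent.MW.POS.JetGalMod1
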