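/-
Programme MW (S17), block POS, brick "strata + pigeonhole" (helper4): **pure Riemann–Roch
bookkeeping** for the positivity argument (`T/plan/MW-math` (II), `IDEA/S17-C-verdict` (5)).

Setting of `RR/RRMain`: `K` algebraically closed of characteristic zero, `hx : IsGen K x`,
`[HasCanonicalDivisor]`; `W hx` the canonical divisor `div dx`, `g = genus K F`,
`l(D) = finrank K (riemannRochSpace D)`.

* `rr` : Riemann–Roch for `W hx`; `finrank_L_add_single` :
  `l(D + v) + l(W - D) = l(D) + l(W - D - v) + 1`;
* `exists_basePoints` : if `L(D) ≠ 0`, the base points of `|D|` lie in a finite set of cardinality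
  `≤ deg D`;
* `exists_point_nonspecial` : `l(D) = 1`, `deg D < g`, `T` a set of `≥ 2g - 1` places
  `⇒ ∃ a ∈ T, l(D + a) = 1`;
* **`exists_subset_nonspecial`** : `l(D) = 1`, `deg D + n = g`, `Σ` a set of `≥ 2g + n - 1` places
  `⇒ ∃ A ⊆ Σ, #A = n ∧ l(D + Σ_{a ∈ A} a) = 1`;
* **`exists_subset`** : for `E0 ≥ 0` with `l(E0) = 1`, `deg E0 = r ≤ g` and `#Σ ≥ 3g`:
  `∃ A ⊆ Σ`, `#A = g - r`, with `B = Σ_{a ∈ A} a`: `l(E0 + B) = 1`, `l(B) = 1`, `l(W - B) = r`,
  `L(W - B - E0) = 0`.
-/
import Mathlib
import Fermat.Agent.MW.PAIR.Bpf4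

set_option autoImplicit false
set_option linter.unusedSectionVars false

open AlgebraicCurve

namespace Fermat.Agent.MW.POS.Strata4

open Fermat.Agent.X0.FF Fermat.Agent.RR.LSpace Fermat.Agent.RR.LHypGen Fermat.Agent.RR.RRMain
open Fermat.Agent.MW.PAIR.Bpf4

variable {K F : Type*} [Field K] [Field F] [Algebra K F] [IsAlgClosed K] [CharZero K] {x : F}
  [HasCanonicalDivisor (K := K) (F := F)]

/-- The canonical divisor `div dx`. -/
noncomputable def W (hx : IsGen K x) : Divisor K F := canonicalDivisorOf (D_ne_zero hx)

/-- The reduced divisor `Σ_{a ∈ A} a`. -/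
noncomputable def red (A : Finset (Place K F)) : Divisor K F := ∑ a ∈ A, Finsupp.single a 1

theorem red_empty : red (∅ : Finset (Place K F)) = 0 := by simp [red]

theorem red_insert [DecidableEq (Place K F)] {a : Place K F} {A : Finset (Place K F)}
    (ha : a ∉ A) : red (insert a A) = Finsupp.single a 1 + red A := by
  rw [red, Finset.sum_insert ha, red]

theorem red_nonneg (A : Finset (Place K F)) : 0 ≤ red A := by
  classical
  refine Finset.sum_nonneg fun a _ => ?_
  intro v
  by_cases h : a = v
  · subst h; simp
  · simp [Finsupp.single_eq_of_ne' h]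

theorem degree_red (H : LHyp K F) (A : Finset (Place K F)) :
    Divisor.degree (red A) = A.card := by
  rw [red, map_sum]
  simp [degree_single H]

/-- **Riemann–Roch** for `W hx`. -/
theorem rr (hx : IsGen K x) (D : Divisor K F) :
    (Module.finrank K (riemannRochSpace D) : ℤ) - Module.finrank K (riemannRochSpace (W hx - D)) =
      Divisor.degree D + 1 - genus K F :=
  riemann_roch_genus hx (D_ne_zero hx) (fun v => canonicalDivisorOf_apply (D_ne_zero hx) v) D

theorem degree_W (hx : IsGen K x) : Divisor.degree (W hx) = 2 * (genus K F : ℤ) - 2 :=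
  degree_canonical hx (D_ne_zero hx) (fun v => canonicalDivisorOf_apply (D_ne_zero hx) v)

/-- `l(D + v) + l(W - D) = l(D) + l(W - D - v) + 1`. -/
theorem finrank_L_add_single (hx : IsGen K x) (D : Divisor K F) (v : Place K F) :
    (Module.finrank K (riemannRochSpace (D + Finsupp.single v 1)) : ℤ) +
        Module.finrank K (riemannRochSpace (W hx - D)) =
      Module.finrank K (riemannRochSpace D) +
        Module.finrank K (riemannRochSpace (W hx - D - Finsupp.single v 1)) + 1 := by
  have H := lHyp_of_isGen hx
  have h1 := rr hx D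
  have h2 := rr hx (D + Finsupp.single v 1)
  rw [map_add, degree_single H] at h2
  have e : W hx - (D + Finsupp.single v 1) = W hx - D - Finsupp.single v 1 := by abel
  rw [e] at h2
  omega

/-- `l(D) ≤ l(D - v) + 1`. -/
theorem finrank_L_le_sub_single_add_one (hx : IsGen K x) (D : Divisor K F) (v : Place K F) :
    Module.finrank K (riemannRochSpace D) ≤
      Module.finrank K (riemannRochSpace (D - Finsupp.single v 1)) + 1 := by
  have H := lHyp_of_isGen hx
  have : FiniteDimensional K (riemannRochSpace (D - Finsupp.single v 1)) :=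
    finiteDimensional_L hx _
  have h := (finrank_L_add_single_le H (D - Finsupp.single v 1) v).2
  rwa [sub_add_cancel] at h

theorem L_sub_single_le (D : Divisor K F) (v : Place K F) :
    riemannRochSpace (D - Finsupp.single v 1) ≤ riemannRochSpace D := by
  have h := L_mono (le_add_single (D - Finsupp.single v 1) v)
  rwa [sub_add_cancel] at h

/-- The base points of a non-empty linear system `|D|` lie in a finite set of cardinality
`≤ deg D`. -/
theorem exists_basePoints (hx : IsGen K x) (D : Divisor K F) (hD : riemannRochSpace D ≠ ⊥) :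
    ∃ s : Finset (Place K F), (s.card : ℤ) ≤ Divisor.degree D ∧
      ∀ v : Place K F, riemannRochSpace (D - Finsupp.single v 1) = riemannRochSpace D → v ∈ s := by
  classical
  have H := lHyp_of_isGen hx
  obtain ⟨f, hf, hf0⟩ := (Submodule.ne_bot_iff _).mp hD
  refine ⟨(D + divOf H hf0).support, ?_, fun v hv => ?_⟩
  · have hnn := nonneg_add_divOf' H hf0 hf
    have hdeg : Divisor.degree (D + divOf H hf0) = Divisor.degree D := by
      rw [map_add, degree_divOf, add_zero]
    rw [← hdeg, degree_eq_sum H, Finset.card_eq_sum_ones, Nat.cast_sum]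
    refine Finset.sum_le_sum fun v hv => ?_
    have h1 : (0 : ℤ) ≤ (D + divOf H hf0) v := hnn v
    have h2 := Finsupp.mem_support_iff.mp hv
    rw [Nat.cast_one]
    omega
  · rw [Finsupp.mem_support_iff, ← mem_L_sub_single_iff H hf0 hf v, hv]
    exact hf

/-- One step: a point of `T` can be added to `D` keeping `l = 1`. -/
theorem exists_point_nonspecial (hx : IsGen K x) (D : Divisor K F)
    (hl : Module.finrank K (riemannRochSpace D) = 1)
    (hr : Divisor.degree D < genus K F) (T : Finset (Place K F))
    (hT : 2 * genus K F ≤ T.card + 1) :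
    ∃ a ∈ T, Module.finrank K (riemannRochSpace (D + Finsupp.single a 1)) = 1 := by
  classical
  have H := lHyp_of_isGen hx
  have h1 := rr hx D
  rw [hl] at h1
  have hpos : 0 < Module.finrank K (riemannRochSpace (W hx - D)) := by
    have : (0 : ℤ) < Module.finrank K (riemannRochSpace (W hx - D)) := by omega
    exact_mod_cast this
  have : FiniteDimensional K (riemannRochSpace (W hx - D)) := finiteDimensional_L hx _
  have hne : riemannRochSpace (W hx - D) ≠ ⊥ := by
    intro h
    rw [h, finrank_bot] at hpos
    exact lt_irrefl _ hpos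
  obtain ⟨s, hs, hbase⟩ := exists_basePoints hx (W hx - D) hne
  rw [map_sub, degree_W] at hs
  -- `#s ≤ 2g - 2 - deg D < #T`
  have hcard : s.card < T.card := by
    have h0 : (0 : ℤ) ≤ Divisor.degree D ∨ Divisor.degree D < 0 := le_or_gt _ _
    rcases h0 with h0 | h0
    · have : (s.card : ℤ) < T.card := by
        have : (2 * genus K F : ℤ) ≤ T.card + 1 := by exact_mod_cast hT
        omega
      exact_mod_cast this
    · -- `deg D < 0` contradicts `l(D) = 1`
      have := L_eq_bot_of_degree_neg H h0
      rw [this, finrank_bot] at hl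
      exact absurd hl (by norm_num)
  obtain ⟨a, haT, has⟩ : ∃ a ∈ T, a ∉ s := by
    by_contra hcon
    push Not at hcon
    exact absurd (Finset.card_le_card (fun a ha => hcon a ha)) (not_le.mpr hcard)
  refine ⟨a, haT, ?_⟩
  have hlt : riemannRochSpace (W hx - D - Finsupp.single a 1) < riemannRochSpace (W hx - D) :=
    lt_of_le_of_ne (L_sub_single_le _ _) fun h => has (hbase a h)
  have h2 := Submodule.finrank_lt_finrank_of_lt hlt
  have h3 := finrank_L_le_sub_single_add_one hx (W hx - D) a
  have h4 := finrank_L_add_single hx D a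
  rw [hl] at h4
  have : (Module.finrank K (riemannRochSpace (D + Finsupp.single a 1)) : ℤ) = 1 := by omega
  exact_mod_cast this

/-- **Pigeonhole**: `n = g - deg D` points of `Σ` can be added to `D` keeping `l = 1`. -/
theorem exists_subset_nonspecial (hx : IsGen K x) (n : ℕ) :
    ∀ (D : Divisor K F), Module.finrank K (riemannRochSpace D) = 1 →
      Divisor.degree D + n = genus K F → ∀ S : Finset (Place K F),
      2 * genus K F + n ≤ S.card + 1 →
      ∃ A ⊆ S, A.card = n ∧ Module.finrank K (riemannRochSpace (D + red A)) = 1 := by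
  classical
  have H := lHyp_of_isGen hx
  induction n with
  | zero =>
    intro D hl _ S _
    exact ⟨∅, Finset.empty_subset _, rfl, by rw [red_empty, add_zero]; exact hl⟩
  | succ n ih =>
    intro D hl hdeg S hS
    obtain ⟨a, haS, ha⟩ := exists_point_nonspecial hx D hl (by push_cast at hdeg; omega) S
      (by omega)
    obtain ⟨A, hAS, hAn, hA⟩ := ih (D + Finsupp.single a 1) ha
      (by rw [map_add, degree_single H]; push_cast at hdeg; omega) (S.erase a)
      (by rw [Finset.card_erase_of_mem haS]; have := Finset.card_pos.mpr ⟨a, haS⟩; omega)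
    have haA : a ∉ A := fun h => Finset.notMem_erase a S (hAS h)
    refine ⟨insert a A, ?_, ?_, ?_⟩
    · intro b hb
      rcases Finset.mem_insert.mp hb with rfl | hb
      · exact haS
      · exact Finset.mem_of_mem_erase (hAS hb)
    · rw [Finset.card_insert_of_notMem haA, hAn]
    · rw [red_insert haA, ← add_assoc]
      exact hA

/-- `1 ≤ l(B)` for `B ≥ 0`. -/
theorem one_mem_L {B : Divisor K F} (hB : 0 ≤ B) : (1 : F) ∈ riemannRochSpace B := by
  rw [mem_L_iff one_ne_zero]
  intro v
  have := hB v
  simp only [Finsupp.coe_zero, Pi.zero_apply] at this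
  rw [Place.ord_one]
  omega

/-- **Strata + pigeonhole**, in the form used by the positivity argument. -/
theorem exists_subset (hx : IsGen K x) (S : Finset (Place K F))
    (hS : 3 * genus K F ≤ S.card) (E0 : Divisor K F) (hE0 : 0 ≤ E0)
    (hl : Module.finrank K (riemannRochSpace E0) = 1)
    (hr : Divisor.degree E0 ≤ genus K F) :
    ∃ A ⊆ S, (A.card : ℤ) = genus K F - Divisor.degree E0 ∧
      Module.finrank K (riemannRochSpace (E0 + red A)) = 1 ∧
      Module.finrank K (riemannRochSpace (red A)) = 1 ∧
      (Module.finrank K (riemannRochSpace (W hx - red A)) : ℤ) = Divisor.degree E0 ∧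
      riemannRochSpace (W hx - red A - E0) = ⊥ := by
  classical
  have H := lHyp_of_isGen hx
  have hr0 : 0 ≤ Divisor.degree E0 := degree_nonneg H hE0
  obtain ⟨n, hn⟩ : ∃ n : ℕ, Divisor.degree E0 + n = genus K F :=
    ⟨((genus K F : ℤ) - Divisor.degree E0).toNat, by omega⟩
  obtain ⟨A, hAS, hAn, hA⟩ := exists_subset_nonspecial hx n E0 hl hn S (by omega)
  have hAc : (A.card : ℤ) = genus K F - Divisor.degree E0 := by rw [hAn]; omega
  -- `l(B) = 1`
  have : FiniteDimensional K (riemannRochSpace (E0 + red A)) := finiteDimensional_L hx _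
  have : FiniteDimensional K (riemannRochSpace (red A)) := finiteDimensional_L hx _
  have hB1 : Module.finrank K (riemannRochSpace (red A)) = 1 := by
    apply le_antisymm
    · rw [← hA]
      refine Submodule.finrank_mono (L_mono ?_)
      exact le_add_of_nonneg_left hE0
    · rw [Nat.succ_le_iff, Module.finrank_pos_iff, Submodule.nontrivial_iff_ne_bot]
      exact fun h => one_ne_zero ((Submodule.eq_bot_iff _).mp h 1 (one_mem_L (red_nonneg A)))
  refine ⟨A, hAS, hAc, hA, hB1, ?_, ?_⟩
  · have h1 := rr hx (red A)
    rw [hB1, degree_red H] at h1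
    omega
  · have h1 := rr hx (E0 + red A)
    rw [hA, map_add, degree_red H] at h1
    have e : W hx - (E0 + red A) = W hx - red A - E0 := by abel
    rw [e] at h1
    have : FiniteDimensional K (riemannRochSpace (W hx - red A - E0)) := finiteDimensional_L hx _
    have h0 : Module.finrank K (riemannRochSpace (W hx - red A - E0)) = 0 := by
      have : (Module.finrank K (riemannRochSpace (W hx - red A - E0)) : ℤ) = 0 := by omega
      exact_mod_cast this
    exact Submodule.finrank_eq_zero.mp h0

end Fermat.Agent.MW.POS.Strata4
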