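/-
Programme MW (S17), block POS, brick (adj), algebraic half (helper4): **Wronskians on a function
field** (`IDEA/S17-C-verdict` (e), `T/iface/MW-POS` (adj)).

Setting of `RR/RRMain` (`K` algebraically closed of characteristic zero, `hx : IsGen K x`,
`[HasCanonicalDivisor]`), EMB's vocabulary (`Lm P0 d = L(d P0)`, `triv`, `pt`, `dpt`, `formFn`).

* `ddx hx : F → F`, the derivation `d/dx` (`D f = ddx f • D x`); `wr hx a b = a b' - b a'`,
  `wr_mul_mul : wr (f a) (f b) = f ^ 2 * wr a b`;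
* local analysis at a place `v` with ANY uniformizer `t`: `ddx_ne_zero_of_ord_eq_one`,
  `ord_ddx_of_ord_eq_one : ord_v (dt/dx) = - ord_v (dx)`, `ddx_div_mem` (derivative lemma),
  `valF_ddx_div` (the value of `da/dt` is the first Taylor coefficient `tay1`), `wr_div_mem`,
  `valF_wr_div`;
* sections: for `f0 ≠ 0` (`K0 f0 v = ord_v (f0 dx)`), `s ≠ 0` with residual divisor
  `R_s = div s + d P0 - K0 ≥ 0`: `wfun f0 s a b = s * wr a b / f0 ∈ L(3 d P0)` (`wfun_mem_Lm`),
  `valF_triv_mul_wfun : (triv ^ 3 * wfun)(v) = σ_v * (a(v) b'(v) - b(v) a'(v))` with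
  `σ_v = valF (sigF …)`, `valF_sigF_ne_zero_iff : σ_v ≠ 0 ↔ R_s(v) = 0` — at EVERY place;
* power trick: `w * s ^ m ∈ L(k d P0)` (`psi_mem_Lm`, `k < m` allowed), value `ω_v * σ_v ^ m`
  (`valF_triv_mul_psi`), `valF_omF_ne_zero_iff`;
* data: `exists_f0` (`g ≥ 1`), `exists_pencil` (`s, s'` with disjoint residuals, `4g ≤ d + 2`),
  `exists_aux` (`w, w'` with disjoint residuals);
* forms: `wedge2`, `wedge2_ne_zero`, **`exists_wronskian_forms`** (cubic forms `p (i,j)` with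
  `p (i,j) (pt v) = σ_v * wedge2 (pt v) (dpt v t) (i,j)`), **`exists_power_form`**.
-/
import Mathlib
import Fermat.Agent.MW.EMB.Form6
import Fermat.Agent.MW.POS.Strata4

set_option autoImplicit false
set_option linter.unusedSectionVars false

open AlgebraicCurve KaehlerDifferential

namespace Fermat.Agent.MW.POS.Wronsk4

open Fermat.Agent.X0.FF Fermat.Agent.RR.LSpace Fermat.Agent.RR.LHypGen Fermat.Agent.RR.RRMain
open Fermat.Agent.MW.EMB.Value6

variable {K F : Type*} [Field K] [Field F] [Algebra K F] [IsAlgClosed K] [CharZero K] {x : F}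

/-! ### The derivation `d/dx` -/

/-- The derivation `d/dx` of `F`: `D f = ddx f • D x`. -/
noncomputable def ddx (hx : IsGen K x) (f : F) : F :=
  (ffd_exists_smul_D x hx.transcendental (ffg_isAlgebraic hx) (D K F f)).choose

theorem D_eq_ddx (hx : IsGen K x) (f : F) : D K F f = ddx hx f • D K F x :=
  (ffd_exists_smul_D x hx.transcendental (ffg_isAlgebraic hx) (D K F f)).choose_spec

theorem ddx_unique (hx : IsGen K x) {f a : F} (h : D K F f = a • D K F x) : ddx hx f = a := by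
  have h1 := D_eq_ddx hx f
  rw [h] at h1
  exact (smul_left_injective F (D_ne_zero hx) h1).symm

theorem ddx_add (hx : IsGen K x) (f g : F) : ddx hx (f + g) = ddx hx f + ddx hx g :=
  ddx_unique hx (by rw [map_add, add_smul, ← D_eq_ddx, ← D_eq_ddx])

theorem ddx_mul (hx : IsGen K x) (f g : F) : ddx hx (f * g) = f * ddx hx g + g * ddx hx f :=
  ddx_unique hx (by
    rw [Derivation.leibniz, add_smul, mul_smul, mul_smul, ← D_eq_ddx, ← D_eq_ddx])

theorem ddx_algebraMap (hx : IsGen K x) (c : K) : ddx hx (algebraMap K F c) = 0 :=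
  ddx_unique hx (by rw [Derivation.map_algebraMap, zero_smul])

theorem ddx_neg (hx : IsGen K x) (f : F) : ddx hx (-f) = -ddx hx f :=
  ddx_unique hx (by rw [map_neg, neg_smul, ← D_eq_ddx])

theorem ddx_sub (hx : IsGen K x) (f g : F) : ddx hx (f - g) = ddx hx f - ddx hx g := by
  rw [sub_eq_add_neg, ddx_add, ddx_neg, sub_eq_add_neg]

/-! ### The Wronskian -/

/-- The Wronskian `a * b' - b * a'`. -/
noncomputable def wr (hx : IsGen K x) (a b : F) : F := a * ddx hx b - b * ddx hx a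

theorem wr_mul_mul (hx : IsGen K x) (f a b : F) : wr hx (f * a) (f * b) = f ^ 2 * wr hx a b := by
  rw [wr, wr, ddx_mul, ddx_mul]; ring

theorem wr_self (hx : IsGen K x) (a : F) : wr hx a a = 0 := by rw [wr, sub_self]

theorem wr_swap (hx : IsGen K x) (a b : F) : wr hx b a = -wr hx a b := by rw [wr, wr]; ring

/-! ### Local analysis at a place -/

section Local

variable [HasCanonicalDivisor (K := K) (F := F)]

/-- An element of order one is irreducible in the valuation ring. -/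
theorem irreducible_of_ord_eq_one (v : Place K F) {t : F} (ht : v.ord t = 1) :
    Irreducible (⟨t, ffp_mem_of_ord_nonneg v (by omega)⟩ : v.toValuationSubring) := by
  have ht0 : t ≠ 0 := by rintro rfl; simp at ht
  obtain ⟨u, hu⟩ := v.exists_unit_mul_zpow ht0 (ffu_irreducible v)
  rw [ht, zpow_one] at hu
  have hass : Associated (ffu v) (⟨t, ffp_mem_of_ord_nonneg v (by omega)⟩ : v.toValuationSubring) := by
    refine ⟨u, Subtype.ext ?_⟩
    show ((ffu v : v.toValuationSubring) : F) * ((u : v.toValuationSubring) : F) = t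
    rw [hu, mul_comm]
  exact hass.irreducible (ffu_irreducible v)

/-- `D t ≠ 0` for a uniformizer `t`. -/
theorem ddx_ne_zero_of_ord_eq_one (hx : IsGen K x) (v : Place K F) {t : F} (ht : v.ord t = 1) :
    ddx hx t ≠ 0 := by
  have htr : Transcendental K t := ffp_transcendental_of_ord_ne_zero v (by omega)
  have halg : Algebra.IsAlgebraic (IntermediateField.adjoin K {t}) F :=
    ffx_isAlgebraic_of_transcendental x _ (ffg_isAlgebraic hx) htr
  have h := ffd_D_ne_zero t htr halg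
  intro h0
  apply h
  rw [D_eq_ddx hx t, h0, zero_smul]

/-- `ord_v (dt/dx) = - ord_v (dx)`. -/
theorem ord_ddx_of_ord_eq_one (hx : IsGen K x) (v : Place K F) {t : F} (ht : v.ord t = 1) :
    v.ord (ddx hx t) = -v.ordDifferential (D K F x) := by
  have h1 := ordDifferential_D_of_ord_ne_zero hx v (y := t) (by omega)
  rw [D_eq_ddx hx t, ordDifferential_smul' hx v (ddx_ne_zero_of_ord_eq_one hx v ht) (D_ne_zero hx),
    ht] at h1
  omega

/-- **Derivative lemma**: `da/dt` is regular at `v` if `a` is. -/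
theorem ddx_div_mem (hx : IsGen K x) (v : Place K F) {t : F} (ht : v.ord t = 1) {a : F}
    (ha : a ∈ v.toValuationSubring) : ddx hx a / ddx hx t ∈ v.toValuationSubring := by
  have hne := ddx_ne_zero_of_ord_eq_one hx v ht
  have h : D K F a = (ddx hx a / ddx hx t) • D K F t := by
    rw [D_eq_ddx hx t, smul_smul, div_mul_cancel₀ _ hne, ← D_eq_ddx]
  obtain ⟨b, hb⟩ := ffv_deriv_mem (K := K) (O := v.toValuationSubring) (F := F)
    (irreducible_of_ord_eq_one v ht)
    (fun a => ffp_exists_sub_mem_maximalIdeal v x (ffg_isAlgebraic hx) a)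
    ⟨a, ha⟩ (ddx hx a / ddx hx t) h
  rw [← hb]
  exact b.2

/-- The first Taylor coefficient at `v` w.r.t. the uniformizer `t`. -/
noncomputable def tay1 (H : LHyp K F) (v : Place K F) (t a : F) : K :=
  valF H v ((a - algebraMap K F (valF H v a)) / t)

/-- **The value of the derivative is the first Taylor coefficient.** -/
theorem valF_ddx_div (hx : IsGen K x) (v : Place K F) {t : F} (ht : v.ord t = 1) {a : F}
    (ha : a ∈ v.toValuationSubring) :
    valF (lHyp_of_isGen hx) v (ddx hx a / ddx hx t) = tay1 (lHyp_of_isGen hx) v t a := by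
  set H := lHyp_of_isGen hx
  have ht0 : t ≠ 0 := by rintro rfl; simp at ht
  have hne := ddx_ne_zero_of_ord_eq_one hx v ht
  have htmem : t ∈ v.toValuationSubring := ffp_mem_of_ord_nonneg v (by omega)
  set a' : F := (a - algebraMap K F (valF H v a)) / t with ha'
  have ha'mem : a' ∈ v.toValuationSubring :=
    Fermat.Agent.MW.EMB.Tangent6.sub_valF_div_mem H v ht ha
  have hexp : a = algebraMap K F (valF H v a) + t * a' := by
    rw [ha']; field_simp; ring
  have h1 : ddx hx a / ddx hx t = a' + t * (ddx hx a' / ddx hx t) := by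
    conv_lhs => rw [hexp, ddx_add, ddx_algebraMap, zero_add, ddx_mul]
    field_simp
    ring
  have h2 := ddx_div_mem hx v ht ha'mem
  rw [tay1, ← ha', h1, valF_add H v ha'mem (mul_mem htmem h2), valF_mul H v htmem h2]
  have h3 : valF H v t = 0 := by
    rw [valF_eq_zero_iff H v htmem]
    right; omega
  rw [h3, zero_mul, add_zero]

/-- The Wronskian of two regular functions, divided by `dt/dx`, is regular with value
`a(v) b'(v) - b(v) a'(v)`. -/
theorem wr_div_mem (hx : IsGen K x) (v : Place K F) {t : F} (ht : v.ord t = 1) {a b : F}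
    (ha : a ∈ v.toValuationSubring) (hb : b ∈ v.toValuationSubring) :
    wr hx a b / ddx hx t ∈ v.toValuationSubring := by
  have e : wr hx a b / ddx hx t = a * (ddx hx b / ddx hx t) - b * (ddx hx a / ddx hx t) := by
    rw [wr]; ring
  rw [e]
  exact sub_mem (mul_mem ha (ddx_div_mem hx v ht hb)) (mul_mem hb (ddx_div_mem hx v ht ha))

theorem valF_wr_div (hx : IsGen K x) (v : Place K F) {t : F} (ht : v.ord t = 1) {a b : F}
    (ha : a ∈ v.toValuationSubring) (hb : b ∈ v.toValuationSubring) :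
    valF (lHyp_of_isGen hx) v (wr hx a b / ddx hx t) =
      valF (lHyp_of_isGen hx) v a * tay1 (lHyp_of_isGen hx) v t b -
        valF (lHyp_of_isGen hx) v b * tay1 (lHyp_of_isGen hx) v t a := by
  set H := lHyp_of_isGen hx
  have e : wr hx a b / ddx hx t = a * (ddx hx b / ddx hx t) - b * (ddx hx a / ddx hx t) := by
    rw [wr]; ring
  have h1 := ddx_div_mem hx v ht ha
  have h2 := ddx_div_mem hx v ht hb
  rw [e, valF_sub H v (mul_mem ha h2) (mul_mem hb h1), valF_mul H v ha h2, valF_mul H v hb h1,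
    valF_ddx_div hx v ht ha, valF_ddx_div hx v ht hb]

end Local

/-! ### Sections of `O(k d P0)` built from Wronskians -/

section Sections

open Fermat.Agent.MW.EMB.OnePoint6 Fermat.Agent.MW.EMB.Coord6

variable [HasCanonicalDivisor (K := K) (F := F)]

theorem triv_pow (P0 : Place K F) (d k : ℕ) (t0 : F) (v : Place K F) :
    triv P0 d t0 v ^ k = triv P0 (k * d) t0 v := by
  by_cases hv : v = P0
  · subst hv; rw [triv_self, triv_self, ← pow_mul, mul_comm]
  · rw [triv_of_ne P0 d t0 hv, triv_of_ne P0 _ t0 hv, one_pow]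

theorem mem_Lm_of_triv_mul_mem (P0 : Place K F) (m : ℕ) {t0 : F} (ht0 : P0.ord t0 = 1) {f : F}
    (h : ∀ v : Place K F, triv P0 m t0 v * f ∈ v.toValuationSubring) : f ∈ Lm P0 m := by
  rcases eq_or_ne f 0 with rfl | hf
  · exact zero_mem _
  rw [mem_L_iff hf]
  intro v
  have h1 := ffp_ord_nonneg_of_mem v (h v)
  have h2 := ordSec_eq P0 m ht0 v hf
  rw [ordSec] at h2
  omega

/-- The order at `v` of the effective canonical divisor `div (f0 dx)`. -/
noncomputable def K0 (f0 : F) (v : Place K F) : ℤ := v.ordDifferential (D K F x) + v.ord f0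

/-- The local factor `σ_v = triv * s * (dt/dx) / f0`. -/
noncomputable def sigF (hx : IsGen K x) (P0 : Place K F) (d : ℕ) (t0 f0 s : F) (v : Place K F)
    (t : F) : F := triv P0 d t0 v * s * ddx hx t / f0

theorem ord_sigF (hx : IsGen K x) (P0 : Place K F) (d : ℕ) {t0 : F} (ht0 : P0.ord t0 = 1)
    {f0 s : F} (hf0 : f0 ≠ 0) (hs : s ≠ 0) (v : Place K F) {t : F} (ht : v.ord t = 1) :
    v.ord (sigF hx P0 d t0 f0 s v t) = mP P0 d v + v.ord s - K0 (x := x) f0 v := by
  have h1 := triv_ne_zero P0 d ht0 v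
  have h2 := ddx_ne_zero_of_ord_eq_one hx v ht
  rw [sigF, div_eq_mul_inv, v.ord_mul (mul_ne_zero (mul_ne_zero h1 hs) h2) (inv_ne_zero hf0),
    v.ord_mul (mul_ne_zero h1 hs) h2, v.ord_mul h1 hs, v.ord_inv, ord_triv P0 d ht0,
    ord_ddx_of_ord_eq_one hx v ht, K0]
  ring

theorem sigF_ne_zero (hx : IsGen K x) (P0 : Place K F) (d : ℕ) {t0 : F} (ht0 : P0.ord t0 = 1)
    {f0 s : F} (hf0 : f0 ≠ 0) (hs : s ≠ 0) (v : Place K F) {t : F} (ht : v.ord t = 1) :
    sigF hx P0 d t0 f0 s v t ≠ 0 := by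
  rw [sigF]
  exact div_ne_zero (mul_ne_zero (mul_ne_zero (triv_ne_zero P0 d ht0 v) hs)
    (ddx_ne_zero_of_ord_eq_one hx v ht)) hf0

/-- The Wronskian section `s * wr a b / f0`. -/
noncomputable def wfun (hx : IsGen K x) (f0 s a b : F) : F := s * wr hx a b / f0

theorem triv_pow_three_mul_wfun (hx : IsGen K x) (P0 : Place K F) (d : ℕ) (t0 : F)
    {f0 : F} (hf0 : f0 ≠ 0) (s a b : F) (v : Place K F) {t : F}
    (ht : v.ord t = 1) :
    triv P0 d t0 v ^ 3 * wfun hx f0 s a b =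
      sigF hx P0 d t0 f0 s v t *
        (wr hx (triv P0 d t0 v * a) (triv P0 d t0 v * b) / ddx hx t) := by
  have h2 := ddx_ne_zero_of_ord_eq_one hx v ht
  rw [wfun, sigF, wr_mul_mul]
  field_simp

/-- The trivialised Wronskian section is regular, with value `σ(v) * (pt ∧ dpt)`. -/
theorem triv_mul_wfun_mem (hx : IsGen K x) (P0 : Place K F) (d : ℕ) {t0 : F}
    (ht0 : P0.ord t0 = 1) {f0 s : F} (hf0 : f0 ≠ 0) (hs : s ≠ 0)
    (hR : ∀ v : Place K F, 0 ≤ mP P0 d v + v.ord s - K0 (x := x) f0 v)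
    {a b : F} (ha : a ∈ Lm P0 d) (hb : b ∈ Lm P0 d) (v : Place K F) :
    triv P0 (3 * d) t0 v * wfun hx f0 s a b ∈ v.toValuationSubring := by
  obtain ⟨t, ht⟩ : ∃ t : F, v.ord t = 1 := ⟨_, ffu_ord v⟩
  rw [← triv_pow, triv_pow_three_mul_wfun hx P0 d t0 hf0 s a b v ht]
  refine mul_mem (ffp_mem_of_ord_nonneg v ?_) (wr_div_mem hx v ht (triv_mul_mem P0 ht0 v ha)
    (triv_mul_mem P0 ht0 v hb))
  rw [ord_sigF hx P0 d ht0 hf0 hs v ht]
  exact hR v

theorem wfun_mem_Lm (hx : IsGen K x) (P0 : Place K F) (d : ℕ) {t0 : F}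
    (ht0 : P0.ord t0 = 1) {f0 s : F} (hf0 : f0 ≠ 0) (hs : s ≠ 0)
    (hR : ∀ v : Place K F, 0 ≤ mP P0 d v + v.ord s - K0 (x := x) f0 v)
    {a b : F} (ha : a ∈ Lm P0 d) (hb : b ∈ Lm P0 d) : wfun hx f0 s a b ∈ Lm P0 (3 * d) :=
  mem_Lm_of_triv_mul_mem P0 (3 * d) ht0 (triv_mul_wfun_mem hx P0 d ht0 hf0 hs hR ha hb)

/-- **The value of the Wronskian section**: `σ(v) * (a(v) b'(v) - b(v) a'(v))`. -/
theorem valF_triv_mul_wfun (hx : IsGen K x) (P0 : Place K F) (d : ℕ) {t0 : F}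
    (ht0 : P0.ord t0 = 1) {f0 s : F} (hf0 : f0 ≠ 0) (hs : s ≠ 0)
    (hR : ∀ v : Place K F, 0 ≤ mP P0 d v + v.ord s - K0 (x := x) f0 v)
    {a b : F} (ha : a ∈ Lm P0 d) (hb : b ∈ Lm P0 d) (v : Place K F) {t : F} (ht : v.ord t = 1) :
    valF (lHyp_of_isGen hx) v (triv P0 (3 * d) t0 v * wfun hx f0 s a b) =
      valF (lHyp_of_isGen hx) v (sigF hx P0 d t0 f0 s v t) *
        (valF (lHyp_of_isGen hx) v (triv P0 d t0 v * a) *
            tay1 (lHyp_of_isGen hx) v t (triv P0 d t0 v * b) -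
          valF (lHyp_of_isGen hx) v (triv P0 d t0 v * b) *
            tay1 (lHyp_of_isGen hx) v t (triv P0 d t0 v * a)) := by
  have hσ : sigF hx P0 d t0 f0 s v t ∈ v.toValuationSubring :=
    ffp_mem_of_ord_nonneg v (by rw [ord_sigF hx P0 d ht0 hf0 hs v ht]; exact hR v)
  have ha' := triv_mul_mem P0 ht0 v ha
  have hb' := triv_mul_mem P0 ht0 v hb
  rw [← triv_pow, triv_pow_three_mul_wfun hx P0 d t0 hf0 s a b v ht,
    valF_mul _ v hσ (wr_div_mem hx v ht ha' hb'), valF_wr_div hx v ht ha' hb']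

/-- `σ(v) ≠ 0` iff `v` is not in the residual divisor of `s`. -/
theorem valF_sigF_ne_zero_iff (hx : IsGen K x) (P0 : Place K F) (d : ℕ) {t0 : F}
    (ht0 : P0.ord t0 = 1) {f0 s : F} (hf0 : f0 ≠ 0) (hs : s ≠ 0)
    (hR : ∀ v : Place K F, 0 ≤ mP P0 d v + v.ord s - K0 (x := x) f0 v)
    (v : Place K F) {t : F} (ht : v.ord t = 1) :
    valF (lHyp_of_isGen hx) v (sigF hx P0 d t0 f0 s v t) ≠ 0 ↔
      mP P0 d v + v.ord s - K0 (x := x) f0 v = 0 := by
  have hord := ord_sigF hx P0 d ht0 hf0 hs v ht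
  have hσ : sigF hx P0 d t0 f0 s v t ∈ v.toValuationSubring :=
    ffp_mem_of_ord_nonneg v (by rw [hord]; exact hR v)
  have hne := sigF_ne_zero hx P0 d ht0 hf0 hs v ht
  rw [Ne, valF_eq_zero_iff _ v hσ, hord]
  constructor
  · intro h
    have := hR v
    by_contra hcon
    exact h (Or.inr (by omega))
  · rintro h (h1 | h1)
    · exact hne h1
    · omega

/-! ### The power trick: sections `w * s ^ m` of `O(k d P0)` (`k < m` allowed) -/

/-- The local factor `ω_v = triv ^ (k - m) * w * (f0 / (dt/dx)) ^ m` (`k - m ∈ ℤ`). -/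
noncomputable def omF (hx : IsGen K x) (P0 : Place K F) (d k m : ℕ) (t0 f0 w : F) (v : Place K F)
    (t : F) : F := triv P0 d t0 v ^ ((k : ℤ) - m) * w * (f0 / ddx hx t) ^ m

theorem ord_omF (hx : IsGen K x) (P0 : Place K F) (d k m : ℕ) {t0 : F} (ht0 : P0.ord t0 = 1)
    {f0 w : F} (hf0 : f0 ≠ 0) (hw : w ≠ 0) (v : Place K F) {t : F} (ht : v.ord t = 1) :
    v.ord (omF hx P0 d k m t0 f0 w v t) =
      ((k : ℤ) - m) * mP P0 d v + v.ord w + m * K0 (x := x) f0 v := by
  have h1 := triv_ne_zero P0 d ht0 v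
  have h2 := ddx_ne_zero_of_ord_eq_one hx v ht
  have h3 : f0 / ddx hx t ≠ 0 := div_ne_zero hf0 h2
  have e1 : v.ord (triv P0 d t0 v ^ ((k : ℤ) - m)) = ((k : ℤ) - m) * mP P0 d v := by
    rw [v.ord_zpow, ord_triv P0 d ht0]
  have e2 : v.ord ((f0 / ddx hx t) ^ m) = m * K0 (x := x) f0 v := by
    have := v.ord_zpow (f0 / ddx hx t) (m : ℤ)
    rw [zpow_natCast, div_eq_mul_inv, v.ord_mul hf0 (inv_ne_zero h2), v.ord_inv,
      ord_ddx_of_ord_eq_one hx v ht] at this
    rw [div_eq_mul_inv, this, K0]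
    ring
  rw [omF, v.ord_mul (mul_ne_zero (zpow_ne_zero _ h1) hw) (pow_ne_zero _ h3),
    v.ord_mul (zpow_ne_zero _ h1) hw, e1, e2]

theorem omF_ne_zero (hx : IsGen K x) (P0 : Place K F) (d k m : ℕ) {t0 : F} (ht0 : P0.ord t0 = 1)
    {f0 w : F} (hf0 : f0 ≠ 0) (hw : w ≠ 0) (v : Place K F) {t : F} (ht : v.ord t = 1) :
    omF hx P0 d k m t0 f0 w v t ≠ 0 := by
  rw [omF]
  exact mul_ne_zero (mul_ne_zero (zpow_ne_zero _ (triv_ne_zero P0 d ht0 v)) hw)
    (pow_ne_zero _ (div_ne_zero hf0 (ddx_ne_zero_of_ord_eq_one hx v ht)))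

theorem triv_pow_mul_psi (hx : IsGen K x) (P0 : Place K F) (d k m : ℕ)
    {t0 : F} (ht0 : P0.ord t0 = 1) {f0 : F} (hf0 : f0 ≠ 0) (w s : F) (v : Place K F) {t : F}
    (ht : v.ord t = 1) :
    triv P0 d t0 v ^ k * (w * s ^ m) =
      omF hx P0 d k m t0 f0 w v t * sigF hx P0 d t0 f0 s v t ^ m := by
  have h1 := triv_ne_zero P0 d ht0 v
  have h2 := ddx_ne_zero_of_ord_eq_one hx v ht
  have e : triv P0 d t0 v ^ ((k : ℤ) - m) = triv P0 d t0 v ^ k / triv P0 d t0 v ^ m := by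
    rw [zpow_sub₀ h1, zpow_natCast, zpow_natCast]
  rw [omF, sigF, e, div_pow, div_pow, mul_pow, mul_pow]
  field_simp

theorem triv_mul_psi_mem (hx : IsGen K x) (P0 : Place K F) (d k m : ℕ)
    {t0 : F} (ht0 : P0.ord t0 = 1) {f0 s w : F} (hf0 : f0 ≠ 0) (hs : s ≠ 0) (hw : w ≠ 0)
    (hR : ∀ v : Place K F, 0 ≤ mP P0 d v + v.ord s - K0 (x := x) f0 v)
    (hB : ∀ v : Place K F, 0 ≤ ((k : ℤ) - m) * mP P0 d v + v.ord w + m * K0 (x := x) f0 v)
    (v : Place K F) : triv P0 (k * d) t0 v * (w * s ^ m) ∈ v.toValuationSubring := by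
  obtain ⟨t, ht⟩ : ∃ t : F, v.ord t = 1 := ⟨_, ffu_ord v⟩
  rw [← triv_pow, triv_pow_mul_psi hx P0 d k m ht0 hf0 w s v ht]
  refine mul_mem (ffp_mem_of_ord_nonneg v ?_) (pow_mem (ffp_mem_of_ord_nonneg v ?_) m)
  · rw [ord_omF hx P0 d k m ht0 hf0 hw v ht]; exact hB v
  · rw [ord_sigF hx P0 d ht0 hf0 hs v ht]; exact hR v

theorem psi_mem_Lm (hx : IsGen K x) (P0 : Place K F) (d k m : ℕ)
    {t0 : F} (ht0 : P0.ord t0 = 1) {f0 s w : F} (hf0 : f0 ≠ 0) (hs : s ≠ 0) (hw : w ≠ 0)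
    (hR : ∀ v : Place K F, 0 ≤ mP P0 d v + v.ord s - K0 (x := x) f0 v)
    (hB : ∀ v : Place K F, 0 ≤ ((k : ℤ) - m) * mP P0 d v + v.ord w + m * K0 (x := x) f0 v) :
    w * s ^ m ∈ Lm P0 (k * d) :=
  mem_Lm_of_triv_mul_mem P0 (k * d) ht0 (triv_mul_psi_mem hx P0 d k m ht0 hf0 hs hw hR hB)

/-- **The value of `w * s ^ m`**: `ω(v) * σ(v) ^ m`. -/
theorem valF_triv_mul_psi (hx : IsGen K x) (P0 : Place K F) (d k m : ℕ)
    {t0 : F} (ht0 : P0.ord t0 = 1) {f0 s w : F} (hf0 : f0 ≠ 0) (hs : s ≠ 0) (hw : w ≠ 0)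
    (hR : ∀ v : Place K F, 0 ≤ mP P0 d v + v.ord s - K0 (x := x) f0 v)
    (hB : ∀ v : Place K F, 0 ≤ ((k : ℤ) - m) * mP P0 d v + v.ord w + m * K0 (x := x) f0 v)
    (v : Place K F) {t : F} (ht : v.ord t = 1) :
    valF (lHyp_of_isGen hx) v (triv P0 (k * d) t0 v * (w * s ^ m)) =
      valF (lHyp_of_isGen hx) v (omF hx P0 d k m t0 f0 w v t) *
        valF (lHyp_of_isGen hx) v (sigF hx P0 d t0 f0 s v t) ^ m := by
  have hσ : sigF hx P0 d t0 f0 s v t ∈ v.toValuationSubring :=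
    ffp_mem_of_ord_nonneg v (by rw [ord_sigF hx P0 d ht0 hf0 hs v ht]; exact hR v)
  have hω : omF hx P0 d k m t0 f0 w v t ∈ v.toValuationSubring :=
    ffp_mem_of_ord_nonneg v (by rw [ord_omF hx P0 d k m ht0 hf0 hw v ht]; exact hB v)
  rw [← triv_pow, triv_pow_mul_psi hx P0 d k m ht0 hf0 w s v ht,
    valF_mul _ v hω (pow_mem hσ m), valF_pow _ v hσ]

theorem valF_omF_ne_zero_iff (hx : IsGen K x) (P0 : Place K F) (d k m : ℕ) {t0 : F}
    (ht0 : P0.ord t0 = 1) {f0 w : F} (hf0 : f0 ≠ 0) (hw : w ≠ 0)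
    (hB : ∀ v : Place K F, 0 ≤ ((k : ℤ) - m) * mP P0 d v + v.ord w + m * K0 (x := x) f0 v)
    (v : Place K F) {t : F} (ht : v.ord t = 1) :
    valF (lHyp_of_isGen hx) v (omF hx P0 d k m t0 f0 w v t) ≠ 0 ↔
      ((k : ℤ) - m) * mP P0 d v + v.ord w + m * K0 (x := x) f0 v = 0 := by
  have hord := ord_omF hx P0 d k m ht0 hf0 hw v ht
  have hω : omF hx P0 d k m t0 f0 w v t ∈ v.toValuationSubring :=
    ffp_mem_of_ord_nonneg v (by rw [hord]; exact hB v)
  have hne := omF_ne_zero hx P0 d k m ht0 hf0 hw v ht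
  rw [Ne, valF_eq_zero_iff _ v hω, hord]
  constructor
  · intro h
    have := hB v
    by_contra hcon
    exact h (Or.inr (by omega))
  · rintro h (h1 | h1)
    · exact hne h1
    · omega

end Sections

/-! ### Existence of the data: `f0`, the pencil `s, s'`, the auxiliary pencil `w, w'` -/

section Data

open Fermat.Agent.MW.EMB.OnePoint6 Fermat.Agent.MW.EMB.Coord6 Fermat.Agent.MW.POS.Strata4
open Fermat.Agent.MW.PAIR.Bpf4

variable [HasCanonicalDivisor (K := K) (F := F)]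

theorem W_apply (hx : IsGen K x) (v : Place K F) : W hx v = v.ordDifferential (D K F x) :=
  canonicalDivisorOf_apply (D_ne_zero hx) v

/-- A regular differential `f0 dx` (`g ≥ 1`). -/
theorem exists_f0 (hx : IsGen K x) (hg : 1 ≤ genus K F) :
    ∃ f0 : F, f0 ≠ 0 ∧ ∀ v : Place K F, 0 ≤ K0 (x := x) f0 v := by
  have h1 : Module.finrank K (riemannRochSpace (W hx)) = genus K F :=
    finrank_L_canonical hx (D_ne_zero hx) (fun v => canonicalDivisorOf_apply (D_ne_zero hx) v)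
  have : FiniteDimensional K (riemannRochSpace (W hx)) := finiteDimensional_L hx _
  have hpos : 0 < Module.finrank K (riemannRochSpace (W hx)) := by omega
  obtain ⟨f, hf⟩ := Module.finrank_pos_iff_exists_ne_zero.mp hpos
  have hf' : (f : F) ≠ 0 := fun h => hf (Subtype.ext h)
  refine ⟨f, hf', fun v => ?_⟩
  have := (mem_L_iff hf').mp f.2 v
  rw [W_apply] at this
  rw [K0]
  omega

/-- The effective canonical divisor `div (f0 dx)`. -/
noncomputable def K0div (hx : IsGen K x) {f0 : F} (hf0 : f0 ≠ 0) : Divisor K F :=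
  W hx + divOf (lHyp_of_isGen hx) hf0

theorem K0div_apply (hx : IsGen K x) {f0 : F} (hf0 : f0 ≠ 0) (v : Place K F) :
    K0div hx hf0 v = K0 (x := x) f0 v := by
  rw [K0div, Finsupp.add_apply, W_apply, divOf_apply, K0]

theorem degree_K0div (hx : IsGen K x) {f0 : F} (hf0 : f0 ≠ 0) :
    Divisor.degree (K0div hx hf0) = 2 * (genus K F : ℤ) - 2 := by
  rw [K0div, map_add, degree_W, degree_divOf, add_zero]

/-- A nonzero function whose divisor is a given principal divisor. -/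
theorem exists_fun_of_mem_principal {u : Divisor K F}
    (hu : u ∈ Divisor.principal (K := K) (F := F)) :
    ∃ s : F, s ≠ 0 ∧ ∀ v : Place K F, u v = v.ord s := hu

/-- **The pencil** `s, s' ∈ L(d P0 - K0)` with disjoint residual divisors. -/
theorem exists_pencil (hx : IsGen K x) (P0 : Place K F) {d : ℕ}
    (hd : 4 * (genus K F : ℤ) ≤ d + 2) {f0 : F} (hf0 : f0 ≠ 0) :
    ∃ s s' : F, s ≠ 0 ∧ s' ≠ 0 ∧
      (∀ v : Place K F, 0 ≤ mP P0 d v + v.ord s - K0 (x := x) f0 v) ∧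
      (∀ v : Place K F, 0 ≤ mP P0 d v + v.ord s' - K0 (x := x) f0 v) ∧
      ∀ v : Place K F, mP P0 d v + v.ord s - K0 (x := x) f0 v = 0 ∨
        mP P0 d v + v.ord s' - K0 (x := x) f0 v = 0 := by
  classical
  have H := lHyp_of_isGen hx
  obtain ⟨A, A', hA, hA', hdisj, hp, hp'⟩ := exists_disjoint_members hx (mP P0 d - K0div hx hf0)
    (by rw [map_sub, degree_mP H, degree_K0div]; omega)
  obtain ⟨s, hs, hsv⟩ := exists_fun_of_mem_principal hp
  obtain ⟨s', hs', hsv'⟩ := exists_fun_of_mem_principal hp'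
  have e : ∀ v, A v = mP P0 d v + v.ord s - K0 (x := x) f0 v := fun v => by
    have := hsv v
    rw [Finsupp.sub_apply, Finsupp.sub_apply, K0div_apply] at this
    omega
  have e' : ∀ v, A' v = mP P0 d v + v.ord s' - K0 (x := x) f0 v := fun v => by
    have := hsv' v
    rw [Finsupp.sub_apply, Finsupp.sub_apply, K0div_apply] at this
    omega
  refine ⟨s, s', hs, hs', fun v => ?_, fun v => ?_, fun v => ?_⟩
  · rw [← e]; exact hA v
  · rw [← e']; exact hA' v
  · rw [← e, ← e']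
    by_cases h : v ∈ A.support
    · right
      have := Finset.disjoint_left.mp hdisj h
      simpa [Finsupp.mem_support_iff] using this
    · left
      simpa [Finsupp.mem_support_iff] using h

/-- **The auxiliary pencil** `w, w' ∈ L((k - m) d P0 + m K0)` with disjoint residual divisors. -/
theorem exists_aux (hx : IsGen K x) (P0 : Place K F) (d k m : ℕ) {f0 : F} (hf0 : f0 ≠ 0)
    (hkm : 2 * (genus K F : ℤ) ≤ ((k : ℤ) - m) * d + m * (2 * (genus K F : ℤ) - 2)) :
    ∃ w w' : F, w ≠ 0 ∧ w' ≠ 0 ∧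
      (∀ v : Place K F, 0 ≤ ((k : ℤ) - m) * mP P0 d v + v.ord w + m * K0 (x := x) f0 v) ∧
      (∀ v : Place K F, 0 ≤ ((k : ℤ) - m) * mP P0 d v + v.ord w' + m * K0 (x := x) f0 v) ∧
      ∀ v : Place K F, ((k : ℤ) - m) * mP P0 d v + v.ord w + m * K0 (x := x) f0 v = 0 ∨
        ((k : ℤ) - m) * mP P0 d v + v.ord w' + m * K0 (x := x) f0 v = 0 := by
  classical
  have H := lHyp_of_isGen hx
  obtain ⟨A, A', hA, hA', hdisj, hp, hp'⟩ := exists_disjoint_members hx
    (((k : ℤ) - m) • mP P0 d + (m : ℤ) • K0div hx hf0)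
    (by rw [map_add, map_zsmul, map_zsmul, degree_mP H, degree_K0div, smul_eq_mul, smul_eq_mul]
        exact hkm)
  obtain ⟨w, hw, hwv⟩ := exists_fun_of_mem_principal hp
  obtain ⟨w', hw', hwv'⟩ := exists_fun_of_mem_principal hp'
  have e : ∀ v, A v = ((k : ℤ) - m) * mP P0 d v + v.ord w + m * K0 (x := x) f0 v := fun v => by
    have := hwv v
    rw [Finsupp.sub_apply, Finsupp.add_apply, Finsupp.smul_apply, Finsupp.smul_apply,
      K0div_apply, smul_eq_mul, smul_eq_mul] at this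
    omega
  have e' : ∀ v, A' v = ((k : ℤ) - m) * mP P0 d v + v.ord w' + m * K0 (x := x) f0 v :=
    fun v => by
    have := hwv' v
    rw [Finsupp.sub_apply, Finsupp.add_apply, Finsupp.smul_apply, Finsupp.smul_apply,
      K0div_apply, smul_eq_mul, smul_eq_mul] at this
    omega
  refine ⟨w, w', hw, hw', fun v => ?_, fun v => ?_, fun v => ?_⟩
  · rw [← e]; exact hA v
  · rw [← e']; exact hA' v
  · rw [← e, ← e']
    by_cases h : v ∈ A.support
    · right
      have := Finset.disjoint_left.mp hdisj h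
      simpa [Finsupp.mem_support_iff] using this
    · left
      simpa [Finsupp.mem_support_iff] using h

end Data

/-! ### The forms -/

section Forms

open Fermat.Agent.MW.EMB.OnePoint6 Fermat.Agent.MW.EMB.Coord6 Fermat.Agent.MW.EMB.Proj6
open Fermat.Agent.MW.EMB.Form6 Fermat.Agent.MW.EMB.Tangent6

variable [HasCanonicalDivisor (K := K) (F := F)]

/-- The `2 × 2` minors of the pair `(a, a')`. -/
def wedge2 {n : ℕ} (a a' : Fin n → K) : Fin n × Fin n → K :=
  fun p => a p.1 * a' p.2 - a p.2 * a' p.1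

/-- Two linearly independent vectors have a nonzero `2 × 2` minor. -/
theorem wedge2_ne_zero {n : ℕ} {a a' : Fin n → K} (h : LinearIndependent K ![a, a']) :
    wedge2 a a' ≠ 0 := by
  intro h0
  rw [LinearIndependent.pair_iff] at h
  have ha : a ≠ 0 := by
    rintro rfl
    have := h 1 0 (by simp)
    exact one_ne_zero this.1
  obtain ⟨i, hi⟩ := Function.ne_iff.mp ha
  have key : (-(a' i)) • a + (a i) • a' = 0 := by
    funext j
    have := congrFun h0 (i, j)
    simp only [wedge2, Pi.zero_apply] at this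
    simp only [Pi.add_apply, Pi.smul_apply, smul_eq_mul, Pi.zero_apply]
    linear_combination this
  exact hi (h _ _ key).2

theorem dpt_eq_tay1 (hx : IsGen K x) (P0 : Place K F) (d : ℕ) {t0 : F} (ht0 : P0.ord t0 = 1)
    {n : ℕ} (b : Module.Basis (Fin n) K (Lm P0 d)) (v : Place K F) {t : F} (ht : v.ord t = 1)
    (i : Fin n) :
    dpt (lHyp_of_isGen hx) P0 d ht0 b v ht i =
      tay1 (lHyp_of_isGen hx) v t (triv P0 d t0 v * ((b i : Lm P0 d) : F)) := rfl

theorem pt_eq_valF (hx : IsGen K x) (P0 : Place K F) (d : ℕ) {t0 : F} (ht0 : P0.ord t0 = 1)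
    {n : ℕ} (b : Module.Basis (Fin n) K (Lm P0 d)) (v : Place K F) (i : Fin n) :
    pt (lHyp_of_isGen hx) P0 d ht0 b v i =
      valF (lHyp_of_isGen hx) v (triv P0 d t0 v * ((b i : Lm P0 d) : F)) := rfl

/-- **The Wronskian cubic forms**: `p (i,j) (pt v) = σ_v * (pt v ∧ dpt v)_{ij}` at every place. -/
theorem exists_wronskian_forms (hx : IsGen K x) (P0 : Place K F) {d : ℕ}
    (hd : 4 * (genus K F : ℤ) ≤ d) {t0 : F} (ht0 : P0.ord t0 = 1) {n : ℕ}
    (b : Module.Basis (Fin n) K (Lm P0 d)) {f0 s : F} (hf0 : f0 ≠ 0) (hs : s ≠ 0)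
    (hR : ∀ v : Place K F, 0 ≤ mP P0 d v + v.ord s - K0 (x := x) f0 v) :
    ∃ p : Fin n × Fin n → MvPolynomial (Fin n) K, (∀ a, (p a).IsHomogeneous 3) ∧
      ∀ (v : Place K F) (t : F) (ht : v.ord t = 1) (a : Fin n × Fin n),
        MvPolynomial.eval (pt (lHyp_of_isGen hx) P0 d ht0 b v) (p a) =
          valF (lHyp_of_isGen hx) v (sigF hx P0 d t0 f0 s v t) *
            wedge2 (pt (lHyp_of_isGen hx) P0 d ht0 b v)
              (dpt (lHyp_of_isGen hx) P0 d ht0 b v ht) a := by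
  have hex : ∀ a : Fin n × Fin n, ∃ p : MvPolynomial (Fin n) K, p.IsHomogeneous 3 ∧
      formFn P0 d b p = wfun hx f0 s ((b a.1 : Lm P0 d) : F) ((b a.2 : Lm P0 d) : F) :=
    fun a => exists_form hx P0 hd b
      (wfun_mem_Lm hx P0 d ht0 hf0 hs hR (b a.1).2 (b a.2).2)
  choose p hp hpf using hex
  refine ⟨p, hp, fun v t ht a => ?_⟩
  rw [eval_pt (lHyp_of_isGen hx) P0 d ht0 b (hp a) v, ev_apply]
  show valF (lHyp_of_isGen hx) v (triv P0 (3 * d) t0 v * formFn P0 d b (p a)) = _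
  rw [hpf a, valF_triv_mul_wfun hx P0 d ht0 hf0 hs hR (b a.1).2 (b a.2).2 v ht]
  rfl

/-- **The power-trick forms**: `P (pt v) = ω_v * σ_v ^ m`. -/
theorem exists_power_form (hx : IsGen K x) (P0 : Place K F) {d : ℕ}
    (hd : 4 * (genus K F : ℤ) ≤ d) {t0 : F} (ht0 : P0.ord t0 = 1) {n : ℕ}
    (b : Module.Basis (Fin n) K (Lm P0 d)) (k m : ℕ) {f0 s w : F} (hf0 : f0 ≠ 0) (hs : s ≠ 0)
    (hw : w ≠ 0)
    (hR : ∀ v : Place K F, 0 ≤ mP P0 d v + v.ord s - K0 (x := x) f0 v)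
    (hB : ∀ v : Place K F, 0 ≤ ((k : ℤ) - m) * mP P0 d v + v.ord w + m * K0 (x := x) f0 v) :
    ∃ P : MvPolynomial (Fin n) K, P.IsHomogeneous k ∧
      ∀ (v : Place K F) (t : F) (_ht : v.ord t = 1),
        MvPolynomial.eval (pt (lHyp_of_isGen hx) P0 d ht0 b v) P =
          valF (lHyp_of_isGen hx) v (omF hx P0 d k m t0 f0 w v t) *
            valF (lHyp_of_isGen hx) v (sigF hx P0 d t0 f0 s v t) ^ m := by
  obtain ⟨P, hP, hPf⟩ := exists_form hx P0 hd b
    (psi_mem_Lm hx P0 d k m ht0 hf0 hs hw hR hB)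
  refine ⟨P, hP, fun v t ht => ?_⟩
  rw [eval_pt (lHyp_of_isGen hx) P0 d ht0 b hP v, ev_apply]
  show valF (lHyp_of_isGen hx) v (triv P0 (k * d) t0 v * formFn P0 d b P) = _
  rw [hPf, valF_triv_mul_psi hx P0 d k m ht0 hf0 hs hw hR hB v ht]

end Forms

end Fermat.Agent.MW.POS.Wronsk4
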