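/-
Programme MW (S17), block POS, brick (adj), global half (helper4): **the adjunction inequality**

  `ht (pt v ∧ dpt v t) - 2 ht (pt v) ≥ ((2g - 2)/d - ε) ht (pt v) - C_ε`   for ALL places `v`
  and every uniformizer `t` at `v`

for the embedding of a curve over `Qbar` by `|d P0|` (`4g ≤ d`, `g ≥ 1`), i.e. (with
`lam v v = 2 ht (pt v) - ht (pt v ∧ dpt v)` and `ht (pt v) = d lam P0 v + O(1)`):
`- lam v v ≥ (2g - 2 - ε') lam P0 v - C`.

Proof (global, no local input): the Wronskian cubic forms of `Wronsk4` have no common zero on the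
curve, so (`Cert6.exists_certificate` + `Poly3.ht_eval_ge` + Segre)
`ht (pt ∧ dpt) + ht (σ, σ') ≥ 3 ht (pt) - C₁`; the power trick (`Wronsk4.exists_power_form` +
`Poly3.ht_eval_le` + Segre + `ht_pow`) gives `m ht (σ, σ') ≤ k ht (pt) + C₂` whenever
`k d ≥ m (d - 2g + 2) + 2g`.
-/
import Mathlib
import Fermat.Agent.MW.POS.Wronsk4
import Fermat.Agent.MW.EMB.Cert6
import Fermat.Agent.MW.HT.Poly3

set_option autoImplicit false
set_option linter.unusedSectionVars false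

open AlgebraicCurve

namespace Fermat.Agent.MW.POS.Adj4

open Fermat.Agent.X0.FF Fermat.Agent.RR.LSpace Fermat.Agent.RR.LHypGen
open Fermat.Agent.MW.EMB.Value6 Fermat.Agent.MW.EMB.OnePoint6 Fermat.Agent.MW.EMB.Coord6
open Fermat.Agent.MW.EMB.Proj6 Fermat.Agent.MW.EMB.Form6 Fermat.Agent.MW.EMB.Cert6
open Fermat.Agent.MW.POS.Wronsk4
open Fermat.Agent.MW.HT.Ht3 Fermat.Agent.MW.HT.Poly3

/-- The field of algebraic numbers (HT's `Qbar`). -/
local notation "Qb" => Fermat.Agent.MW.HT.Place3.Qbar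

variable {F : Type*} [Field F] [Algebra Qb F] {x : F} [HasCanonicalDivisor (K := Qb) (F := F)]

/-- The arithmetic: a suitable pair `(k, m)` for a given `ε`. -/
theorem exists_km (g d : ℕ) (hd : 4 * g ≤ d) (hg : 1 ≤ g) {ε : ℝ} (hε : 0 < ε) :
    ∃ k m : ℕ, 0 < m ∧
      (2 * (g : ℤ) ≤ ((k : ℤ) - m) * d + m * (2 * (g : ℤ) - 2)) ∧
      ((2 * (g : ℝ) - 2) / d - ε ≤ 1 - (k : ℝ) / m) := by
  have hd0 : 0 < d := by omega
  have hdR : (0 : ℝ) < d := by exact_mod_cast hd0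
  obtain ⟨m, hm⟩ := exists_nat_gt ((2 * (g : ℝ) / d + 1) / ε)
  have hA : (0 : ℝ) < 2 * (g : ℝ) / d + 1 := by positivity
  have hm0R : (0 : ℝ) < m := lt_trans (div_pos hA hε) hm
  have hm0 : 0 < m := by exact_mod_cast hm0R
  set E : ℕ := d + 2 - 2 * g with hE
  set k : ℕ := (m * E + 2 * g) / d + 1 with hk
  refine ⟨k, m, hm0, ?_, ?_⟩
  · -- `k d ≥ m E + 2g`
    have h1 : m * E + 2 * g < k * d := by
      rw [hk, add_mul, one_mul]
      have := Nat.div_add_mod (m * E + 2 * g) d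
      have h2 := Nat.mod_lt (m * E + 2 * g) hd0
      nlinarith
    have hEz : (E : ℤ) = d + 2 - 2 * g := by rw [hE]; omega
    have h1z : (m : ℤ) * E + 2 * g < k * d := by exact_mod_cast h1
    rw [hEz] at h1z
    nlinarith
  · -- `k / m ≤ E/d + (2g/d + 1)/m`
    have hkR : (k : ℝ) ≤ ((m : ℝ) * E + 2 * g) / d + 1 := by
      rw [hk]
      push_cast
      have : (((m * E + 2 * g) / d : ℕ) : ℝ) ≤ ((m * E + 2 * g : ℕ) : ℝ) / d := Nat.cast_div_le
      push_cast at this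
      linarith
    have hER : (E : ℝ) = d + 2 - 2 * g := by
      rw [hE]
      have : 2 * g ≤ d + 2 := by omega
      push_cast [Nat.cast_sub this]
      ring
    have h3 : (k : ℝ) / m ≤ (E : ℝ) / d + (2 * (g : ℝ) / d + 1) / m := by
      rw [div_le_iff₀ hm0R]
      have : ((E : ℝ) / d + (2 * (g : ℝ) / d + 1) / m) * m =
          ((m : ℝ) * E + 2 * g) / d + 1 := by
        field_simp
        ring
      rw [this]
      exact hkR
    have h4 : (2 * (g : ℝ) / d + 1) / m ≤ ε := by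
      rw [div_le_iff₀ hm0R]
      rw [div_lt_iff₀ hε] at hm
      linarith
    have h5 : (E : ℝ) / d = 1 - (2 * (g : ℝ) - 2) / d := by
      rw [hER]; field_simp; ring
    linarith

/-- The adjunction inequality for a fixed admissible pair `(k, m)`. -/
theorem adj_aux (hx : IsGen Qb x) (hg : 1 ≤ genus Qb F) (P0 : Place Qb F) {d : ℕ}
    (hd : 4 * (genus Qb F : ℤ) ≤ d) {t0 : F} (ht0 : P0.ord t0 = 1) {n : ℕ}
    (b : Module.Basis (Fin n) Qb (Lm P0 d)) (k m : ℕ) (hm : 0 < m)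
    (hkm : 2 * (genus Qb F : ℤ) ≤ ((k : ℤ) - m) * d + m * (2 * (genus Qb F : ℤ) - 2)) :
    ∃ C : ℝ, ∀ (v : Place Qb F) (t : F) (hut : v.ord t = 1),
      (1 - (k : ℝ) / m) * ht (pt (lHyp_of_isGen hx) P0 d ht0 b v) - C ≤
        ht (wedge2 (pt (lHyp_of_isGen hx) P0 d ht0 b v)
          (dpt (lHyp_of_isGen hx) P0 d ht0 b v hut)) -
          2 * ht (pt (lHyp_of_isGen hx) P0 d ht0 b v) := by
  classical
  have hg' : (1 : ℤ) ≤ genus Qb F := by exact_mod_cast hg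
  obtain ⟨f0, hf0, -⟩ := exists_f0 hx hg
  obtain ⟨s, s', hs, hs', hRs, hRs', hdisj⟩ := exists_pencil hx P0 (d := d) (by omega) hf0
  -- the pencil as a family indexed by `Fin 2`
  set S : Fin 2 → F := ![s, s'] with hSdef
  have hS : ∀ c, S c ≠ 0 := by
    intro c; fin_cases c
    · exact hs
    · exact hs'
  have hR : ∀ (c : Fin 2) (v : Place Qb F), 0 ≤ mP P0 d v + v.ord (S c) - K0 (x := x) f0 v := by
    intro c; fin_cases c
    · exact hRs
    · exact hRs'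
  have hdisj' : ∀ v : Place Qb F, ∃ c, mP P0 d v + v.ord (S c) - K0 (x := x) f0 v = 0 := by
    intro v
    rcases hdisj v with h | h
    · exact ⟨0, h⟩
    · exact ⟨1, h⟩
  -- the Wronskian forms
  choose pW hpW hpWv using fun c : Fin 2 =>
    exists_wronskian_forms hx P0 hd ht0 b hf0 (hS c) (hR c)
  set PW : Fin 2 × (Fin n × Fin n) → MvPolynomial (Fin n) Qb := fun a => pW a.1 a.2 with hPWdef
  have hPW : ∀ a, (PW a).IsHomogeneous 3 := fun a => hpW a.1 a.2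
  -- local values
  set σ : Place Qb F → F → Fin 2 → Qb :=
    fun v t c => valF (lHyp_of_isGen hx) v (sigF hx P0 d t0 f0 (S c) v t) with hσdef
  have hσne : ∀ (v : Place Qb F) (t : F), v.ord t = 1 → σ v t ≠ 0 := by
    intro v t hut
    obtain ⟨c, hc⟩ := hdisj' v
    refine Function.ne_iff.mpr ⟨c, ?_⟩
    exact (valF_sigF_ne_zero_iff hx P0 d ht0 hf0 (hS c) (hR c) v hut).mpr hc
  have hGne : ∀ (v : Place Qb F) (t : F) (hut : v.ord t = 1),
      wedge2 (pt (lHyp_of_isGen hx) P0 d ht0 b v) (dpt (lHyp_of_isGen hx) P0 d ht0 b v hut) ≠ 0 :=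
    fun v t hut => wedge2_ne_zero (pt_dpt_indep hx P0 ht0 b (by omega) v hut)
  have hnz : ∀ v : Place Qb F, ∃ a,
      MvPolynomial.eval (pt (lHyp_of_isGen hx) P0 d ht0 b v) (PW a) ≠ 0 := by
    intro v
    obtain ⟨t, hut⟩ : ∃ t : F, v.ord t = 1 := ⟨_, ffu_ord v⟩
    obtain ⟨c, hc⟩ := Function.ne_iff.mp (hσne v t hut)
    obtain ⟨ij, hij⟩ := Function.ne_iff.mp (hGne v t hut)
    refine ⟨(c, ij), ?_⟩
    rw [hPWdef]
    simp only
    rw [hpWv c v t hut ij]
    exact mul_ne_zero hc hij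
  obtain ⟨M, q, hq, hid⟩ := exists_certificate hx P0 ht0 hd b PW hPW hnz
  obtain ⟨C1, hC1⟩ := ht_eval_ge 3 q hq
  -- the power trick
  obtain ⟨w, w', hw, hw', hBw, hBw', hdisjw⟩ := exists_aux hx P0 d k m hf0 hkm
  set Wf : Fin 2 → F := ![w, w'] with hWdef
  have hW : ∀ c, Wf c ≠ 0 := by
    intro c; fin_cases c
    · exact hw
    · exact hw'
  have hB : ∀ (c : Fin 2) (v : Place Qb F),
      0 ≤ ((k : ℤ) - m) * mP P0 d v + v.ord (Wf c) + m * K0 (x := x) f0 v := by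
    intro c; fin_cases c
    · exact hBw
    · exact hBw'
  have hdisjw' : ∀ v : Place Qb F, ∃ c,
      ((k : ℤ) - m) * mP P0 d v + v.ord (Wf c) + m * K0 (x := x) f0 v = 0 := by
    intro v
    rcases hdisjw v with h | h
    · exact ⟨0, h⟩
    · exact ⟨1, h⟩
  choose Q hQ hQv using fun a : Fin 2 × Fin 2 =>
    exists_power_form hx P0 hd ht0 b k m hf0 (hS a.2) (hW a.1) (hR a.2) (hB a.1)
  obtain ⟨C2, hC2⟩ := ht_eval_le Q hQ
  have hmR : (0 : ℝ) < m := by exact_mod_cast hm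
  refine ⟨C1 + C2 / m, fun v t hut => ?_⟩
  set P := pt (lHyp_of_isGen hx) P0 d ht0 b v with hPdef
  set G := wedge2 P (dpt (lHyp_of_isGen hx) P0 d ht0 b v hut) with hGdef
  -- Wronskian lower bound
  have e1 : (fun j => MvPolynomial.eval P (PW j)) =
      fun a : Fin 2 × (Fin n × Fin n) => σ v t a.1 * G a.2 := by
    funext a
    exact hpWv a.1 v t hut a.2
  have h1 := hC1 PW P (hid v)
  rw [e1, ht_fun_mul (hσne v t hut) (hGne v t hut)] at h1
  -- power upper bound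
  set ω : Fin 2 → Qb :=
    fun c => valF (lHyp_of_isGen hx) v (omF hx P0 d k m t0 f0 (Wf c) v t) with hωdef
  have hωne : ω ≠ 0 := by
    obtain ⟨c, hc⟩ := hdisjw' v
    refine Function.ne_iff.mpr ⟨c, ?_⟩
    exact (valF_omF_ne_zero_iff hx P0 d k m ht0 hf0 (hW c) (hB c) v hut).mpr hc
  have e2 : (fun j => MvPolynomial.eval P (Q j)) =
      fun a : Fin 2 × Fin 2 => ω a.1 * (σ v t ^ m) a.2 := by
    funext a
    rw [hQv a v t hut]
    rfl
  have h2 := hC2 P
  rw [e2] at h2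
  have hP0 : 0 ≤ ht P := ht_nonneg P
  have hσm : σ v t ^ m ≠ 0 := by
    obtain ⟨c, hc⟩ := Function.ne_iff.mp (hσne v t hut)
    exact Function.ne_iff.mpr ⟨c, by rw [Pi.pow_apply]; exact pow_ne_zero m hc⟩
  rw [ht_fun_mul hωne hσm, ht_pow] at h2
  have hω0 := ht_nonneg ω
  have hσle : ht (σ v t) ≤ (C2 + k * ht P) / m := by
    rw [le_div_iff₀ hmR]
    linarith
  have e3 : (C2 + k * ht P) / m = C2 / m + (k : ℝ) / m * ht P := by
    field_simp
  rw [e3] at hσle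
  have h1' : (3 : ℝ) * ht P ≤ ht (σ v t) + ht G + C1 := by exact_mod_cast h1
  linarith

/-- **The adjunction inequality.** -/
theorem adj (hx : IsGen Qb x) (hg : 1 ≤ genus Qb F) (P0 : Place Qb F) {d : ℕ}
    (hd : 4 * (genus Qb F : ℤ) ≤ d) {t0 : F} (ht0 : P0.ord t0 = 1) {n : ℕ}
    (b : Module.Basis (Fin n) Qb (Lm P0 d)) {ε : ℝ} (hε : 0 < ε) :
    ∃ C : ℝ, ∀ (v : Place Qb F) (t : F) (hut : v.ord t = 1),
      ((2 * (genus Qb F : ℝ) - 2) / d - ε) * ht (pt (lHyp_of_isGen hx) P0 d ht0 b v) - C ≤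
        ht (wedge2 (pt (lHyp_of_isGen hx) P0 d ht0 b v)
          (dpt (lHyp_of_isGen hx) P0 d ht0 b v hut)) -
          2 * ht (pt (lHyp_of_isGen hx) P0 d ht0 b v) := by
  obtain ⟨k, m, hm, hkm, hle⟩ := exists_km (genus Qb F) d (by exact_mod_cast hd) hg hε
  obtain ⟨C, hC⟩ := adj_aux hx hg P0 hd ht0 b k m hm hkm
  refine ⟨C, fun v t hut => ?_⟩
  have h1 := hC v t hut
  have h2 : 0 ≤ ht (pt (lHyp_of_isGen hx) P0 d ht0 b v) := ht_nonneg _
  have h3 := mul_le_mul_of_nonneg_right hle h2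
  linarith

end Fermat.Agent.MW.POS.Adj4
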