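/-
Programme MW (S17), block POS (helper4): the adjunction inequality in the vocabulary of
`HadGlob9` (`lamT`, `lamD`), i.e. the hypothesis `hadj` of `Book4.book`:

  `∀ ε > 0, ∃ C, ∀ y, (2g - 2 - ε) * lamT tu P0 y - C ≤ - lamT tu y y`

from `Adj4.adj` and (C4): `|ht (pt y) - d * lamT tu P0 y| ≤ C`.
-/
import Mathlib
import Fermat.Agent.MW.POS.Adj4
import Fermat.Agent.MW.POS.HadGlob9

set_option autoImplicit false
set_option linter.unusedSectionVars false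

open AlgebraicCurve

namespace Fermat.Agent.MW.POS.AdjLam4

open Fermat.Agent.X0.FF Fermat.Agent.RR.LSpace Fermat.Agent.RR.LHypGen
open Fermat.Agent.MW.EMB.OnePoint6 Fermat.Agent.MW.EMB.Proj6
open Fermat.Agent.MW.POS.HadLoc9 Fermat.Agent.MW.POS.HadGlob9
open Fermat.Agent.MW.HT.Ht3

local notation "Qb" => Fermat.Agent.MW.HT.Place3.Qbar

variable {F : Type*} [Field F] [Algebra Qb F] {x : F} [HasCanonicalDivisor (K := Qb) (F := F)]

theorem wedge2_eq {n : ℕ} (a a' : Fin n → Qb) :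
    Fermat.Agent.MW.POS.Wronsk4.wedge2 a a' = HadLoc9.wedge2 a a' := rfl

/-- The diagonal value: `- lamD y ≥ ((2g-2)/d - ε) ht (pt y) - C`. -/
theorem neg_lamD_ge (hx : IsGen Qb x) (hg : 1 ≤ genus Qb F) (P0 : Place Qb F) {d : ℕ}
    (hd : 4 * (genus Qb F : ℤ) ≤ d) {t0 : F} (ht0 : P0.ord t0 = 1) {n : ℕ}
    (b : Module.Basis (Fin n) Qb (Lm P0 d)) {ε : ℝ} (hε : 0 < ε) :
    ∃ C : ℝ, ∀ (y : Place Qb F) (t : F) (hut : y.ord t = 1),
      ((2 * (genus Qb F : ℝ) - 2) / d - ε) * ht (pt (lHyp_of_isGen hx) P0 d ht0 b y) - C ≤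
        -lamD (lHyp_of_isGen hx) P0 d ht0 b y hut := by
  obtain ⟨C, hC⟩ := Fermat.Agent.MW.POS.Adj4.adj hx hg P0 hd ht0 b hε
  refine ⟨C, fun y t hut => ?_⟩
  have h := hC y t hut
  rw [wedge2_eq] at h
  rw [lamD]
  linarith

/-- **`hadj` of `Book4.book` for `lamT`**, given (C4). -/
theorem hadj_lamT (hx : IsGen Qb x) (hg : 1 ≤ genus Qb F) (P0 : Place Qb F) {d : ℕ}
    (hd : 4 * (genus Qb F : ℤ) ≤ d) {t0 : F} (ht0 : P0.ord t0 = 1) {n : ℕ}
    (b : Module.Basis (Fin n) Qb (Lm P0 d)) [DecidableEq (Place Qb F)] (tu : Unif F)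
    (hC4 : ∃ C : ℝ, ∀ y : Place Qb F, |ht (pt (lHyp_of_isGen hx) P0 d ht0 b y) -
      d * lamT (lHyp_of_isGen hx) P0 d ht0 b tu P0 y| ≤ C)
    (ε : ℝ) (hε : 0 < ε) :
    ∃ C : ℝ, ∀ y : Place Qb F,
      (2 * (genus Qb F : ℝ) - 2 - ε) * lamT (lHyp_of_isGen hx) P0 d ht0 b tu P0 y - C ≤
        -lamT (lHyp_of_isGen hx) P0 d ht0 b tu y y := by
  have hd0 : (0 : ℝ) < d := by
    have h1 : (1 : ℤ) ≤ genus Qb F := by exact_mod_cast hg
    have : (0 : ℤ) < d := by omega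
    exact_mod_cast this
  obtain ⟨C4, hC4⟩ := hC4
  obtain ⟨C, hC⟩ := neg_lamD_ge hx hg P0 hd ht0 b (ε := ε / d) (div_pos hε hd0)
  set a : ℝ := (2 * (genus Qb F : ℝ) - 2) / d - ε / d with ha
  refine ⟨C + |a| * C4, fun y => ?_⟩
  have h1 := hC y (tu y).1 (tu y).2
  have h2 : lamT (lHyp_of_isGen hx) P0 d ht0 b tu y y =
      lamD (lHyp_of_isGen hx) P0 d ht0 b y (tu y).2 := by
    rw [lamT, if_pos rfl]
  rw [h2]
  have h3 := abs_le.mp (hC4 y)
  set L := lamT (lHyp_of_isGen hx) P0 d ht0 b tu P0 y with hL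
  set h := ht (pt (lHyp_of_isGen hx) P0 d ht0 b y) with hh
  -- `a * h ≥ a * d * L - |a| * C4`
  have h4 : a * (d * L) - |a| * C4 ≤ a * h := by
    have h5 : |a * (h - d * L)| ≤ |a| * C4 := by
      rw [abs_mul]
      exact mul_le_mul_of_nonneg_left (abs_le.mpr ⟨by linarith [h3.1], by linarith [h3.2]⟩)
        (abs_nonneg _)
    have h6 := abs_le.mp h5
    nlinarith [h6.1]
  have h7 : a * (d * L) = (2 * (genus Qb F : ℝ) - 2 - ε) * L := by
    rw [ha]; field_simp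
  rw [h7] at h4
  linarith

end Fermat.Agent.MW.POS.AdjLam4
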