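/-
Programme MW (S17), block POS (helper4): **(C4)**, the comparison `ht (pt y) = d * lam P0 y + O(1)`,
proved directly (no Chow forms).

For the embedding of a curve over `Qbar` by `|d P0|` (`4g ≤ d`, `g ≥ 1`) and `p = pt P0`: the
coordinates of `p ∧ pt y` are the values of the sections `w_a = p_i b_j - p_j b_i ∈ L((d-1) P0)`;
their `d`-th powers are forms of degree `d - 1` in the coordinates (`Form6.exists_form`) without
common zero on the curve (`pt_indep` off `P0`, `pt_dpt_indep` at `P0`), hence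
(`Cert6.exists_certificate`, `Poly3.ht_eval_ge`, `Poly3.ht_eval_le`, `ht_pow`)

  `| d * ht (p ∧ pt y) - (d - 1) * ht (pt y) | ≤ C`   for `y ≠ P0`,

i.e. `| ht (pt y) - d * lamO P0 y | ≤ C'` and **`c4_lamT`** : `|ht (pt y) - d * lamT tu P0 y| ≤ C`
for all `y`.
-/
import Mathlib
import Fermat.Agent.MW.POS.AdjLam4

set_option autoImplicit false
set_option linter.unusedSectionVars false

open AlgebraicCurve

namespace Fermat.Agent.MW.POS.C4Lam4

open Fermat.Agent.X0.FF Fermat.Agent.RR.LSpace Fermat.Agent.RR.LHypGen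
open Fermat.Agent.MW.EMB.Value6 Fermat.Agent.MW.EMB.OnePoint6 Fermat.Agent.MW.EMB.Coord6
open Fermat.Agent.MW.EMB.Tangent6 Fermat.Agent.MW.EMB.Proj6 Fermat.Agent.MW.EMB.Form6
open Fermat.Agent.MW.EMB.Cert6
open Fermat.Agent.MW.POS.HadLoc9 Fermat.Agent.MW.POS.HadGlob9
open Fermat.Agent.MW.HT.Ht3 Fermat.Agent.MW.HT.Poly3

local notation "Qb" => Fermat.Agent.MW.HT.Place3.Qbar

variable {F : Type*} [Field F] [Algebra Qb F] {x : F} [HasCanonicalDivisor (K := Qb) (F := F)]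

section

variable (hx : IsGen Qb x) (P0 : Place Qb F) {d : ℕ} {t0 : F} (ht0 : P0.ord t0 = 1) {n : ℕ}
  (b : Module.Basis (Fin n) Qb (Lm P0 d))

/-- The coefficient vector of the linear form `x ↦ (p ∧ x)_a`. -/
noncomputable def wcoef (p : Fin n → Qb) (a : Fin n × Fin n) : Fin n → Qb :=
  fun k => (if k = a.2 then p a.1 else 0) - (if k = a.1 then p a.2 else 0)

theorem sum_wcoef (p y : Fin n → Qb) (a : Fin n × Fin n) :
    ∑ k, wcoef p a k * y k = wedge2 p y a := by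
  simp only [wcoef, sub_mul, ite_mul, zero_mul, Finset.sum_sub_distrib, Finset.sum_ite_eq',
    Finset.mem_univ, if_true, wedge2]

/-- The section `w_a = p_i b_j - p_j b_i`, `p = pt P0`. -/
noncomputable def wsec (a : Fin n × Fin n) : Lm P0 d :=
  lin P0 d b (wcoef (pt (lHyp_of_isGen hx) P0 d ht0 b P0) a)

theorem ev_wsec (y : Place Qb F) (a : Fin n × Fin n) :
    ev (lHyp_of_isGen hx) P0 d ht0 y (wsec hx P0 ht0 b a) =
      wedge2 (pt (lHyp_of_isGen hx) P0 d ht0 b P0) (pt (lHyp_of_isGen hx) P0 d ht0 b y) a := by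
  rw [wsec, ev_lin, sum_wcoef]

theorem dev_wsec (y : Place Qb F) {t : F} (hut : y.ord t = 1) (a : Fin n × Fin n) :
    dev (lHyp_of_isGen hx) P0 d ht0 y hut (wsec hx P0 ht0 b a) =
      wedge2 (pt (lHyp_of_isGen hx) P0 d ht0 b P0)
        (dpt (lHyp_of_isGen hx) P0 d ht0 b y hut) a := by
  rw [wsec, dev_lin, sum_wcoef]

theorem ev_wsec_self (a : Fin n × Fin n) :
    ev (lHyp_of_isGen hx) P0 d ht0 P0 (wsec hx P0 ht0 b a) = 0 := by
  rw [ev_wsec, wedge2]; ring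

/-- `w_a` has a pole of order `≤ d - 1` at `P0`. -/
theorem wsec_mem (hd1 : 1 ≤ d) (a : Fin n × Fin n) :
    ((wsec hx P0 ht0 b a : Lm P0 d) : F) ∈ Lm P0 (d - 1) := by
  set f := wsec hx P0 ht0 b a with hf
  rcases eq_or_ne (f : F) 0 with h0 | h0
  · rw [h0]; exact zero_mem _
  have h1 := (ev_eq_zero_iff (lHyp_of_isGen hx) P0 d ht0 P0 f).mp (ev_wsec_self hx P0 ht0 b a)
  rcases h1 with h1 | h1
  · exact absurd h1 h0
  rw [ordSec_eq P0 d ht0 P0 h0, mP_apply_self] at h1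
  have h2 := (mem_Lm_iff P0 d h0).mp f.2
  rw [mem_Lm_iff P0 (d - 1) h0]
  refine ⟨?_, h2.2⟩
  have : ((d - 1 : ℕ) : ℤ) = (d : ℤ) - 1 := by omega
  rw [this]
  omega

theorem wsec_pow_mem (hd1 : 1 ≤ d) (a : Fin n × Fin n) :
    ((wsec hx P0 ht0 b a : Lm P0 d) : F) ^ d ∈ Lm P0 ((d - 1) * d) := by
  have := pow_mem_Lm P0 (wsec_mem hx P0 ht0 b hd1 a) d
  rwa [mul_comm] at this

end

/-- **The forms**: `G a (pt y) = (p ∧ pt y)_a ^ d` off `P0`, `= (p ∧ dpt P0)_a ^ d` at `P0`. -/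
theorem exists_forms (hx : IsGen Qb x) (P0 : Place Qb F) {d : ℕ}
    (hd : 4 * (genus Qb F : ℤ) ≤ d) (hd1 : 1 ≤ d) {t0 : F} (ht0 : P0.ord t0 = 1) {n : ℕ}
    (b : Module.Basis (Fin n) Qb (Lm P0 d)) :
    ∃ G : Fin n × Fin n → MvPolynomial (Fin n) Qb, (∀ a, (G a).IsHomogeneous (d - 1)) ∧
      (∀ (y : Place Qb F), y ≠ P0 → ∀ a,
        MvPolynomial.eval (pt (lHyp_of_isGen hx) P0 d ht0 b y) (G a) =
          wedge2 (pt (lHyp_of_isGen hx) P0 d ht0 b P0)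
            (pt (lHyp_of_isGen hx) P0 d ht0 b y) a ^ d) ∧
      ∀ a, MvPolynomial.eval (pt (lHyp_of_isGen hx) P0 d ht0 b P0) (G a) =
          wedge2 (pt (lHyp_of_isGen hx) P0 d ht0 b P0)
            (dpt (lHyp_of_isGen hx) P0 d ht0 b P0 ht0) a ^ d := by
  have hex : ∀ a : Fin n × Fin n, ∃ p : MvPolynomial (Fin n) Qb, p.IsHomogeneous (d - 1) ∧
      formFn P0 d b p = ((wsec hx P0 ht0 b a : Lm P0 d) : F) ^ d :=
    fun a => exists_form hx P0 hd b (wsec_pow_mem hx P0 ht0 b hd1 a)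
  choose G hG hGf using hex
  have ht00 : t0 ≠ 0 := by rintro rfl; simp at ht0
  refine ⟨G, hG, fun y hy a => ?_, fun a => ?_⟩
  · rw [eval_pt (lHyp_of_isGen hx) P0 d ht0 b (hG a) y, ev_apply]
    show valF (lHyp_of_isGen hx) y (triv P0 ((d - 1) * d) t0 y * formFn P0 d b (G a)) = _
    rw [hGf a, triv_of_ne P0 _ t0 hy, one_mul,
      valF_pow _ y (mem_valuationSubring_of_mem_Lm P0 (wsec hx P0 ht0 b a).2 hy),
      ← ev_wsec hx P0 ht0 b y a, ev_apply, triv_of_ne P0 _ t0 hy, one_mul]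
  · rw [eval_pt (lHyp_of_isGen hx) P0 d ht0 b (hG a) P0, ev_apply]
    show valF (lHyp_of_isGen hx) P0 (triv P0 ((d - 1) * d) t0 P0 * formFn P0 d b (G a)) = _
    have hmem : triv P0 d t0 P0 * ((wsec hx P0 ht0 b a : Lm P0 d) : F) / t0 ∈
        P0.toValuationSubring := by
      have := quot1_mem (lHyp_of_isGen hx) P0 d ht0 P0 ht0 (wsec hx P0 ht0 b a)
      rwa [quot1, ev_wsec_self, map_zero, sub_zero] at this
    have e : triv P0 ((d - 1) * d) t0 P0 * ((wsec hx P0 ht0 b a : Lm P0 d) : F) ^ d =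
        (triv P0 d t0 P0 * ((wsec hx P0 ht0 b a : Lm P0 d) : F) / t0) ^ d := by
      rw [triv_self, triv_self, div_pow, mul_pow, ← pow_mul]
      have : t0 ^ (d * d) = t0 ^ ((d - 1) * d) * t0 ^ d := by
        rw [← pow_add]; congr 1
        obtain ⟨k, rfl⟩ := Nat.exists_eq_add_of_le hd1
        simp only [Nat.add_sub_cancel_left]; ring
      rw [this]
      field_simp
    rw [hGf a, e, valF_pow _ P0 hmem,
      ← dev_eq_valF_div (lHyp_of_isGen hx) P0 d ht0 P0 ht0 (wsec hx P0 ht0 b a)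
        (ev_wsec_self hx P0 ht0 b a), dev_wsec]

/-- **`d * ht (p ∧ pt y) = (d - 1) * ht (pt y) + O(1)`** for `y ≠ P0`. -/
theorem abs_ht_wedge_sub_le (hx : IsGen Qb x) (hg : 1 ≤ genus Qb F) (P0 : Place Qb F) {d : ℕ}
    (hd : 4 * (genus Qb F : ℤ) ≤ d) {t0 : F} (ht0 : P0.ord t0 = 1) {n : ℕ}
    (b : Module.Basis (Fin n) Qb (Lm P0 d)) :
    ∃ C : ℝ, ∀ y : Place Qb F, y ≠ P0 →
      |(d : ℝ) * ht (wedge2 (pt (lHyp_of_isGen hx) P0 d ht0 b P0)
          (pt (lHyp_of_isGen hx) P0 d ht0 b y)) -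
        ((d : ℝ) - 1) * ht (pt (lHyp_of_isGen hx) P0 d ht0 b y)| ≤ C := by
  classical
  have hg' : (1 : ℤ) ≤ genus Qb F := by exact_mod_cast hg
  have hd1 : 1 ≤ d := by omega
  obtain ⟨G, hG, hGy, hG0⟩ := exists_forms hx P0 hd hd1 ht0 b
  have hnz : ∀ v : Place Qb F, ∃ a,
      MvPolynomial.eval (pt (lHyp_of_isGen hx) P0 d ht0 b v) (G a) ≠ 0 := by
    intro v
    by_cases hv : v = P0
    · subst hv
      have h1 := Fermat.Agent.MW.POS.Wronsk4.wedge2_ne_zero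
        (pt_dpt_indep hx v ht0 b (by omega) v ht0)
      obtain ⟨a, ha⟩ := Function.ne_iff.mp h1
      exact ⟨a, by rw [hG0 a]; exact pow_ne_zero d ha⟩
    · have h1 := Fermat.Agent.MW.POS.Wronsk4.wedge2_ne_zero
        (pt_indep hx P0 ht0 b (by omega) (Ne.symm hv))
      obtain ⟨a, ha⟩ := Function.ne_iff.mp h1
      exact ⟨a, by rw [hGy v hv a]; exact pow_ne_zero d ha⟩
  obtain ⟨M, q, hq, hid⟩ := exists_certificate hx P0 ht0 hd b G hG hnz
  obtain ⟨C1, hC1⟩ := ht_eval_ge (d - 1) q hq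
  obtain ⟨C2, hC2⟩ := ht_eval_le G hG
  refine ⟨max C1 C2, fun y hy => ?_⟩
  set P := pt (lHyp_of_isGen hx) P0 d ht0 b y with hP
  set Wd := wedge2 (pt (lHyp_of_isGen hx) P0 d ht0 b P0) P with hW
  have e1 : (fun a => MvPolynomial.eval P (G a)) = Wd ^ d := by
    funext a
    rw [Pi.pow_apply]
    exact hGy y hy a
  have h1 := hC1 G P (hid y)
  have h2 := hC2 P
  rw [e1, ht_pow] at h1 h2
  have hc : ((d - 1 : ℕ) : ℝ) = (d : ℝ) - 1 := by
    rw [Nat.cast_sub hd1, Nat.cast_one]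
  rw [hc] at h1 h2
  rw [abs_le]
  have := le_max_left C1 C2
  have := le_max_right C1 C2
  constructor <;> linarith

/-- **(C4)** for `lamO`: `|ht (pt y) - d * lamO P0 y| ≤ C` for `y ≠ P0`. -/
theorem c4_lamO (hx : IsGen Qb x) (hg : 1 ≤ genus Qb F) (P0 : Place Qb F) {d : ℕ}
    (hd : 4 * (genus Qb F : ℤ) ≤ d) {t0 : F} (ht0 : P0.ord t0 = 1) {n : ℕ}
    (b : Module.Basis (Fin n) Qb (Lm P0 d)) :
    ∃ C : ℝ, ∀ y : Place Qb F, y ≠ P0 →
      |ht (pt (lHyp_of_isGen hx) P0 d ht0 b y) -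
        d * lamO (lHyp_of_isGen hx) P0 d ht0 b P0 y| ≤ C := by
  obtain ⟨C, hC⟩ := abs_ht_wedge_sub_le hx hg P0 hd ht0 b
  refine ⟨C + d * ht (pt (lHyp_of_isGen hx) P0 d ht0 b P0), fun y hy => ?_⟩
  have h1 := abs_le.mp (hC y hy)
  have h2 : 0 ≤ (d : ℝ) * ht (pt (lHyp_of_isGen hx) P0 d ht0 b P0) :=
    mul_nonneg (Nat.cast_nonneg _) (ht_nonneg _)
  rw [lamO, abs_le]
  constructor <;> nlinarith [h1.1, h1.2]

/-- **(C4)** for `lamT`, all `y`. -/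
theorem c4_lamT (hx : IsGen Qb x) (hg : 1 ≤ genus Qb F) (P0 : Place Qb F) {d : ℕ}
    (hd : 4 * (genus Qb F : ℤ) ≤ d) {t0 : F} (ht0 : P0.ord t0 = 1) {n : ℕ}
    (b : Module.Basis (Fin n) Qb (Lm P0 d)) [DecidableEq (Place Qb F)] (tu : Unif F) :
    ∃ C : ℝ, ∀ y : Place Qb F,
      |ht (pt (lHyp_of_isGen hx) P0 d ht0 b y) -
        d * lamT (lHyp_of_isGen hx) P0 d ht0 b tu P0 y| ≤ C := by
  obtain ⟨C, hC⟩ := c4_lamO hx hg P0 hd ht0 b
  refine ⟨max C |ht (pt (lHyp_of_isGen hx) P0 d ht0 b P0) -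
    d * lamT (lHyp_of_isGen hx) P0 d ht0 b tu P0 P0|, fun y => ?_⟩
  by_cases hy : y = P0
  · subst hy
    exact le_max_right _ _
  · have : lamT (lHyp_of_isGen hx) P0 d ht0 b tu P0 y =
        lamO (lHyp_of_isGen hx) P0 d ht0 b P0 y := by
      rw [lamT, if_neg (Ne.symm hy)]
    rw [this]
    exact (hC y hy).trans (le_max_left _ _)

/-- **`hadj` for `lamT`, unconditionally.** -/
theorem hadj (hx : IsGen Qb x) (hg : 1 ≤ genus Qb F) (P0 : Place Qb F) {d : ℕ}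
    (hd : 4 * (genus Qb F : ℤ) ≤ d) {t0 : F} (ht0 : P0.ord t0 = 1) {n : ℕ}
    (b : Module.Basis (Fin n) Qb (Lm P0 d)) [DecidableEq (Place Qb F)] (tu : Unif F)
    (ε : ℝ) (hε : 0 < ε) :
    ∃ C : ℝ, ∀ y : Place Qb F,
      (2 * (genus Qb F : ℝ) - 2 - ε) * lamT (lHyp_of_isGen hx) P0 d ht0 b tu P0 y - C ≤
        -lamT (lHyp_of_isGen hx) P0 d ht0 b tu y y :=
  Fermat.Agent.MW.POS.AdjLam4.hadj_lamT hx hg P0 hd ht0 b tu (c4_lamT hx hg P0 hd ht0 b tu) ε hε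

end Fermat.Agent.MW.POS.C4Lam4
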