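/-
Programme MW (S17), block POS, brick (book) (helper4): **the bookkeeping lemma** turning
(Had) + (adj) + (C4) + (cmp) into the positivity statement `hpos` of `NorthGlue0`.

Setting of `Bpf4` (`RR/RRMain`; `lam` symmetric, `OffDiag lam C0`, every principal divisor `Decomp`).
For an effective divisor `E0` of degree `r ≤ g`, with `S0 = Σ_z E0(z) lam(P0,z)`:

  `q (E0 - r P0) = 2 r S0 - <E0,E0> - r² lam(P0,P0)`,
  (Had)  `<E0,E0> - Σ E0(z) lam(z,z) ≤ 2 Σ E0(z) hc(z) - 2 <Fa,E0> + CH`,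
  (adj)  `- lam(z,z) ≥ (2g - 2 - ε) lam(P0,z) - C`,
  (C4)   `|hc(z) - d lam(P0,z)| ≤ C`,
  (cmp)  `ev lam Fa z ≥ (deg Fa - ε) lam(P0,z) - C`   (`Bpf4.abs_ev_sub_le`), `deg Fa = d + 2 - g - r`,

so `q (E0 - r P0) ≥ (2 - 3ε) S0 - C = S0 - C ≥ (1/d) Σ E0(z) hc(z) - C'` for `ε = 1/3`
(coefficient count `2r + (2g-2) - 2d + 2(d+2-g-r) = 2`).
-/
import Mathlib
import Fermat.Agent.MW.PAIR.Bpf4

set_option autoImplicit false
set_option linter.unusedSectionVars false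

open AlgebraicCurve

namespace Fermat.Agent.MW.POS.Book4

open Fermat.Agent.X0.FF Fermat.Agent.RR.LSpace Fermat.Agent.RR.LHypGen Fermat.Agent.RR.RRMain
open Fermat.Agent.MW.PAIR.Pairing4 Fermat.Agent.MW.PAIR.PicInst4 Fermat.Agent.MW.PAIR.Compare4
open Fermat.Agent.MW.PAIR.Bpf4

/-! ### Weighted sums over a divisor -/

section WSum

variable {Pt : Type*}

/-- `wsum E φ = Σ_z E(z) φ(z)`. -/
noncomputable def wsum (E : Pt →₀ ℤ) (φ : Pt → ℝ) : ℝ := E.sum fun z m => (m : ℝ) * φ z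

theorem ev_eq_wsum (lam : Pt → Pt → ℝ) (E : Pt →₀ ℤ) (y : Pt) :
    ev lam E y = wsum E fun z => lam z y := ev_eq_sum lam E y

theorem pair_eq_wsum (lam : Pt → Pt → ℝ) (a b : Pt →₀ ℤ) :
    pair lam a b = wsum b (ev lam a) := pair_eq_sum lam a b

/-- Summing a pointwise affine inequality over an effective divisor. -/
theorem wsum_affine_le {E : Pt →₀ ℤ} (hE : 0 ≤ E) {φ ψ : Pt → ℝ} {a c : ℝ}
    (h : ∀ z, a * φ z - c ≤ ψ z) : a * wsum E φ - (cdeg E : ℝ) * c ≤ wsum E ψ := by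
  rw [wsum, wsum, cdeg_apply, Finsupp.sum, Finsupp.sum, Finsupp.sum, Int.cast_sum, Finset.mul_sum,
    Finset.sum_mul, ← Finset.sum_sub_distrib]
  refine Finset.sum_le_sum fun z _ => ?_
  have h1 : (0 : ℝ) ≤ (E z : ℝ) := by exact_mod_cast hE z
  have h2 := h z
  nlinarith

end WSum

variable {K F : Type*} [Field K] [Field F] [Algebra K F] [IsAlgClosed K] [CharZero K] {x : F}
  [HasCanonicalDivisor (K := K) (F := F)]

variable {lam : Place K F → Place K F → ℝ}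

/-- **The bookkeeping lemma.** -/
theorem book (hx : IsGen K x) {C0 : ℝ} (h0 : OffDiag lam C0)
    (hdec : ∀ u ∈ Divisor.principal (K := K) (F := F), Decomp lam u)
    (hsymm : ∀ y z, lam y z = lam z y) (P0 : Place K F) {d : ℕ} (hd : 0 < d)
    (hc : Place K F → ℝ) (hC4 : ∃ C : ℝ, ∀ y, |hc y - d * lam P0 y| ≤ C)
    (hadj : ∀ ε : ℝ, 0 < ε → ∃ C : ℝ, ∀ y,
      (2 * (genus K F : ℝ) - 2 - ε) * lam P0 y - C ≤ -lam y y)
    (FF : Finset (Divisor K F)) (CH : ℝ) :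
    ∃ C : ℝ, ∀ E0 : Divisor K F, 0 ≤ E0 → Divisor.degree E0 ≤ genus K F →
      (∃ Fa ∈ FF, Divisor.degree Fa + genus K F + Divisor.degree E0 = d + 2 ∧
        pair lam E0 E0 - wsum E0 (fun z => lam z z) ≤
          2 * wsum E0 hc - 2 * pair lam Fa E0 + CH) →
      (1 / (d : ℝ)) * wsum E0 hc - C ≤
        q lam (E0 - Finsupp.single P0 (Divisor.degree E0)) := by
  classical
  have H := lHyp_of_isGen hx
  have hdR : (0 : ℝ) < d := by exact_mod_cast hd
  obtain ⟨C4, hC4⟩ := hC4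
  obtain ⟨Cadj, hCadj⟩ := hadj (1 / 3) (by norm_num)
  -- uniform (cmp) constant over the finite family
  have hcmp : ∀ Fa : Divisor K F, ∃ C : ℝ, ∀ y,
      |ev lam Fa y - (Divisor.degree Fa : ℝ) * lam P0 y| ≤ (1 / 3) * lam P0 y + C :=
    fun Fa => abs_ev_sub_le hx h0 hdec P0 Fa (by norm_num)
  choose Cf hCf using hcmp
  obtain ⟨CF, hCF⟩ := (FF.image Cf).exists_le
  have hCF' : ∀ Fa ∈ FF, Cf Fa ≤ CF := fun Fa hFa => hCF _ (Finset.mem_image_of_mem _ hFa)
  set g : ℝ := (genus K F : ℝ) with hg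
  have hg0 : 0 ≤ g := Nat.cast_nonneg _
  refine ⟨g * |C4| / d + g * |Cadj| + 2 * g * |C4| + 2 * g * |CF| + |CH| +
    g ^ 2 * |lam P0 P0|, fun E0 hE0 hr hHad => ?_⟩
  obtain ⟨Fa, hFa, hdeg, hHad⟩ := hHad
  set r : ℝ := (Divisor.degree E0 : ℝ) with hrdef
  have hr0 : 0 ≤ r := by
    have := degree_nonneg H hE0
    rw [hrdef]; exact_mod_cast this
  have hrg : r ≤ g := by rw [hrdef, hg]; exact_mod_cast hr
  have hcd : (cdeg E0 : ℝ) = r := by rw [cdeg_eq_degree H.deg_eq_one]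
  set S0 : ℝ := wsum E0 fun z => lam P0 z with hS0
  have hS0' : ev lam E0 P0 = S0 := by
    rw [ev_eq_wsum, hS0]
    congr 1
    funext z
    exact hsymm z P0
  -- (adj)
  have i1 : (2 * g - 2 - 1 / 3) * S0 - r * Cadj ≤ wsum E0 fun z => -lam z z := by
    have := wsum_affine_le hE0 (φ := fun z => lam P0 z) (ψ := fun z => -lam z z)
      (a := 2 * g - 2 - 1 / 3) (c := Cadj) hCadj
    rwa [hcd] at this
  have i1' : wsum E0 (fun z => -lam z z) = -wsum E0 fun z => lam z z := by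
    rw [wsum, wsum, Finsupp.sum, Finsupp.sum, ← Finset.sum_neg_distrib]
    exact Finset.sum_congr rfl fun z _ => by ring
  -- (C4), both directions
  have i2 : (d : ℝ) * S0 - r * C4 ≤ wsum E0 hc := by
    have := wsum_affine_le hE0 (φ := fun z => lam P0 z) (ψ := hc) (a := (d : ℝ)) (c := C4)
      (fun z => by have := abs_le.mp (hC4 z); linarith [this.1])
    rwa [hcd] at this
  have i3 : wsum E0 hc ≤ (d : ℝ) * S0 + r * C4 := by
    have := wsum_affine_le hE0 (φ := hc) (ψ := fun z => (d : ℝ) * lam P0 z) (a := 1) (c := C4)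
      (fun z => by have := abs_le.mp (hC4 z); linarith [this.2])
    rw [hcd] at this
    have e : wsum E0 (fun z => (d : ℝ) * lam P0 z) = (d : ℝ) * S0 := by
      rw [hS0, wsum, wsum, Finsupp.sum, Finsupp.sum, Finset.mul_sum]
      exact Finset.sum_congr rfl fun z _ => by ring
    rw [e] at this
    linarith
  -- (cmp)
  have i4 : ((Divisor.degree Fa : ℝ) - 1 / 3) * S0 - r * CF ≤ pair lam Fa E0 := by
    rw [pair_eq_wsum]
    have := wsum_affine_le hE0 (φ := fun z => lam P0 z) (ψ := ev lam Fa)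
      (a := (Divisor.degree Fa : ℝ) - 1 / 3) (c := CF)
      (fun z => by
        have h1 := abs_le.mp (hCf Fa z)
        have h2 := hCF' Fa hFa
        linarith [h1.1])
    rwa [hcd] at this
  have hdegR : (Divisor.degree Fa : ℝ) = d + 2 - g - r := by
    have : ((Divisor.degree Fa + genus K F + Divisor.degree E0 : ℤ) : ℝ) = ((d + 2 : ℤ) : ℝ) := by
      rw [hdeg]
    push_cast at this
    rw [hrdef, hg]
    linarith
  -- the value of `q`
  rw [q_sub_nsmul_single hsymm, hS0']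
  rw [i1'] at i1
  -- constants
  have c1 : r * Cadj ≤ g * |Cadj| :=
    (mul_le_mul_of_nonneg_left (le_abs_self _) hr0).trans
      (mul_le_mul_of_nonneg_right hrg (abs_nonneg _))
  have c2 : r * C4 ≤ g * |C4| :=
    (mul_le_mul_of_nonneg_left (le_abs_self _) hr0).trans
      (mul_le_mul_of_nonneg_right hrg (abs_nonneg _))
  have c3 : r * CF ≤ g * |CF| :=
    (mul_le_mul_of_nonneg_left (le_abs_self _) hr0).trans
      (mul_le_mul_of_nonneg_right hrg (abs_nonneg _))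
  have c4 : r ^ 2 * lam P0 P0 ≤ g ^ 2 * |lam P0 P0| :=
    (mul_le_mul_of_nonneg_left (le_abs_self _) (sq_nonneg r)).trans
      (mul_le_mul_of_nonneg_right (pow_le_pow_left₀ hr0 hrg 2) (abs_nonneg _))
  have c5 : CH ≤ |CH| := le_abs_self _
  have c6 : (1 / (d : ℝ)) * wsum E0 hc ≤ S0 + g * |C4| / d := by
    have h1 : (1 / (d : ℝ)) * wsum E0 hc ≤ (1 / (d : ℝ)) * ((d : ℝ) * S0 + r * C4) :=
      mul_le_mul_of_nonneg_left i3 (by positivity)
    have h2 : (1 / (d : ℝ)) * ((d : ℝ) * S0 + r * C4) = S0 + r * C4 / d := by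
      field_simp
    have h3 : r * C4 / d ≤ g * |C4| / d := div_le_div_of_nonneg_right c2 hdR.le
    linarith
  have hr2 : ((Divisor.degree E0 : ℤ) : ℝ) ^ 2 = r ^ 2 := by rw [hrdef]
  rw [hr2]
  have hrr : (2 * ((Divisor.degree E0 : ℤ) : ℝ)) = 2 * r := by rw [hrdef]
  rw [hrr]
  rw [hdegR] at i4
  linarith [i1, i2, i4, hHad, c1, c2, c3, c4, c5, c6]

end Fermat.Agent.MW.POS.Book4
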