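/-
PROGRAMME MW (S17), block POS (helper1, bricks (M1)–(M3) requested by helper9 for `HadInst9`).

Setting of `PAIR/Bpf4` / `RR/RRMain`: `K` algebraically closed of characteristic zero, `F / K` with
`hx : IsGen K x`, `[HasCanonicalDivisor]`, `H := lHyp_of_isGen hx`, `g = genus K F`.

* (M1) `exists_member_avoiding hx D (hD : 2g ≤ deg D) T` : a nonzero `f ∈ L(D)` whose effective
  divisor `D + div f` avoids the finite set `T` of places;
* (M2) `exists_disjoint_family hx D hD M` : `M` nonzero members of `L(D)` whose effective divisors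
  `D + div (f m)` have pairwise disjoint supports; `exists_member_disjoint_of_card_lt` : hence for
  every finite `T` with `T.card < M` one of them avoids `T`;
* (M3) `exists_seq_of_nonneg` : every effective `E : Pt →₀ ℤ` is `Pairing4.eff univ R` for a
  sequence `R : Fin r → Pt` (with repetitions), `r = (cdeg E).toNat`; `exists_seq_eq` (any `r`
  with `cdeg E = r`).
-/
import Mathlib
import Fermat.Agent.MW.PAIR.Bpf4

set_option autoImplicit false
set_option linter.unusedSectionVars false

open AlgebraicCurve

namespace Fermat.Agent.MW.POS.Members1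

open Fermat.Agent.X0.FF Fermat.Agent.RR.LSpace Fermat.Agent.RR.LHypGen Fermat.Agent.RR.RRMain
open Fermat.Agent.MW.PAIR.Pairing4 Fermat.Agent.MW.PAIR.Bpf4

/-! ### (M3) sequences from effective divisors -/

section Seq

variable {Pt : Type*}

theorem eq_zero_of_nonneg_of_cdeg_eq_zero {E : Pt →₀ ℤ} (hE : 0 ≤ E) (h0 : cdeg E = 0) :
    E = 0 := by
  classical
  rw [cdeg_apply, Finsupp.sum] at h0
  have h1 := (Finset.sum_eq_zero_iff_of_nonneg (fun z _ => by simpa using hE z)).mp h0
  ext z
  by_cases hz : z ∈ E.support
  · simpa using h1 z hz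
  · simpa using Finsupp.notMem_support_iff.mp hz

theorem eff_univ_cons {n : ℕ} (z : Pt) (R : Fin n → Pt) :
    eff Finset.univ (Fin.cons z R : Fin (n + 1) → Pt) =
      Finsupp.single z 1 + eff Finset.univ R := by
  rw [eff, eff, Fin.sum_univ_succ]
  simp only [Fin.cons_zero, Fin.cons_succ]

/-- Every effective divisor of degree `n` is the divisor of a sequence of `n` points. -/
theorem exists_seq_eq (n : ℕ) : ∀ E : Pt →₀ ℤ, 0 ≤ E → cdeg E = n →
    ∃ R : Fin n → Pt, eff Finset.univ R = E := by
  classical
  induction n with
  | zero =>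
    intro E hE h0
    refine ⟨Fin.elim0, ?_⟩
    rw [eq_zero_of_nonneg_of_cdeg_eq_zero hE (by simpa using h0)]
    simp [eff]
  | succ n ih =>
    intro E hE hn
    have hne : E ≠ 0 := by
      rintro rfl
      rw [map_zero] at hn
      have : (0 : ℤ) = ((n + 1 : ℕ) : ℤ) := hn
      omega
    obtain ⟨z, hz⟩ := Finsupp.support_nonempty_iff.mpr hne
    have hz1 : 1 ≤ E z := by
      have h1 : E z ≠ 0 := Finsupp.mem_support_iff.mp hz
      have h2 : 0 ≤ E z := by simpa using hE z
      omega
    set E' : Pt →₀ ℤ := E - Finsupp.single z 1 with hE'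
    have hE'nn : 0 ≤ E' := by
      intro w
      simp only [Finsupp.coe_zero, Pi.zero_apply, hE', Finsupp.sub_apply]
      by_cases hw : w = z
      · subst hw; rw [Finsupp.single_eq_same]; omega
      · rw [Finsupp.single_eq_of_ne hw]
        have : 0 ≤ E w := by simpa using hE w
        omega
    have hcd : cdeg E' = n := by
      rw [hE', map_sub, cdeg_single, hn]
      push_cast; ring
    obtain ⟨R', hR'⟩ := ih E' hE'nn hcd
    refine ⟨Fin.cons z R', ?_⟩
    rw [eff_univ_cons, hR', hE']
    abel

/-- (M3) Every effective divisor is the divisor of a sequence of points (with repetitions). -/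
theorem exists_seq_of_nonneg (E : Pt →₀ ℤ) (hE : 0 ≤ E) :
    ∃ (r : ℕ) (R : Fin r → Pt), eff Finset.univ R = E ∧ (r : ℤ) = cdeg E := by
  have hnn : 0 ≤ cdeg E := by
    rw [cdeg_apply, Finsupp.sum]
    exact Finset.sum_nonneg fun z _ => by simpa using hE z
  obtain ⟨R, hR⟩ := exists_seq_eq (cdeg E).toNat E hE (Int.toNat_of_nonneg hnn).symm
  exact ⟨(cdeg E).toNat, R, hR, Int.toNat_of_nonneg hnn⟩

end Seq

/-! ### (M1), (M2) members of a linear system avoiding finitely many points -/

variable {K F : Type*} [Field K] [Field F] [Algebra K F] [IsAlgClosed K] [CharZero K] {x : F}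
  [HasCanonicalDivisor (K := K) (F := F)]

/-- (M1) **A member of `|D|` avoiding a finite set**, `deg D ≥ 2g`. -/
theorem exists_member_avoiding (hx : IsGen K x) (D : Divisor K F)
    (hD : 2 * (genus K F : ℤ) ≤ Divisor.degree D) (T : Finset (Place K F)) :
    ∃ (f : F) (hf : f ≠ 0), f ∈ riemannRochSpace D ∧
      ∀ v ∈ T, (D + divOf (lHyp_of_isGen hx) hf) v = 0 := by
  classical
  have H := lHyp_of_isGen hx
  have : FiniteDimensional K (riemannRochSpace D) := finiteDimensional_L hx D
  have hfr := finrank_L_of_degree_gt hx D (by omega)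
  have hpos : 0 < Module.finrank K (riemannRochSpace D) := by
    have : (0 : ℤ) < Module.finrank K (riemannRochSpace D) := by rw [hfr]; omega
    exact_mod_cast this
  -- the proper subspaces `L(D - v)`, `v ∈ T`
  set s : Finset (Subspace K (riemannRochSpace D)) :=
    T.image fun v =>
      Submodule.comap (riemannRochSpace D).subtype (riemannRochSpace (D - Finsupp.single v 1))
    with hs
  have htop : ⊤ ∉ s := by
    intro h
    obtain ⟨v, -, hv⟩ := Finset.mem_image.mp h
    have hle : riemannRochSpace D ≤ riemannRochSpace (D - Finsupp.single v 1) := by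
      intro f hf
      have : (⟨f, hf⟩ : riemannRochSpace D) ∈ (⊤ : Subspace K (riemannRochSpace D)) := trivial
      rw [← hv] at this
      exact this
    have : FiniteDimensional K (riemannRochSpace (D - Finsupp.single v 1)) :=
      finiteDimensional_L hx _
    have h2 := finrank_L_of_degree_gt hx (D - Finsupp.single v 1) (by
      rw [map_sub, degree_single H]; omega)
    rw [map_sub, degree_single H] at h2
    have h3 := Submodule.finrank_mono hle
    have : (Module.finrank K (riemannRochSpace D) : ℤ) ≤
        Module.finrank K (riemannRochSpace (D - Finsupp.single v 1)) := by exact_mod_cast h3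
    omega
  obtain ⟨f2, hf2⟩ := (Set.ne_univ_iff_exists_notMem _).mp
    (Subspace.biUnion_ne_univ_of_top_notMem htop)
  by_cases hf20 : (f2 : F) = 0
  · -- then `T = ∅`; take any nonzero member
    have hemp : T = ∅ := by
      by_contra hne
      obtain ⟨v, hv⟩ := Finset.nonempty_iff_ne_empty.mpr hne
      apply hf2
      refine Set.mem_biUnion (Finset.mem_image_of_mem _ hv) ?_
      show (f2 : F) ∈ riemannRochSpace (D - Finsupp.single v 1)
      rw [hf20]
      exact Submodule.zero_mem _
    obtain ⟨f1, hf1⟩ := Module.finrank_pos_iff_exists_ne_zero.mp hpos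
    have hf1' : (f1 : F) ≠ 0 := fun h => hf1 (Subtype.ext h)
    refine ⟨f1, hf1', f1.2, ?_⟩
    rw [hemp]
    intro v hv
    simp at hv
  · refine ⟨f2, hf20, f2.2, fun v hv => ?_⟩
    by_contra hne
    apply hf2
    refine Set.mem_biUnion (Finset.mem_image_of_mem _ hv) ?_
    show (f2 : F) ∈ riemannRochSpace (D - Finsupp.single v 1)
    rw [mem_L_sub_single_iff H hf20 f2.2 v]
    exact hne

/-- (M2) **`M` members of `|D|` with pairwise disjoint supports**, `deg D ≥ 2g`. -/
theorem exists_disjoint_family (hx : IsGen K x) (D : Divisor K F)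
    (hD : 2 * (genus K F : ℤ) ≤ Divisor.degree D) (M : ℕ) :
    ∃ (f : Fin M → F) (hf : ∀ m, f m ≠ 0), (∀ m, f m ∈ riemannRochSpace D) ∧
      ∀ m m', m ≠ m' →
        Disjoint (D + divOf (lHyp_of_isGen hx) (hf m)).support
          (D + divOf (lHyp_of_isGen hx) (hf m')).support := by
  classical
  induction M with
  | zero => exact ⟨Fin.elim0, fun m => m.elim0, fun m => m.elim0, fun m => m.elim0⟩
  | succ M ih =>
    obtain ⟨f, hf, hfD, hdisj⟩ := ih
    set T : Finset (Place K F) :=
      Finset.univ.biUnion fun m => (D + divOf (lHyp_of_isGen hx) (hf m)).support with hT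
    obtain ⟨f0, hf0, hf0D, hav⟩ := exists_member_avoiding hx D hD T
    have hav' : ∀ m, Disjoint (D + divOf (lHyp_of_isGen hx) hf0).support
        (D + divOf (lHyp_of_isGen hx) (hf m)).support := by
      intro m
      rw [Finset.disjoint_left]
      intro v hv hv'
      have hvT : v ∈ T := Finset.mem_biUnion.mpr ⟨m, Finset.mem_univ m, hv'⟩
      exact (Finsupp.mem_support_iff.mp hv) (hav v hvT)
    refine ⟨Fin.cons f0 f, fun m => ?_, fun m => ?_, fun m m' hmm' => ?_⟩
    · refine Fin.cases ?_ (fun k => ?_) m
      · simpa using hf0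
      · simpa using hf k
    · refine Fin.cases ?_ (fun k => ?_) m
      · simpa using hf0D
      · simpa using hfD k
    · revert hmm'
      refine Fin.cases ?_ (fun k => ?_) m
      · refine Fin.cases ?_ (fun k' => ?_) m'
        · intro h; exact absurd rfl h
        · intro _
          simpa using hav' k'
      · refine Fin.cases ?_ (fun k' => ?_) m'
        · intro _
          simpa using (hav' k).symm
        · intro h
          have hkk' : k ≠ k' := fun e => h (by rw [e])
          simpa using hdisj k k' hkk'

/-- Pigeonhole: among `M` pairwise disjoint finite sets, one avoids a given set with fewer than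
`M` elements. -/
theorem exists_disjoint_of_card_lt {α : Type*} [DecidableEq α] {M : ℕ} (S : Fin M → Finset α)
    (hS : ∀ m m', m ≠ m' → Disjoint (S m) (S m')) (T : Finset α) (hT : T.card < M) :
    ∃ m, Disjoint (S m) T := by
  by_contra hcon
  push Not at hcon
  have hex : ∀ m, ∃ a, a ∈ S m ∧ a ∈ T := by
    intro m
    have := hcon m
    rw [Finset.not_disjoint_iff] at this
    exact this
  choose a haS haT using hex
  have hinj : Function.Injective a := by
    intro m m' h
    by_contra hne
    have := Finset.disjoint_left.mp (hS m m' hne) (haS m)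
    rw [h] at this
    exact this (haS m')
  have hcard : Fintype.card (Fin M) ≤ T.card := by
    have : Finset.univ.image a ⊆ T := by
      intro y hy
      obtain ⟨m, -, rfl⟩ := Finset.mem_image.mp hy
      exact haT m
    calc Fintype.card (Fin M) = (Finset.univ.image a).card := by
          rw [Finset.card_image_of_injective _ hinj, Finset.card_univ]
      _ ≤ T.card := Finset.card_le_card this
  rw [Fintype.card_fin] at hcard
  omega

/-- (M2') for every `T` with fewer than `M` elements one member of a disjoint family of `M`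
members of `|D|` avoids `T`. -/
theorem exists_member_disjoint_of_card_lt (hx : IsGen K x) (D : Divisor K F) {M : ℕ}
    (f : Fin M → F) (hf : ∀ m, f m ≠ 0)
    (hdisj : ∀ m m', m ≠ m' →
      Disjoint (D + divOf (lHyp_of_isGen hx) (hf m)).support
        (D + divOf (lHyp_of_isGen hx) (hf m')).support)
    (T : Finset (Place K F)) (hT : T.card < M) :
    ∃ m, ∀ v ∈ T, (D + divOf (lHyp_of_isGen hx) (hf m)) v = 0 := by
  classical
  obtain ⟨m, hm⟩ := exists_disjoint_of_card_lt
    (fun m => (D + divOf (lHyp_of_isGen hx) (hf m)).support) hdisj T hT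
  refine ⟨m, fun v hv => ?_⟩
  by_contra hne
  exact Finset.disjoint_left.mp hm (Finsupp.mem_support_iff.mpr hne) hv

end Fermat.Agent.MW.POS.Members1
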