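/-
PROGRAMME MW (S17), block POS (helper9).  `HadInst9`: instantiation of the global confluent Hadamard
inequality `HadGlob9.had_global` on a linear system, up to the hypothesis of `Book4.book`.

* Part 1 (`Core`): for a divisor `G` with a basis `e` of `L(G)` (`r` elements), a section `s` with
  `div s + d·P0 = G + Z` (`Z ≥ 0`), the forms `ω i = coordinates of s * e i`;
  a sequence `R : Fin r → Place` with `L(G - Σ_a R a) = 0`, avoiding `Z`, has a nonvanishing
  confluent determinant (`confMat_det_ne_zero`), every nonzero combination of the `ω i` vanishes on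
  `Z` (`le_hyp_forms`), hence (`had_core`) the inequality of `had_global` with `zF` an enumeration
  of `Z`.
* Part 2 (`Convert`): `sum_eff`, `sum_sum_symm`, `pair_eff_self`.
* Part 3 (`PairForm`): `lamT_symm`, `had_core_pair` (pairing form).
* Part 4 (`DivForm`): `had_div` (divisors instead of sequences), `had_div_exists`.
* Part 5 (`Geom`): `embPos_of_isGen` (the hypotheses `EmbPos` from `Proj6`), and
  **`had_inst`**: a FINITE list `FF` of effective divisors and ONE constant `CH` such that every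
  `E0 ≥ 0` with `l(E0) = 1`, `deg E0 ≤ g` satisfies
  `<E0,E0> - Σ_z E0(z) lam(z,z) ≤ 2 Σ_z E0(z) h(z) - 2 <Fa,E0> + CH` for some `Fa ∈ FF` with
  `deg Fa + g + deg E0 = d + 2` — literally the hypothesis of `Book4.book` for `lam = lamT tu`,
  `hc z = ht (pt z)`.  (`A` from `Strata4.exists_subset` inside a fixed set of `4g` places minus
  `supp E0`; `s` among `g + 1` sections of `L(d·P0 - W)` with pairwise disjoint residual divisors,
  `Members1`; `G = W - red A`, `Z = (div s + d·P0 - W) + red A`.)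
-/
import Mathlib
import Fermat.Agent.MW.POS.HadGlob9
import Fermat.Agent.MW.POS.Strata4
import Fermat.Agent.MW.EMB.Enum6
import Fermat.Agent.MW.EMB.Form6
import Fermat.Agent.MW.POS.Members1
import Fermat.Agent.MW.POS.Book4

set_option autoImplicit false
set_option linter.unusedSectionVars false

open AlgebraicCurve

namespace Fermat.Agent.MW.POS.HadInst9

open Finset
open Fermat.Agent.RR.LSpace
open Fermat.Agent.MW.EMB.Value6 Fermat.Agent.MW.EMB.OnePoint6 Fermat.Agent.MW.EMB.Coord6
open Fermat.Agent.MW.EMB.Tangent6 Fermat.Agent.MW.EMB.Proj6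
open Fermat.Agent.MW.PAIR.Pairing4
open Fermat.Agent.MW.POS.Minors9 Fermat.Agent.MW.POS.Jet9 Fermat.Agent.MW.POS.HadLoc9
open Fermat.Agent.MW.POS.HadGlob9
open Fermat.Agent.MW.HT.Place3 (Qbar GQ absV)
open Fermat.Agent.MW.HT.Ht3 (ht)

/-! ### Counting occurrences: the total version -/

section Count

variable {α : Type*} [DecidableEq α] {r : ℕ}

theorem cnt_lt_card (R : Fin r → α) (a : Fin r) :
    cnt R a < (univ.filter fun a' : Fin r => R a' = R a).card := by
  unfold cnt cntAt
  refine Finset.card_lt_card ?_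
  rw [Finset.ssubset_iff_of_subset]
  · refine ⟨a, ?_, ?_⟩
    · simp
    · simp
  · intro a'' ha''
    simp only [mem_filter, mem_univ, true_and] at ha'' ⊢
    exact ha''.2

/-- Every order below the total number of occurrences of `z` is realised by a column at `z`. -/
theorem exists_cnt_eq_total (R : Fin r → α) (z : α) {j : ℕ}
    (hj : j < (univ.filter fun a' : Fin r => R a' = z).card) :
    ∃ a : Fin r, R a = z ∧ cnt R a = j := by
  set S := univ.filter fun a' : Fin r => R a' = z with hS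
  have hinj : Set.InjOn (cnt R) (S : Set (Fin r)) := by
    intro a₁ h₁ a₂ h₂ h12
    have h₁' : R a₁ = z := by simpa [hS] using h₁
    have h₂' : R a₂ = z := by simpa [hS] using h₂
    rcases lt_trichotomy a₁ a₂ with h | h | h
    · exact absurd h12 (cnt_lt_of_lt R h (h₁'.trans h₂'.symm)).ne
    · exact h
    · exact absurd h12.symm (cnt_lt_of_lt R h (h₂'.trans h₁'.symm)).ne
  have himg : S.image (cnt R) = Finset.range S.card := by
    refine Finset.eq_of_subset_of_card_le ?_ ?_
    · intro k hk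
      obtain ⟨a', ha', rfl⟩ := Finset.mem_image.mp hk
      simp only [hS, mem_filter, mem_univ, true_and] at ha'
      rw [Finset.mem_range]
      have := cnt_lt_card R a'
      rw [ha'] at this
      exact this
    · rw [Finset.card_range, Finset.card_image_of_injOn hinj]
  have hjmem : j ∈ S.image (cnt R) := by
    rw [himg, Finset.mem_range]; exact hj
  obtain ⟨a', ha', rfl⟩ := Finset.mem_image.mp hjmem
  simp only [hS, mem_filter, mem_univ, true_and] at ha'
  exact ⟨a', ha', rfl⟩

end Count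

/-! ### Part 1: the core instantiation -/

section Core

variable {F : Type*} [Field F] [Algebra Qbar F]
variable (H : LHyp Qbar F) (P0 : Place Qbar F) (d : ℕ) {t0 : F} (ht0 : P0.ord t0 = 1) {n : ℕ}
  (b : Module.Basis (Fin n) Qbar (Lm P0 d))

/-- Multiplication by a section `s` with `div s + d·P0 = G + Z`, `Z ≥ 0`, maps `L(G)` into
`L(d·P0)`. -/
noncomputable def mulSec {s : F} (hs : s ≠ 0) {G Z : Divisor Qbar F} (hZ : 0 ≤ Z)
    (hsG : divOf H hs + mP P0 d = G + Z) : riemannRochSpace G →ₗ[Qbar] Lm P0 d where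
  toFun η := ⟨s * η, by
    refine mul_mem_L H (mP P0 d) hs ?_
    have h1 : mP P0 d + divOf H hs = G + Z := by rw [add_comm]; exact hsG
    rw [h1]
    exact L_mono (le_add_of_nonneg_right hZ) η.2⟩
  map_add' η η' := by
    apply Subtype.ext
    show s * ((η : F) + (η' : F)) = s * η + s * η'
    ring
  map_smul' c η := by
    apply Subtype.ext
    show s * (c • (η : F)) = c • (s * (η : F))
    rw [Algebra.smul_def, Algebra.smul_def]
    ring

theorem mulSec_apply {s : F} (hs : s ≠ 0) {G Z : Divisor Qbar F} (hZ : 0 ≤ Z)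
    (hsG : divOf H hs + mP P0 d = G + Z) (η : riemannRochSpace G) :
    ((mulSec H P0 d hs hZ hsG η : Lm P0 d) : F) = s * η := rfl

theorem mulSec_injective {s : F} (hs : s ≠ 0) {G Z : Divisor Qbar F} (hZ : 0 ≤ Z)
    (hsG : divOf H hs + mP P0 d = G + Z) : Function.Injective (mulSec H P0 d hs hZ hsG) := by
  intro η η' h
  have h1 := congrArg (fun f : Lm P0 d => (f : F)) h
  simp only [mulSec_apply] at h1
  exact Subtype.ext (mul_left_cancel₀ hs h1)

/-- The coordinate forms of `s * e i`. -/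
noncomputable def forms {s : F} (hs : s ≠ 0) {G Z : Divisor Qbar F} (hZ : 0 ≤ Z)
    (hsG : divOf H hs + mP P0 d = G + Z) {r : ℕ}
    (e : Module.Basis (Fin r) Qbar (riemannRochSpace G)) : Fin r → Fin n → Qbar :=
  fun i => b.equivFun (mulSec H P0 d hs hZ hsG (e i))

theorem sum_smul_forms {s : F} (hs : s ≠ 0) {G Z : Divisor Qbar F} (hZ : 0 ≤ Z)
    (hsG : divOf H hs + mP P0 d = G + Z) {r : ℕ}
    (e : Module.Basis (Fin r) Qbar (riemannRochSpace G)) (c' : Fin r → Qbar) :
    ∑ i, c' i • forms H P0 d b hs hZ hsG e i =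
      b.equivFun (mulSec H P0 d hs hZ hsG (∑ i, c' i • e i)) := by
  simp only [forms, map_sum, map_smul]

theorem lin_equivFun (f : Lm P0 d) : lin P0 d b (b.equivFun f) = f := by
  rw [lin]
  exact b.sum_equivFun f

theorem lin_sum_smul_forms {s : F} (hs : s ≠ 0) {G Z : Divisor Qbar F} (hZ : 0 ≤ Z)
    (hsG : divOf H hs + mP P0 d = G + Z) {r : ℕ}
    (e : Module.Basis (Fin r) Qbar (riemannRochSpace G)) (c' : Fin r → Qbar) :
    ((lin P0 d b (∑ i, c' i • forms H P0 d b hs hZ hsG e i) : Lm P0 d) : F) =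
      s * ((∑ i, c' i • e i : riemannRochSpace G) : F) := by
  rw [sum_smul_forms, lin_equivFun, mulSec_apply]

theorem sum_smul_forms_eq_zero_iff {s : F} (hs : s ≠ 0) {G Z : Divisor Qbar F} (hZ : 0 ≤ Z)
    (hsG : divOf H hs + mP P0 d = G + Z) {r : ℕ}
    (e : Module.Basis (Fin r) Qbar (riemannRochSpace G)) (c' : Fin r → Qbar) :
    ∑ i, c' i • forms H P0 d b hs hZ hsG e i = 0 ↔ c' = 0 := by
  rw [sum_smul_forms]
  constructor
  · intro h
    have h1 : mulSec H P0 d hs hZ hsG (∑ i, c' i • e i) = 0 := by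
      have := b.equivFun.injective (h.trans (map_zero _).symm)
      exact this
    have h2 : (∑ i, c' i • e i) = 0 :=
      mulSec_injective H P0 d hs hZ hsG (h1.trans (map_zero _).symm)
    exact funext (Fintype.linearIndependent_iff.mp e.linearIndependent c' h2)
  · rintro rfl
    simp

/-- The hyperplane section of a nonzero combination `l = Σ c' i • ω i`:
`hyp l = (div η + G) + Z` with `η = Σ c' i • e i`. -/
theorem hyp_forms_apply {s : F} (hs : s ≠ 0) {G Z : Divisor Qbar F} (hZ : 0 ≤ Z)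
    (hsG : divOf H hs + mP P0 d = G + Z) {r : ℕ}
    (e : Module.Basis (Fin r) Qbar (riemannRochSpace G)) (c' : Fin r → Qbar)
    (hl : ∑ i, c' i • forms H P0 d b hs hZ hsG e i ≠ 0) (v : Place Qbar F) :
    hyp H P0 d b hl v = v.ord ((∑ i, c' i • e i : riemannRochSpace G) : F) + G v + Z v := by
  have hη : ((∑ i, c' i • e i : riemannRochSpace G) : F) ≠ 0 := by
    intro h0
    apply hl
    rw [sum_smul_forms_eq_zero_iff]
    have h2 : (∑ i, c' i • e i : riemannRochSpace G) = 0 := Subtype.ext h0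
    exact funext (Fintype.linearIndependent_iff.mp e.linearIndependent c' h2)
  have h1 := lin_sum_smul_forms H P0 d b hs hZ hsG e c'
  have h2 : hyp H P0 d b hl v =
      v.ord ((lin P0 d b (∑ i, c' i • forms H P0 d b hs hZ hsG e i) : Lm P0 d) : F) +
        mP P0 d v := by
    rw [hyp, Finsupp.add_apply, divOf_apply]
  rw [h2, h1, v.ord_mul hs hη]
  have h3 := congrArg (fun D : Divisor Qbar F => D v) hsG
  simp only [Finsupp.add_apply, divOf_apply] at h3
  omega

/-- Every nonzero combination of the forms vanishes on `Z`. -/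
theorem le_hyp_forms {s : F} (hs : s ≠ 0) {G Z : Divisor Qbar F} (hZ : 0 ≤ Z)
    (hsG : divOf H hs + mP P0 d = G + Z) {r : ℕ}
    (e : Module.Basis (Fin r) Qbar (riemannRochSpace G)) (c' : Fin r → Qbar)
    (hl : ∑ i, c' i • forms H P0 d b hs hZ hsG e i ≠ 0) :
    Z ≤ hyp H P0 d b hl := by
  intro v
  rw [hyp_forms_apply H P0 d b hs hZ hsG e c' hl v]
  have hη : ((∑ i, c' i • e i : riemannRochSpace G) : F) ≠ 0 := by
    intro h0
    apply hl
    rw [sum_smul_forms_eq_zero_iff]
    have h2 : (∑ i, c' i • e i : riemannRochSpace G) = 0 := Subtype.ext h0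
    exact funext (Fintype.linearIndependent_iff.mp e.linearIndependent c' h2)
  have := (mem_L_iff hη).mp (∑ i, c' i • e i : riemannRochSpace G).2 v
  omega

/-- **Nonvanishing of the confluent determinant**: if `L(G - Σ_a R a) = 0` and `Z` avoids the
points `R a`, the confluent evaluation matrix of the forms on `R` is invertible. -/
theorem confMat_det_ne_zero [DecidableEq (Place Qbar F)] {s : F} (hs : s ≠ 0)
    {G Z : Divisor Qbar F} (hZ : 0 ≤ Z)
    (hsG : divOf H hs + mP P0 d = G + Z) {r : ℕ}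
    (e : Module.Basis (Fin r) Qbar (riemannRochSpace G)) (tu : Unif F)
    (R : Fin r → Place Qbar F) (hZR : ∀ a, Z (R a) = 0)
    (hbot : riemannRochSpace (G - eff univ R) = ⊥) :
    (confMat H P0 d ht0 b tu R (forms H P0 d b hs hZ hsG e)).det ≠ 0 := by
  intro hdet
  obtain ⟨c', hc'0, hc'⟩ := Matrix.exists_vecMul_eq_zero_iff.mpr hdet
  have hl : ∑ i, c' i • forms H P0 d b hs hZ hsG e i ≠ 0 := by
    rw [Ne, sum_smul_forms_eq_zero_iff]; exact hc'0
  -- the combination kills all columns
  have hcol : ∀ a, ∑ k, (∑ i, c' i • forms H P0 d b hs hZ hsG e i) k *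
      jet H P0 d ht0 b (R a) (tu (R a)).2 (cnt R a) k = 0 := by
    intro a
    have h1 := congrFun hc' a
    simp only [Matrix.vecMul, dotProduct, confMat_apply, Pi.zero_apply] at h1
    rw [← h1]
    simp only [Finset.sum_apply, Pi.smul_apply, smul_eq_mul, Finset.sum_mul, Finset.mul_sum]
    rw [Finset.sum_comm]
    exact sum_congr rfl fun i _ => sum_congr rfl fun k _ => by ring
  -- hence its hyperplane section contains `Σ_a R a`
  have hE : eff univ R ≤ hyp H P0 d b hl := by
    intro v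
    rw [eff_apply, le_hyp_iff H P0 d ht0 b hl v (tu v).2]
    intro j hj
    obtain ⟨a, ha, hcnt⟩ := exists_cnt_eq_total R v hj
    have h2 := hcol a
    rw [hcnt] at h2
    subst ha
    exact h2
  -- so `η ∈ L(G - Σ_a R a)`
  have hη0 : ((∑ i, c' i • e i : riemannRochSpace G) : F) ≠ 0 := by
    intro h0
    apply hc'0
    have h2 : (∑ i, c' i • e i : riemannRochSpace G) = 0 := Subtype.ext h0
    exact funext (Fintype.linearIndependent_iff.mp e.linearIndependent c' h2)
  have hmem : ((∑ i, c' i • e i : riemannRochSpace G) : F) ∈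
      riemannRochSpace (G - eff univ R) := by
    rw [mem_L_iff hη0]
    intro v
    have h3 := hE v
    rw [hyp_forms_apply H P0 d b hs hZ hsG e c' hl v] at h3
    have h4 := (mem_L_iff hη0).mp (∑ i, c' i • e i : riemannRochSpace G).2 v
    rw [Finsupp.sub_apply]
    by_cases hv : ∃ a, R a = v
    · obtain ⟨a, rfl⟩ := hv
      rw [hZR a] at h3
      omega
    · have h5 : eff univ R v = 0 := by
        rw [eff_apply]
        have : (univ.filter fun j => R j = v) = ∅ := by
          ext j
          simp only [mem_filter, mem_univ, true_and, notMem_empty, iff_false]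
          exact fun hj => hv ⟨j, hj⟩
        rw [this]; simp
      rw [h5]
      omega
  rw [hbot, Submodule.mem_bot] at hmem
  exact hη0 hmem

/-- **The Hadamard inequality on a linear system** (explicit constant). -/
theorem had_core [DecidableEq (Place Qbar F)] {gal : GQ → SemilinearAut Qbar F}
    (hE : EmbPos H P0 d ht0 b) (hG : GalEq H P0 d ht0 b gal) {Cud : VPl → ℝ}
    (hUD : LocUD H P0 d ht0 b Cud) (hCud : ∀ v, 1 ≤ Cud v)
    (hfin : {v : VPl | Cud v ≠ 1}.Finite) (tu : Unif F)
    {s : F} (hs : s ≠ 0) {G Z : Divisor Qbar F} (hZ : 0 ≤ Z)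
    (hsG : divOf H hs + mP P0 d = G + Z) {r : ℕ}
    (e : Module.Basis (Fin r) Qbar (riemannRochSpace G))
    (R : Fin r → Place Qbar F) (hbot : riemannRochSpace (G - eff univ R) = ⊥)
    {qF : ℕ} (zF : Fin qF → Place Qbar F) (hzF : eff univ zF = Z)
    (hdisj : ∀ j a, zF j ≠ R a) :
    (∑ a, ∑ a' ∈ univ.filter (· < a), lamT H P0 d ht0 b tu (R a') (R a)) +
        ∑ a, ∑ j, lamO H P0 d ht0 b (zF j) (R a) ≤
      ∑ a, ht (pt H P0 d ht0 b (R a)) +
        r * (Real.log r + ht (fun p : Fin n × Fin r => forms H P0 d b hs hZ hsG e p.2 p.1) +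
          ∑ᶠ v, Real.log (Cud v)) := by
  have hZR : ∀ a, Z (R a) = 0 := by
    intro a
    rw [← hzF, eff_apply]
    have : (univ.filter fun j => zF j = R a) = ∅ := by
      ext j
      simp only [mem_filter, mem_univ, true_and, notMem_empty, iff_false]
      exact hdisj j a
    rw [this]; simp
  refine had_global H P0 d ht0 b hE hG hUD hCud hfin tu R zF hdisj
    (forms H P0 d b hs hZ hsG e) ?_ ?_
  · intro c' hl
    rw [hzF]
    exact le_hyp_forms H P0 d b hs hZ hsG e c' hl
  · exact confMat_det_ne_zero H P0 d ht0 b hs hZ hsG e tu R hZR hbot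

end Core

/-! ### Part 2: conversion to the pairing form -/

section Convert

variable {Pt : Type*}

/-- `Σ_z E(z) f(z)` for `E = Σ_a R a`. -/
theorem sum_eff {r : ℕ} (R : Fin r → Pt) (f : Pt → ℝ) :
    ((eff univ R).sum fun z m => (m : ℝ) * f z) = ∑ a, f (R a) := by
  classical
  rw [eff, ← Finsupp.sum_finset_sum_index]
  · refine sum_congr rfl fun a _ => ?_
    rw [Finsupp.sum_single_index] <;> simp
  · intro z; simp
  · intro z m m'; push_cast; ring

/-- A symmetric double sum: diagonal plus twice the strictly lower triangle. -/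
theorem sum_sum_symm {r : ℕ} (f : Fin r → Fin r → ℝ) (hf : ∀ a a', f a a' = f a' a) :
    ∑ a, ∑ a', f a' a = ∑ a, f a a + 2 * ∑ a, ∑ a' ∈ univ.filter (· < a), f a' a := by
  have h1 : ∀ a : Fin r, ∑ a', f a' a =
      ∑ a' ∈ univ.filter (· < a), f a' a + f a a + ∑ a' ∈ univ.filter (a < ·), f a' a := by
    intro a
    rw [← Finset.sum_filter_add_sum_filter_not univ (· < a) (fun a' => f a' a)]
    rw [add_assoc]
    congr 1
    have h2 : (univ.filter fun a' : Fin r => ¬ a' < a) = insert a (univ.filter (a < ·)) := by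
      ext a'
      simp only [mem_filter, mem_univ, true_and, mem_insert, not_lt]
      exact le_iff_eq_or_lt.trans (or_congr eq_comm Iff.rfl)
    rw [h2, Finset.sum_insert (by simp)]
  have h3 : ∑ a, ∑ a' ∈ univ.filter (a < ·), f a' a =
      ∑ a, ∑ a' ∈ univ.filter (· < a), f a' a := by
    rw [Finset.sum_comm' (s' := fun a' => univ.filter (· < a')) (t' := univ)]
    · exact sum_congr rfl fun a _ => sum_congr rfl fun a' _ => hf _ _
    · intro a a'
      simp
  simp only [h1, Finset.sum_add_distrib, h3]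
  ring

variable {lam : Pt → Pt → ℝ}

/-- `<E,E> - Σ_z E(z) lam(z,z) = 2 Σ_{a' < a} lam(R a', R a)` for `E = Σ_a R a`. -/
theorem pair_eff_self (hsymm : ∀ x y, lam x y = lam y x) {r : ℕ} (R : Fin r → Pt) :
    pair lam (eff univ R) (eff univ R) - ((eff univ R).sum fun z m => (m : ℝ) * lam z z) =
      2 * ∑ a, ∑ a' ∈ univ.filter (· < a), lam (R a') (R a) := by
  rw [pair_eff_eff, sum_eff R fun z => lam z z, Finset.sum_comm,
    sum_sum_symm (fun a a' => lam (R a) (R a')) fun a a' => hsymm _ _]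
  ring

end Convert

/-! ### Part 3: the symmetric function `lamT` and the pairing form of `had_core` -/

section PairForm

open Fermat.Agent.MW.HT.Ht3 (ht_smul)

variable {F : Type*} [Field F] [Algebra Qbar F] [DecidableEq (Place Qbar F)]
variable (H : LHyp Qbar F) (P0 : Place Qbar F) (d : ℕ) {t0 : F} (ht0 : P0.ord t0 = 1) {n : ℕ}
  (b : Module.Basis (Fin n) Qbar (Lm P0 d))

theorem wedge2_swap (x y : Fin n → Qbar) : wedge2 y x = (-1 : Qbar) • wedge2 x y := by
  funext p
  simp only [wedge2, Pi.smul_apply, smul_eq_mul]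
  ring

theorem lamO_symm (z y : Place Qbar F) : lamO H P0 d ht0 b z y = lamO H P0 d ht0 b y z := by
  unfold lamO
  rw [wedge2_swap (pt H P0 d ht0 b z) (pt H P0 d ht0 b y),
    ht_smul _ (by norm_num : (-1 : Qbar) ≠ 0)]
  ring

theorem lamT_symm (tu : Unif F) (z y : Place Qbar F) :
    lamT H P0 d ht0 b tu z y = lamT H P0 d ht0 b tu y z := by
  unfold lamT
  by_cases h : z = y
  · subst h; rfl
  · rw [if_neg h, if_neg (Ne.symm h)]
    exact lamO_symm H P0 d ht0 b z y

theorem lamT_of_ne (tu : Unif F) {z y : Place Qbar F} (h : z ≠ y) :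
    lamT H P0 d ht0 b tu z y = lamO H P0 d ht0 b z y := by
  unfold lamT
  rw [if_neg h]

/-- **The Hadamard inequality on a linear system, pairing form**: with `lam = lamT tu`,
`E = Σ_a R a`, `Z = Σ_j zF j`:
`<E,E> - Σ_z E(z) lam(z,z) + 2 <Z,E> ≤ 2 Σ_z E(z) h(z) + 2 r (log r + ht ω + Σ_v log Cud v)`. -/
theorem had_core_pair {gal : GQ → SemilinearAut Qbar F}
    (hE : EmbPos H P0 d ht0 b) (hG : GalEq H P0 d ht0 b gal) {Cud : VPl → ℝ}
    (hUD : LocUD H P0 d ht0 b Cud) (hCud : ∀ v, 1 ≤ Cud v)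
    (hfin : {v : VPl | Cud v ≠ 1}.Finite) (tu : Unif F)
    {s : F} (hs : s ≠ 0) {G Z : Divisor Qbar F} (hZ : 0 ≤ Z)
    (hsG : divOf H hs + mP P0 d = G + Z) {r : ℕ}
    (e : Module.Basis (Fin r) Qbar (riemannRochSpace G))
    (R : Fin r → Place Qbar F) (hbot : riemannRochSpace (G - eff univ R) = ⊥)
    {qF : ℕ} (zF : Fin qF → Place Qbar F) (hzF : eff univ zF = Z)
    (hdisj : ∀ j a, zF j ≠ R a) :
    pair (lamT H P0 d ht0 b tu) (eff univ R) (eff univ R) -
        ((eff univ R).sum fun z m => (m : ℝ) * lamT H P0 d ht0 b tu z z) +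
        2 * pair (lamT H P0 d ht0 b tu) Z (eff univ R) ≤
      2 * ((eff univ R).sum fun z m => (m : ℝ) * ht (pt H P0 d ht0 b z)) +
        2 * (r * (Real.log r +
          ht (fun p : Fin n × Fin r => forms H P0 d b hs hZ hsG e p.2 p.1) +
          ∑ᶠ v, Real.log (Cud v))) := by
  have h := had_core H P0 d ht0 b hE hG hUD hCud hfin tu hs hZ hsG e R hbot zF hzF hdisj
  have h2 : pair (lamT H P0 d ht0 b tu) Z (eff univ R) =
      ∑ a, ∑ j, lamO H P0 d ht0 b (zF j) (R a) := by
    rw [← hzF, pair_eff_eff, Finset.sum_comm]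
    exact sum_congr rfl fun a _ => sum_congr rfl fun j _ =>
      lamT_of_ne H P0 d ht0 b tu (hdisj j a)
  rw [pair_eff_self (lamT_symm H P0 d ht0 b tu) R, sum_eff R, h2]
  linarith

end PairForm

/-! ### Part 4: divisor form (no enumerations) -/

section DivForm

open Fermat.Agent.MW.EMB.Enum6 Fermat.Agent.MW.POS.Book4

variable {F : Type*} [Field F] [Algebra Qbar F] [DecidableEq (Place Qbar F)]
variable (H : LHyp Qbar F) (P0 : Place Qbar F) (d : ℕ) {t0 : F} (ht0 : P0.ord t0 = 1) {n : ℕ}
  (b : Module.Basis (Fin n) Qbar (Lm P0 d))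

/-- The constant of `had_div`. -/
noncomputable def cstHad (Cud : VPl → ℝ) {s : F} (hs : s ≠ 0) {G Z : Divisor Qbar F} (hZ : 0 ≤ Z)
    (hsG : divOf H hs + mP P0 d = G + Z) {r : ℕ}
    (e : Module.Basis (Fin r) Qbar (riemannRochSpace G)) : ℝ :=
  2 * (r * (Real.log r + ht (fun p : Fin n × Fin r => forms H P0 d b hs hZ hsG e p.2 p.1) +
    ∑ᶠ v, Real.log (Cud v)))

/-- **The Hadamard inequality on a linear system, divisor form**: `G` with a basis `e` of `L(G)`
(`r` elements), `s` with `div s + d·P0 = G + Z`, `Z ≥ 0`; for every `E0 ≥ 0` of degree `r`, disjoint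
from `Z`, with `L(G - E0) = 0`:
`<E0,E0> - Σ_z E0(z) lam(z,z) ≤ 2 Σ_z E0(z) h(z) - 2 <Z,E0> + cstHad`. -/
theorem had_div {gal : GQ → SemilinearAut Qbar F}
    (hE : EmbPos H P0 d ht0 b) (hG : GalEq H P0 d ht0 b gal) {Cud : VPl → ℝ}
    (hUD : LocUD H P0 d ht0 b Cud) (hCud : ∀ v, 1 ≤ Cud v)
    (hfin : {v : VPl | Cud v ≠ 1}.Finite) (tu : Unif F)
    {s : F} (hs : s ≠ 0) {G Z : Divisor Qbar F} (hZ : 0 ≤ Z)
    (hsG : divOf H hs + mP P0 d = G + Z) {r : ℕ}
    (e : Module.Basis (Fin r) Qbar (riemannRochSpace G))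
    (E0 : Divisor Qbar F) (hE0 : 0 ≤ E0) (hdeg : Divisor.degree E0 = r)
    (hbot : riemannRochSpace (G - E0) = ⊥) (hZE : ∀ v, 0 < E0 v → Z v = 0) :
    pair (lamT H P0 d ht0 b tu) E0 E0 - wsum E0 (fun z => lamT H P0 d ht0 b tu z z) ≤
      2 * wsum E0 (fun z => ht (pt H P0 d ht0 b z)) - 2 * pair (lamT H P0 d ht0 b tu) Z E0 +
        cstHad H P0 d b Cud hs hZ hsG e := by
  obtain ⟨R, hR⟩ := exists_enum H r hE0 hdeg
  have hR' : E0 = eff univ R := hR
  obtain ⟨q, hq⟩ : ∃ q : ℕ, Divisor.degree Z = q :=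
    Int.eq_ofNat_of_zero_le (degree_nonneg H hZ)
  obtain ⟨zF, hzF⟩ := exists_enum H q hZ hq
  have hzF' : eff univ zF = Z := hzF.symm
  have hdisj : ∀ j a, zF j ≠ R a := by
    intro j a hja
    have h1 : 0 < E0 (R a) := by
      rw [hR', eff_apply]
      have : 0 < (univ.filter fun a' => R a' = R a).card :=
        Finset.card_pos.mpr ⟨a, by simp⟩
      exact_mod_cast this
    have h2 := hZE _ h1
    rw [← hzF', eff_apply] at h2
    have : 0 < (univ.filter fun j' => zF j' = R a).card :=
      Finset.card_pos.mpr ⟨j, by simp [hja]⟩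
    have h3 : ((univ.filter fun j' => zF j' = R a).card : ℤ) ≠ 0 := by
      exact_mod_cast this.ne'
    exact h3 h2
  subst hR'
  have h := had_core_pair H P0 d ht0 b hE hG hUD hCud hfin tu hs hZ hsG e R hbot zF hzF' hdisj
  unfold cstHad wsum
  linarith

/-- `had_div` with an unspecified constant (a basis of `L(G)` is chosen). -/
theorem had_div_exists {gal : GQ → SemilinearAut Qbar F}
    (hE : EmbPos H P0 d ht0 b) (hG : GalEq H P0 d ht0 b gal) {Cud : VPl → ℝ}
    (hUD : LocUD H P0 d ht0 b Cud) (hCud : ∀ v, 1 ≤ Cud v)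
    (hfin : {v : VPl | Cud v ≠ 1}.Finite) (tu : Unif F)
    {s : F} (hs : s ≠ 0) {G Z : Divisor Qbar F} (hZ : 0 ≤ Z)
    (hsG : divOf H hs + mP P0 d = G + Z) :
    ∃ C : ℝ, ∀ (E0 : Divisor Qbar F), 0 ≤ E0 →
      Divisor.degree E0 = (Module.finrank Qbar (riemannRochSpace G) : ℤ) →
      riemannRochSpace (G - E0) = ⊥ → (∀ v, 0 < E0 v → Z v = 0) →
      pair (lamT H P0 d ht0 b tu) E0 E0 - wsum E0 (fun z => lamT H P0 d ht0 b tu z z) ≤
        2 * wsum E0 (fun z => ht (pt H P0 d ht0 b z)) - 2 * pair (lamT H P0 d ht0 b tu) Z E0 +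
          C := by
  haveI : FiniteDimensional Qbar (riemannRochSpace G) := finiteDimensional_L H G
  exact ⟨cstHad H P0 d b Cud hs hZ hsG (Module.finBasis Qbar (riemannRochSpace G)),
    fun E0 hE0 hdeg hbot hZE =>
      had_div H P0 d ht0 b hE hG hUD hCud hfin tu hs hZ hsG
        (Module.finBasis Qbar (riemannRochSpace G)) E0 hE0 hdeg hbot hZE⟩

end DivForm

/-! ### Part 5: the geometric instantiation -/

section Geom

open Fermat.Agent.X0.FF Fermat.Agent.RR.LHypGen Fermat.Agent.RR.RRMain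
open Fermat.Agent.MW.POS.Strata4 Fermat.Agent.MW.POS.Members1 Fermat.Agent.MW.POS.Book4
open Fermat.Agent.MW.EMB.Form6 (infinite_place)

variable {F : Type*} [Field F] [Algebra Qbar F] [DecidableEq (Place Qbar F)] {x : F}
  [HasCanonicalDivisor (K := Qbar) (F := F)]

theorem card_support_le_degree (H : LHyp Qbar F) {E0 : Divisor Qbar F} (hE0 : 0 ≤ E0) :
    (E0.support.card : ℤ) ≤ Divisor.degree E0 := by
  rw [degree_eq_sum H]
  calc (E0.support.card : ℤ) = ∑ v ∈ E0.support, (1 : ℤ) := by simp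
    _ ≤ ∑ v ∈ E0.support, E0 v := Finset.sum_le_sum fun v hv => by
        have h1 := hE0 v
        have h2 := Finsupp.mem_support_iff.mp hv
        simp only [Finsupp.coe_zero, Pi.zero_apply] at h1
        omega

theorem red_apply_of_notMem {A : Finset (Place Qbar F)} {v : Place Qbar F} (hv : v ∉ A) :
    red A v = 0 := by
  rw [red, Finsupp.finsetSum_apply]
  refine Finset.sum_eq_zero fun a ha => ?_
  rw [Finsupp.single_apply, if_neg]
  rintro rfl
  exact hv ha

variable (hx : IsGen Qbar x) (P0 : Place Qbar F) (d : ℕ) {t0 : F} (ht0 : P0.ord t0 = 1) {n : ℕ}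
  (b : Module.Basis (Fin n) Qbar (Lm P0 d))

omit [DecidableEq (Place Qbar F)] [HasCanonicalDivisor (K := Qbar) (F := F)] in
/-- Two vectors with vanishing `2 × 2` minors are linearly dependent. -/
theorem wedge2_ne_zero_of_linearIndependent {x y : Fin n → Qbar}
    (h : LinearIndependent Qbar ![x, y]) : wedge2 x y ≠ 0 := by
  intro h0
  rw [LinearIndependent.pair_iff] at h
  have hw : ∀ i j, x i * y j = x j * y i := by
    intro i j
    have := congrFun h0 (i, j)
    simp only [wedge2, Pi.zero_apply] at this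
    linear_combination this
  by_cases hx0 : x = 0
  · have := h 1 0 (by rw [hx0]; simp)
    exact one_ne_zero this.1
  · obtain ⟨i, hi⟩ : ∃ i, x i ≠ 0 := by
      by_contra hcon
      push Not at hcon
      exact hx0 (funext hcon)
    have := h (y i) (-(x i)) (by
      funext j
      simp only [Pi.add_apply, Pi.smul_apply, smul_eq_mul, Pi.zero_apply]
      linear_combination hw j i)
    exact hi (neg_eq_zero.mp this.2)

/-- The positivity hypotheses of the embedding by `|d·P0|`, `d ≥ 2g + 1`. -/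
theorem embPos_of_isGen (hd : 2 * (genus Qbar F : ℤ) + 1 ≤ d) :
    EmbPos (lHyp_of_isGen hx) P0 d ht0 b where
  nz := pt_ne_zero hx P0 ht0 b (by omega)
  sep := fun _ _ hzy => wedge2_ne_zero_of_linearIndependent (pt_indep hx P0 ht0 b hd hzy)
  imm := fun y _ ht' =>
    wedge2_ne_zero_of_linearIndependent (pt_dpt_indep hx P0 ht0 b hd y ht')

/-- **(Had), final form**: a FINITE list `FF` of auxiliary effective divisors and ONE constant `CH`
such that every `E0 ≥ 0` with `l(E0) = 1`, `deg E0 ≤ g` satisfies the Hadamard inequality against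
some `Fa ∈ FF` of degree `d + 2 - g - deg E0` (the hypothesis of `Book4.book`). -/
theorem had_inst {gal : GQ → SemilinearAut Qbar F}
    (hE : EmbPos (lHyp_of_isGen hx) P0 d ht0 b) (hG : GalEq (lHyp_of_isGen hx) P0 d ht0 b gal)
    {Cud : VPl → ℝ} (hUD : LocUD (lHyp_of_isGen hx) P0 d ht0 b Cud) (hCud : ∀ v, 1 ≤ Cud v)
    (hfin : {v : VPl | Cud v ≠ 1}.Finite) (tu : Unif F)
    (hd : 4 * (genus Qbar F : ℤ) ≤ d + 2) :
    ∃ (FF : Finset (Divisor Qbar F)) (CH : ℝ), ∀ E0 : Divisor Qbar F, 0 ≤ E0 →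
      Module.finrank Qbar (riemannRochSpace E0) = 1 → Divisor.degree E0 ≤ genus Qbar F →
      ∃ Fa ∈ FF, Divisor.degree Fa + genus Qbar F + Divisor.degree E0 = d + 2 ∧
        pair (lamT (lHyp_of_isGen hx) P0 d ht0 b tu) E0 E0 -
            wsum E0 (fun z => lamT (lHyp_of_isGen hx) P0 d ht0 b tu z z) ≤
          2 * wsum E0 (fun z => ht (pt (lHyp_of_isGen hx) P0 d ht0 b z)) -
            2 * pair (lamT (lHyp_of_isGen hx) P0 d ht0 b tu) Fa E0 + CH := by
  classical
  have H := lHyp_of_isGen hx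
  -- a set `S` of `4g` places
  haveI : Infinite (Place Qbar F) := infinite_place H hx.transcendental
  obtain ⟨S, hS⟩ := Infinite.exists_subset_card_eq (Place Qbar F) (4 * genus Qbar F)
  -- `g + 1` sections of `L(d·P0 - W)` with pairwise disjoint residual divisors
  have hD : 2 * (genus Qbar F : ℤ) ≤ Divisor.degree (mP P0 d - W hx) := by
    rw [map_sub, degree_mP H, degree_W]; omega
  obtain ⟨f, hf, hfL, hfdisj⟩ := exists_disjoint_family hx (mP P0 d - W hx) hD (genus Qbar F + 1)
  -- the data attached to `(A, k)`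
  have hZk : ∀ k, 0 ≤ mP P0 d - W hx + divOf (lHyp_of_isGen hx) (hf k) := by
    intro k v
    have := (mem_L_iff (hf k)).mp (hfL k) v
    rw [Finsupp.add_apply, divOf_apply]
    simp only [Finsupp.coe_zero, Pi.zero_apply]
    omega
  have hZ : ∀ (A : Finset (Place Qbar F)) k,
      0 ≤ mP P0 d - W hx + divOf (lHyp_of_isGen hx) (hf k) + red A :=
    fun A k => add_nonneg (hZk k) (red_nonneg A)
  have hsG : ∀ (A : Finset (Place Qbar F)) k, divOf (lHyp_of_isGen hx) (hf k) + mP P0 d =
      (W hx - red A) + (mP P0 d - W hx + divOf (lHyp_of_isGen hx) (hf k) + red A) := by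
    intro A k; abel
  have key : ∀ (A : Finset (Place Qbar F)) (k : Fin (genus Qbar F + 1)), ∃ C : ℝ,
      ∀ (E0 : Divisor Qbar F), 0 ≤ E0 →
      Divisor.degree E0 = (Module.finrank Qbar (riemannRochSpace (W hx - red A)) : ℤ) →
      riemannRochSpace (W hx - red A - E0) = ⊥ →
      (∀ v, 0 < E0 v → (mP P0 d - W hx + divOf (lHyp_of_isGen hx) (hf k) + red A) v = 0) →
      pair (lamT (lHyp_of_isGen hx) P0 d ht0 b tu) E0 E0 -
          wsum E0 (fun z => lamT (lHyp_of_isGen hx) P0 d ht0 b tu z z) ≤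
        2 * wsum E0 (fun z => ht (pt (lHyp_of_isGen hx) P0 d ht0 b z)) -
          2 * pair (lamT (lHyp_of_isGen hx) P0 d ht0 b tu)
            (mP P0 d - W hx + divOf (lHyp_of_isGen hx) (hf k) + red A) E0 + C :=
    fun A k => had_div_exists (lHyp_of_isGen hx) P0 d ht0 b hE hG hUD hCud hfin tu (hf k)
      (hZ A k) (hsG A k)
  choose cst hcst using key
  refine ⟨(S.powerset ×ˢ (univ : Finset (Fin (genus Qbar F + 1)))).image
      (fun p => mP P0 d - W hx + divOf (lHyp_of_isGen hx) (hf p.2) + red p.1),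
    ∑ p ∈ S.powerset ×ˢ (univ : Finset (Fin (genus Qbar F + 1))), |cst p.1 p.2|, ?_⟩
  intro E0 hE0 hl hr
  have hT : (E0.support.card : ℤ) ≤ genus Qbar F := (card_support_le_degree H hE0).trans hr
  -- the set `A`
  have hS' : 3 * genus Qbar F ≤ (S \ E0.support).card := by
    have := Finset.le_card_sdiff E0.support S
    omega
  obtain ⟨A, hAS, hAc, -, -, hA3, hA4⟩ :=
    exists_subset hx (S \ E0.support) hS' E0 hE0 hl hr
  -- the section `k`
  obtain ⟨k, hk⟩ := exists_member_disjoint_of_card_lt hx (mP P0 d - W hx) f hf hfdisj E0.support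
    (by omega : E0.support.card < genus Qbar F + 1)
  have hmem : (A, k) ∈ S.powerset ×ˢ (univ : Finset (Fin (genus Qbar F + 1))) :=
    Finset.mem_product.mpr ⟨Finset.mem_powerset.mpr (hAS.trans Finset.sdiff_subset),
      Finset.mem_univ _⟩
  refine ⟨mP P0 d - W hx + divOf (lHyp_of_isGen hx) (hf k) + red A,
    Finset.mem_image.mpr ⟨(A, k), hmem, rfl⟩, ?_, ?_⟩
  · rw [map_add, map_add, map_sub, degree_mP H, degree_W, degree_divOf, degree_red H, hAc]
    ring
  · have hZE : ∀ v, 0 < E0 v →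
        (mP P0 d - W hx + divOf (lHyp_of_isGen hx) (hf k) + red A) v = 0 := by
      intro v hv
      have hvs : v ∈ E0.support := Finsupp.mem_support_iff.mpr hv.ne'
      have hvA : v ∉ A := fun hvA => (Finset.mem_sdiff.mp (hAS hvA)).2 hvs
      rw [Finsupp.add_apply, hk v hvs, red_apply_of_notMem hvA, add_zero]
    have h := hcst A k E0 hE0 hA3.symm hA4 hZE
    have h1 : cst A k ≤ ∑ p ∈ S.powerset ×ˢ (univ : Finset (Fin (genus Qbar F + 1))),
        |cst p.1 p.2| :=
      (le_abs_self _).trans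
        (Finset.single_le_sum (f := fun p : Finset (Place Qbar F) × Fin (genus Qbar F + 1) =>
          |cst p.1 p.2|) (fun p _ => abs_nonneg _) hmem)
    linarith

end Geom

end Fermat.Agent.MW.POS.HadInst9
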