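/-
Programme MW (S17), block POS/PAIR (helper4): **symmetry and the off-diagonal lower bound of
`HadGlob9.lamT`** (the hypotheses `hsymm`, `OffDiag` of `Bpf4`/`Book4`/`Assemble3`).

* `ht_wedge2_le : ht (wedge2 x y) ≤ ht x + ht y + C n` (a bilinear map with coefficients `0, ±1`);
* `lamO_symm`, `lamT_symm`;
* `offDiag_lamT : OffDiag (lamT tu) (C n)`.
-/
import Mathlib
import Fermat.Agent.MW.POS.HadGlob9
import Fermat.Agent.MW.PAIR.Compare4

set_option autoImplicit false
set_option linter.unusedSectionVars false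

open AlgebraicCurve

namespace Fermat.Agent.MW.POS.LamBasic4

open Fermat.Agent.RR.LSpace
open Fermat.Agent.MW.EMB.OnePoint6 Fermat.Agent.MW.EMB.Proj6
open Fermat.Agent.MW.POS.HadLoc9 Fermat.Agent.MW.POS.HadGlob9
open Fermat.Agent.MW.HT.Ht3 Fermat.Agent.MW.HT.Lin3
open Fermat.Agent.MW.PAIR.Compare4

local notation "Qb" => Fermat.Agent.MW.HT.Place3.Qbar

/-- The coefficient tensor of `wedge2`. -/
noncomputable def wmat (n : ℕ) : (Fin n × Fin n) × (Fin n × Fin n) → Qb :=
  fun a => (if a.2 = a.1 then 1 else 0) - (if a.2 = (a.1.2, a.1.1) then 1 else 0)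

theorem wedge2_eq_sum {n : ℕ} (x y : Fin n → Qb) :
    wedge2 x y = fun j : Fin n × Fin n =>
      ∑ i : Fin n × Fin n, wmat n (j, i) * (fun a : Fin n × Fin n => x a.1 * y a.2) i := by
  funext j
  simp only [wmat, sub_mul, ite_mul, one_mul, zero_mul, Finset.sum_sub_distrib,
    Finset.sum_ite_eq', Finset.mem_univ, if_true, wedge2]

/-- `ht (x ∧ y) ≤ ht x + ht y + C n`. -/
theorem ht_wedge2_le {n : ℕ} {x y : Fin n → Qb} (hx : x ≠ 0) (hy : y ≠ 0) :
    ht (wedge2 x y) ≤ ht x + ht y + (ht (wmat n) + Real.log (Fintype.card (Fin n × Fin n))) := by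
  rw [wedge2_eq_sum]
  have h := ht_linearMap_le' (wmat n) (fun a : Fin n × Fin n => x a.1 * y a.2)
  rw [ht_fun_mul hx hy] at h
  linarith

theorem wedge2_swap {n : ℕ} (x y : Fin n → Qb) : wedge2 y x = (-1 : Qb) • wedge2 x y := by
  funext a
  simp only [wedge2, Pi.smul_apply, smul_eq_mul]
  ring

theorem ht_wedge2_swap {n : ℕ} (x y : Fin n → Qb) : ht (wedge2 y x) = ht (wedge2 x y) := by
  rw [wedge2_swap, ht_smul _ (by norm_num)]

variable {F : Type*} [Field F] [Algebra Qb F]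
variable (H : LHyp Qb F) (P0 : Place Qb F) (d : ℕ) {t0 : F} (ht0 : P0.ord t0 = 1) {n : ℕ}
  (b : Module.Basis (Fin n) Qb (Lm P0 d))

theorem lamO_symm (z y : Place Qb F) :
    lamO H P0 d ht0 b z y = lamO H P0 d ht0 b y z := by
  rw [lamO, lamO, ht_wedge2_swap]
  ring

theorem lamT_symm [DecidableEq (Place Qb F)] (tu : Unif F) (z y : Place Qb F) :
    lamT H P0 d ht0 b tu z y = lamT H P0 d ht0 b tu y z := by
  by_cases h : z = y
  · subst h; rfl
  · rw [lamT, lamT, if_neg h, if_neg (Ne.symm h), lamO_symm]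

/-- **`lamT` is bounded below off the diagonal.** -/
theorem offDiag_lamT [DecidableEq (Place Qb F)] (tu : Unif F)
    (hnz : ∀ y : Place Qb F, pt H P0 d ht0 b y ≠ 0) :
    OffDiag (lamT H P0 d ht0 b tu)
      (ht (wmat n) + Real.log (Fintype.card (Fin n × Fin n))) := by
  intro z y hzy
  rw [lamT, if_neg hzy, lamO]
  have := ht_wedge2_le (hnz z) (hnz y)
  linarith

end Fermat.Agent.MW.POS.LamBasic4
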