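/-
PROGRAMME MW (S17), block POS (helper9).  `Pos9`: **the positivity inequality on minimal
representatives**, general form (any function field over `Qbar` with a transcendental generator).

With `lam := lamT tu` (HadGlob9), `hc z := ht (pt z)`:

  `pos_general` : GIVEN  (G) `GalEq` (Galois equivariance of jets, EMB (E6)),
                         (L) `LocUD Cud` (local one-sided uniform decomposition, CHOW+UD (X5)),
                         (U) `UDle lam principal (4g + 2)` (global uniform decomposition),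
      `∃ C, ∀ E0 ≥ 0, l(E0) = 1 → deg E0 ≤ g →
          (1/d) Σ_z E0(z) hc(z) - C ≤ q lam (E0 - deg E0 · P0)`.

Assembly of `HadInst9.had_inst` (Hadamard), `Book4.book` (bookkeeping), `C4Lam4.c4_lamT`/`hadj`
(adjunction and (C4)), `LamBasic4` (symmetry, lower bound), `Telescope4.decomp_of_principal`.
-/
import Mathlib
import Fermat.Agent.MW.POS.HadInst9
import Fermat.Agent.MW.POS.C4Lam4
import Fermat.Agent.MW.POS.LamBasic4
import Fermat.Agent.MW.PAIR.Telescope4

set_option autoImplicit false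
set_option linter.unusedSectionVars false

open AlgebraicCurve

namespace Fermat.Agent.MW.POS.Pos9

open Fermat.Agent.X0.FF Fermat.Agent.RR.LSpace Fermat.Agent.RR.LHypGen
open Fermat.Agent.MW.EMB.OnePoint6 Fermat.Agent.MW.EMB.Proj6
open Fermat.Agent.MW.PAIR.Pairing4 Fermat.Agent.MW.PAIR.PairingB4 Fermat.Agent.MW.PAIR.Compare4
open Fermat.Agent.MW.PAIR.Telescope4
open Fermat.Agent.MW.POS.HadLoc9 Fermat.Agent.MW.POS.HadGlob9 Fermat.Agent.MW.POS.HadInst9
open Fermat.Agent.MW.POS.Book4 Fermat.Agent.MW.POS.C4Lam4 Fermat.Agent.MW.POS.LamBasic4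
open Fermat.Agent.MW.HT.Place3 (Qbar GQ)
open Fermat.Agent.MW.HT.Ht3 (ht)

variable {F : Type*} [Field F] [Algebra Qbar F] [DecidableEq (Place Qbar F)] {x : F}
  [HasCanonicalDivisor (K := Qbar) (F := F)]

/-- **The positivity inequality on minimal representatives.** -/
theorem pos_general (hx : IsGen Qbar x) (hg : 1 ≤ genus Qbar F) (P0 : Place Qbar F) {d : ℕ}
    (hd : 4 * (genus Qbar F : ℤ) ≤ d) {t0 : F} (ht0 : P0.ord t0 = 1) {n : ℕ}
    (b : Module.Basis (Fin n) Qbar (Lm P0 d)) (tu : Unif F)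
    {gal : GQ → SemilinearAut Qbar F} (hG : GalEq (lHyp_of_isGen hx) P0 d ht0 b gal)
    {Cud : VPl → ℝ} (hUD : LocUD (lHyp_of_isGen hx) P0 d ht0 b Cud) (hCud : ∀ v, 1 ≤ Cud v)
    (hfin : {v : VPl | Cud v ≠ 1}.Finite)
    (hU : UDle (lamT (lHyp_of_isGen hx) P0 d ht0 b tu)
      (Divisor.principal (K := Qbar) (F := F)) (4 * genus Qbar F + 2)) :
    ∃ C : ℝ, ∀ E0 : Divisor Qbar F, 0 ≤ E0 →
      Module.finrank Qbar (riemannRochSpace E0) = 1 → Divisor.degree E0 ≤ genus Qbar F →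
      (1 / (d : ℝ)) * wsum E0 (fun z => ht (pt (lHyp_of_isGen hx) P0 d ht0 b z)) - C ≤
        q (lamT (lHyp_of_isGen hx) P0 d ht0 b tu)
          (E0 - Finsupp.single P0 (Divisor.degree E0)) := by
  have hd1 : 2 * (genus Qbar F : ℤ) + 1 ≤ d := by omega
  have hd0 : 0 < d := by omega
  have hE := embPos_of_isGen hx P0 d ht0 b hd1
  obtain ⟨FF, CH, hHad⟩ := had_inst hx P0 d ht0 b hE hG hUD hCud hfin tu (by omega)
  obtain ⟨C, hC⟩ := book hx (offDiag_lamT (lHyp_of_isGen hx) P0 d ht0 b tu hE.nz)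
    (fun u hu => decomp_of_principal hx P0 hU u hu)
    (LamBasic4.lamT_symm (lHyp_of_isGen hx) P0 d ht0 b tu) P0 hd0
    (fun z => ht (pt (lHyp_of_isGen hx) P0 d ht0 b z))
    (c4_lamT hx hg P0 hd ht0 b tu) (hadj hx hg P0 hd ht0 b tu) FF CH
  exact ⟨C, fun E0 h0 hl hr => hC E0 h0 hr (hHad E0 h0 hl hr)⟩

end Fermat.Agent.MW.POS.Pos9
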