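/-
PROGRAMME MW (S17), block POS (helper9).  `PosMod9`: **the hypothesis `hpos` of
`NorthGlue0.hNorth_of_pos` for the modular data** (`Modular1`: `P0 N`, `t0 N`, `ratBasis N d`,
`gal N`), with `lam := lamT tu`, `hc v := ht (ptN N d v)`, `c = 1/d`, GIVEN the two statements of
CHOW+UD about `lamT`:
  (L) `LocUD Cud` (`Cud ≥ 1`, `= 1` outside a finite set),
  (U) `UDle lam principal (4g + 2)`.

* `finrank_L_normalForm`, `finrank_L_E0` : `l(E0 x) = 1` for the minimal divisor;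
* `galEq_mod` : `GalEq` for the modular data (from `JetGalMod1`);
* `hpos_mod` : the statement.
-/
import Mathlib
import Fermat.Agent.MW.POS.Pos9
import Fermat.Agent.MW.POS.NorthGlue0
import Fermat.Agent.MW.POS.JetGalMod1
import Fermat.Agent.MW.ASM.NorthMod0

set_option autoImplicit false
set_option linter.unusedSectionVars false

open AlgebraicCurve ModularCurve

namespace Fermat.Agent.MW.POS.PosMod9

open Fermat.Agent.X0 Fermat.Agent.X0.FF Fermat.Agent.RR.LSpace Fermat.Agent.RR.LHypGen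
open Fermat.Agent.MW.EMB.OnePoint6 Fermat.Agent.MW.EMB.Proj6 Fermat.Agent.MW.EMB.Modular1
open Fermat.Agent.MW.PAIR.Pairing4 Fermat.Agent.MW.PAIR.PairingB4
open Fermat.Agent.MW.POS.HadLoc9 Fermat.Agent.MW.POS.HadGlob9 Fermat.Agent.MW.POS.Pos9
open Fermat.Agent.MW.POS.Book4 Fermat.Agent.MW.POS.JetGalMod1 Fermat.Agent.MW.POS.NorthGlue0
open Fermat.Agent.MW.ASM.Assemble0 Fermat.Agent.MW.ASM.Assemble3 Fermat.Agent.MW.ASM.NorthMod0
open Fermat.Agent.J.DESC.NormalForm10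
open Fermat.Agent.RED.TOP.FbarFacts20
open Fermat.Agent.MW.HT.Ht3 (ht)

section NF

variable {K F : Type*} [Field K] [Field F] [Algebra K F]
variable (H : LHyp K F) (hR : RiemannHyp K F) (P₀ : Place K F)

/-- `l(normalForm D) = 1`. -/
theorem finrank_L_normalForm (D : Divisor K F) (hD : Divisor.degree D = 0) :
    Module.finrank K (riemannRochSpace (normalForm H hR P₀ D)) = 1 := by
  rw [normalForm, LinearEquiv.finrank_eq (mulEquiv H _ (gen_ne_zero H hR P₀ D))]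
  exact finrank_L_minPole H hR P₀ D hD

theorem finrank_L_normalFormPic (x : Pic0 K F) :
    Module.finrank K (riemannRochSpace (normalFormPic H hR P₀ x)) = 1 :=
  finrank_L_normalForm H hR P₀ _
    (Divisor.mem_degZero.mp (Quotient.out x : Divisor.degZero (K := K) (F := F)).2)

end NF

variable (N : ℕ) [NeZero N]

theorem finrank_L_E0 (P0 : Pt N) (x : JZero N) :
    Module.finrank (AlgebraicClosure ℚ) (riemannRochSpace (E0 N P0 x)) = 1 :=
  finrank_L_normalFormPic (lHypN N) (rHypN N) P0 x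

/-- `GalEq` for the modular data. -/
theorem galEq_mod (d : ℕ) :
    GalEq (lHyp_of_isGen (isGen_j N)) (P0 N) d (ord_t0 N) (ratBasis N d) (gal N) where
  jet_smul := fun σ v _ ht ht' j i => congrFun (jet_gal N d σ v ht ht' j) i
  hyp_smul := fun σ _ hc hc' v => hyp_gal N d σ hc hc' v

open scoped Classical in
/-- **`hpos` for the modular data**, given (L) and (U). -/
theorem hpos_mod (hg : 1 ≤ gN N) {d : ℕ} (hd : 4 * gN N ≤ d) (tu : Unif (FF N))
    {Cud : VPl → ℝ}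
    (hUD : LocUD (lHyp_of_isGen (isGen_j N)) (P0 N) d (ord_t0 N) (ratBasis N d) Cud)
    (hCud : ∀ v, 1 ≤ Cud v) (hfin : {v : VPl | Cud v ≠ 1}.Finite)
    (hU : UDle (lamT (lHyp_of_isGen (isGen_j N)) (P0 N) d (ord_t0 N) (ratBasis N d) tu)
      (Divisor.principal (K := AlgebraicClosure ℚ) (F := ↥(modularFunctionFieldBar N)))
      (4 * gN N + 2)) :
    ∃ c : ℝ, 0 < c ∧ ∃ C : ℝ, ∀ x : JZero N, (∀ σ : Fermat.Agent.MW.ASM.Assemble0.GQ, σ • x = x) →
      c * ((E0 N (P0 N) x).sum fun z m => (m : ℝ) * ht (ptN N d z)) - C ≤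
        q (lamT (lHyp_of_isGen (isGen_j N)) (P0 N) d (ord_t0 N) (ratBasis N d) tu)
          ((a0 (P0 N) x : Divisor.degZero (K := AlgebraicClosure ℚ)
            (F := ↥(modularFunctionFieldBar N))) : Pt N →₀ ℤ) := by
  have hd' : 4 * (genus Kbar (FF N) : ℤ) ≤ d := by
    have : (genus Kbar (FF N) : ℤ) = (gN N : ℤ) := rfl
    rw [this]; exact_mod_cast hd
  have hd0 : 0 < d := by omega
  obtain ⟨C, hC⟩ := pos_general (isGen_j N) hg (P0 N) hd' (ord_t0 N) (ratBasis N d) tu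
    (galEq_mod N d) hUD hCud hfin hU
  refine ⟨1 / (d : ℝ), by positivity, C, fun x _ => ?_⟩
  have hr : Divisor.degree (E0 N (P0 N) x) = (r0 N (P0 N) x : ℤ) :=
    degree_normalFormPic (lHypN N) (rHypN N) (P0 N) x
  have h := hC (E0 N (P0 N) x) (E0_nonneg (P0 N) x) (finrank_L_E0 N (P0 N) x)
    (by rw [hr]; exact_mod_cast r0_le (P0 N) x)
  rw [hr] at h
  rw [coe_a0]
  exact h

open scoped Classical in
/-- **`hNorth` of `Assemble3.fg_of_lam_le` for the modular data**, given (L) and (U) with `8g`. -/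
theorem hNorth_mod (hg : 1 ≤ gN N) {d : ℕ} (hd : 4 * gN N ≤ d) (tu : Unif (FF N))
    {Cud : VPl → ℝ}
    (hUD : LocUD (lHyp_of_isGen (isGen_j N)) (P0 N) d (ord_t0 N) (ratBasis N d) Cud)
    (hCud : ∀ v, 1 ≤ Cud v) (hfin : {v : VPl | Cud v ≠ 1}.Finite)
    (hU : UDle (lamT (lHyp_of_isGen (isGen_j N)) (P0 N) d (ord_t0 N) (ratBasis N d) tu)
      (Divisor.principal (K := AlgebraicClosure ℚ) (F := ↥(modularFunctionFieldBar N)))
      (8 * gN N)) (B : ℝ) :
    {x : JZero N | (∀ σ : Fermat.Agent.MW.ASM.Assemble0.GQ, σ • x = x) ∧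
        ∃ a : Divisor.degZero (K := AlgebraicClosure ℚ) (F := ↥(modularFunctionFieldBar N)),
          size (a : Pt N →₀ ℤ) ≤ 2 * gN N ∧ Pic0.mk a = x ∧
            q (lamT (lHyp_of_isGen (isGen_j N)) (P0 N) d (ord_t0 N) (ratBasis N d) tu)
              (a : Pt N →₀ ℤ) ≤ B}.Finite := by
  have hd1 : 2 * (genus Kbar (FF N) : ℤ) + 1 ≤ d := by
    have : (genus Kbar (FF N) : ℤ) = (gN N : ℤ) := rfl
    rw [this]; omega
  exact hNorth_of_pos
    (lamT (lHyp_of_isGen (isGen_j N)) (P0 N) d (ord_t0 N) (ratBasis N d) tu)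
    (Fermat.Agent.MW.POS.LamBasic4.lamT_symm (lHyp_of_isGen (isGen_j N)) (P0 N) d (ord_t0 N)
      (ratBasis N d) tu)
    hU (P0 N) (fun σ => gal_smul_P0 N σ) (fun v => ht (ptN N d v))
    (fun v => Fermat.Agent.MW.HT.Ht3.ht_nonneg _)
    (fun d' B' => finite_places N hd1 d' B')
    (hpos_mod N hg hd tu hUD hCud hfin (hU.mono (by omega))) B

open scoped Classical in
/-- **Mordell–Weil for `J₀(N)(ℚ)`, given (L), (U) and 2-divisibility** (`1 ≤ g`). -/
theorem fg_mod (hg : 1 ≤ gN N) {d : ℕ} (hd : 4 * gN N ≤ d) (tu : Unif (FF N))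
    {Cud : VPl → ℝ}
    (hUD : LocUD (lHyp_of_isGen (isGen_j N)) (P0 N) d (ord_t0 N) (ratBasis N d) Cud)
    (hCud : ∀ v, 1 ≤ Cud v) (hfin : {v : VPl | Cud v ≠ 1}.Finite)
    (hU : UDle (lamT (lHyp_of_isGen (isGen_j N)) (P0 N) d (ord_t0 N) (ratBasis N d) tu)
      (Divisor.principal (K := AlgebraicClosure ℚ) (F := ↥(modularFunctionFieldBar N)))
      (8 * gN N))
    (hdiv : ∀ x : JZero N, (∀ σ : Fermat.Agent.MW.ASM.Assemble0.GQ, σ • x = x) →
      ∃ y : JZero N, 2 • y = x) :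
    AddGroup.FG ↥(FixedPoints.addSubgroup Fermat.Agent.MW.ASM.Assemble0.GQ (JZero N)) :=
  fg_of_lam_le N
    (lamT (lHyp_of_isGen (isGen_j N)) (P0 N) d (ord_t0 N) (ratBasis N d) tu)
    (Fermat.Agent.MW.POS.LamBasic4.lamT_symm (lHyp_of_isGen (isGen_j N)) (P0 N) d (ord_t0 N)
      (ratBasis N d) tu)
    hU (hNorth_mod N hg hd tu hUD hCud hfin hU) hdiv

end Fermat.Agent.MW.POS.PosMod9
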