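/-
PROGRAMME MW (S17), block POS (helper9).  `Final9`: **Mordell–Weil for `J₀(N)(ℚ)` from the single
remaining input (L)**: the local one-sided uniform decomposition `HadLoc9.LocUD` for the modular
data (`Modular1`: `P0 N`, `t0 N`, `ratBasis N d`) in some degree `d ≥ 6g`.

All other inputs are discharged: (U) = `UDglob8.udle_lamT` (helper8), divisibility =
`NSGlue2.jzero_divisible` (block A), weak Mordell–Weil (block B), genus zero = `GenusZero0`,
Northcott = `NorthMod0`, positivity = `PosMod9`.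

* `tuN` : a choice of uniformizers;
* `fg_of_locUD` : `1 ≤ g`, `6g ≤ d`, `LocUD … Cud` (`Cud ≥ 1`, `= 1` a.e.) `⇒ FG`;
* `fg_of_exists_locUD` : the same with genus zero included and the data existentially quantified
  (the shape of `ChowLoc6.exists_locUD`).
-/
import Mathlib
import Fermat.Agent.MW.POS.PosMod9
import Fermat.Agent.MW.CHOW.UDglob8
import Fermat.Agent.MW.ASM.Assemble4
import Fermat.Agent.MW.ASM.GenusZero0

set_option autoImplicit false
set_option linter.unusedSectionVars false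

open AlgebraicCurve ModularCurve

namespace Fermat.Agent.MW.POS.Final9

open Fermat.Agent.X0 Fermat.Agent.X0.FF Fermat.Agent.RR.LSpace Fermat.Agent.RR.LHypGen
open Fermat.Agent.MW.EMB.OnePoint6 Fermat.Agent.MW.EMB.Proj6 Fermat.Agent.MW.EMB.Modular1
open Fermat.Agent.MW.PAIR.Pairing4 Fermat.Agent.MW.PAIR.PairingB4
open Fermat.Agent.MW.POS.HadLoc9 Fermat.Agent.MW.POS.HadGlob9
open Fermat.Agent.MW.POS.PosMod9
open Fermat.Agent.MW.ASM.Assemble0 Fermat.Agent.MW.ASM.Assemble3 Fermat.Agent.MW.ASM.Assemble4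
open Fermat.Agent.RED.TOP.FbarFacts20

variable (N : ℕ) [NeZero N]

/-- A choice of uniformizers at all places of `X₀(N)`. -/
noncomputable def tuN : Unif (FF N) := fun z =>
  ⟨Fermat.Agent.MW.CHOW.JetMul6.unif z, Fermat.Agent.MW.CHOW.JetMul6.ord_unif z⟩

open scoped Classical in
/-- **Mordell–Weil for `J₀(N)(ℚ)` from (L)** (`1 ≤ g`, `6g ≤ d`). -/
theorem fg_of_locUD (hg : 1 ≤ gN N) {d : ℕ} (hd : 6 * gN N ≤ d) {Cud : VPl → ℝ}
    (hUD : LocUD (lHyp_of_isGen (isGen_j N)) (P0 N) d (ord_t0 N) (ratBasis N d) Cud)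
    (hCud : ∀ v, 1 ≤ Cud v) (hfin : {v : VPl | Cud v ≠ 1}.Finite) :
    AddGroup.FG ↥(FixedPoints.addSubgroup Fermat.Agent.MW.ASM.Assemble0.GQ (JZero N)) := by
  have hg' : (genus Kbar (FF N) : ℤ) = (gN N : ℤ) := rfl
  have hU : UDle (lamT (lHyp_of_isGen (isGen_j N)) (P0 N) d (ord_t0 N) (ratBasis N d) (tuN N))
      (Divisor.principal (K := AlgebraicClosure ℚ) (F := ↥(modularFunctionFieldBar N)))
      (8 * gN N) :=
    Fermat.Agent.MW.CHOW.UDglob8.udle_lamT (isGen_j N) (P0 N) (ord_t0 N) (ratBasis N d)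
      (by rw [hg']; omega) (by omega) (tuN N) (by rw [hg']; push_cast; omega)
  exact fg_of_lam_north N
    (lamT (lHyp_of_isGen (isGen_j N)) (P0 N) d (ord_t0 N) (ratBasis N d) (tuN N))
    (Fermat.Agent.MW.POS.LamBasic4.lamT_symm (lHyp_of_isGen (isGen_j N)) (P0 N) d (ord_t0 N)
      (ratBasis N d) (tuN N))
    hU (hNorth_mod N hg (by omega) (tuN N) hUD hCud hfin hU)

/-- **Mordell–Weil for `J₀(N)(ℚ)`**, given for `g ≥ 1` the existence of (L) in some degree
`d ≥ 6g`. -/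
theorem fg_of_exists_locUD
    (hL : 1 ≤ gN N → ∃ d : ℕ, 6 * gN N ≤ d ∧ ∃ Cud : VPl → ℝ, (∀ v, 1 ≤ Cud v) ∧
      {v : VPl | Cud v ≠ 1}.Finite ∧
      LocUD (lHyp_of_isGen (isGen_j N)) (P0 N) d (ord_t0 N) (ratBasis N d) Cud) :
    AddGroup.FG ↥(FixedPoints.addSubgroup Fermat.Agent.MW.ASM.Assemble0.GQ (JZero N)) := by
  rcases Nat.eq_zero_or_pos (gN N) with h0 | h0
  · exact Fermat.Agent.MW.ASM.GenusZero0.fg_of_genus_zero h0
  · obtain ⟨d, hd, Cud, hCud, hfin, hUD⟩ := hL h0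
    exact fg_of_locUD N h0 hd hUD hCud hfin

end Fermat.Agent.MW.POS.Final9
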