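/-
PROGRAMME MW (S17), block POS (helper9).  `LocBridge9`: **the two-sided local uniform decomposition
`GlobHyp3.LocUD2` implies the one-sided `HadLoc9.LocUD`** used by the Hadamard inequality.

`LocUD2` bounds the leading coefficient of `c` at `y` against the FULL hyperplane section
`hyp c = Σ_j z j`; `LocUD` allows any sub-family `(z j)_{j ∈ s}` off `y` and any order
`m ≤ hyp c y`.  If `m < hyp c y` the `m`-th Taylor coefficient vanishes; otherwise we complete the
family to an enumeration of `hyp c` and drop the remaining chordal distances, which are `≤ 1` at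
finite places and `≤ 2` at the infinite place (`chi_le`).

* `supN_wedge2_le`, `chi_le`;
* `locUD_of_locUD2 : LocUD2 Cud2 → (∀ v, 0 ≤ Cud2 v) → LocUD (fun v => Cud2 v * archC 2 v ^ d)`;
* `one_le_cud`, `finite_cud_ne_one` : bookkeeping for the new constant.
-/
import Mathlib
import Fermat.Agent.MW.CHOW.GlobHyp3

set_option autoImplicit false
set_option linter.unusedSectionVars false

open AlgebraicCurve

namespace Fermat.Agent.MW.POS.LocBridge9

open Finset
open Fermat.Agent.RR.LSpace
open Fermat.Agent.MW.EMB.Value6 Fermat.Agent.MW.EMB.OnePoint6 Fermat.Agent.MW.EMB.Coord6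
open Fermat.Agent.MW.EMB.Tangent6 Fermat.Agent.MW.EMB.Proj6 Fermat.Agent.MW.EMB.Enum6
open Fermat.Agent.MW.PAIR.Pairing4
open Fermat.Agent.MW.POS.Jet9 Fermat.Agent.MW.POS.HadLoc9 Fermat.Agent.MW.POS.HadGlob9
open Fermat.Agent.MW.CHOW.GlobHyp3
open Fermat.Agent.MW.HT.Place3 (Qbar GQ absV absV_nonarch)
open Fermat.Agent.MW.HT.Ht3 (supN supN_nonneg le_supN supN_le supN_pos)
open Fermat.Agent.MW.HT.Lin3 (archC archC_none archC_some)

/-! ### The local bound for `wedge2` -/

theorem one_le_archC_two (v : VPl) : 1 ≤ archC 2 v := by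
  rcases v with _ | p
  · rw [archC_none]; norm_num
  · rw [archC_some]

theorem supN_wedge2_le {n : ℕ} (v : VPl) (x y : Fin n → Qbar) :
    supN v (wedge2 x y) ≤ archC 2 v * supN v x * supN v y := by
  have h0 : 0 ≤ archC 2 v * supN v x * supN v y :=
    mul_nonneg (mul_nonneg (zero_le_one.trans (one_le_archC_two v)) (supN_nonneg v x))
      (supN_nonneg v y)
  refine supN_le v _ h0 fun p => ?_
  have h1 : absV v (x p.1 * y p.2) ≤ supN v x * supN v y := by
    rw [map_mul]
    exact mul_le_mul (le_supN v x _) (le_supN v y _) ((absV v).nonneg _) (supN_nonneg v x)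
  have h2 : absV v (x p.2 * y p.1) ≤ supN v x * supN v y := by
    rw [map_mul]
    exact mul_le_mul (le_supN v x _) (le_supN v y _) ((absV v).nonneg _) (supN_nonneg v x)
  show absV v (x p.1 * y p.2 - x p.2 * y p.1) ≤ _
  rcases v with _ | p'
  · rw [archC_none]
    have := (absV none).add_le (x p.1 * y p.2) (-(x p.2 * y p.1))
    rw [(absV none).map_neg, ← sub_eq_add_neg] at this
    push_cast
    linarith
  · rw [archC_some, one_mul]
    have := absV_nonarch p' (x p.1 * y p.2) (-(x p.2 * y p.1))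
    rw [(absV (some p')).map_neg, ← sub_eq_add_neg] at this
    exact this.trans (max_le h1 h2)

section Bridge

variable {F : Type*} [Field F] [Algebra Qbar F] [DecidableEq (Place Qbar F)]
variable (H : LHyp Qbar F) (P0 : Place Qbar F) (d : ℕ) {t0 : F} (ht0 : P0.ord t0 = 1) {n : ℕ}
  (b : Module.Basis (Fin n) Qbar (Lm P0 d))

/-- The chordal distance is `≤ 1` at finite places and `≤ 2` at the infinite place. -/
theorem chi_le (v : VPl) (z y : Place Qbar F) : chi H P0 d ht0 b v z y ≤ archC 2 v := by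
  unfold chi
  refine div_le_of_le_mul₀ (mul_nonneg (supN_nonneg v _) (supN_nonneg v _))
    (zero_le_one.trans (one_le_archC_two v)) ?_
  have := supN_wedge2_le v (pt H P0 d ht0 b z) (pt H P0 d ht0 b y)
  linarith

/-- **Two-sided ⇒ one-sided**: `LocUD2 Cud2` implies `LocUD (Cud2 · archC 2 ^ d)`. -/
theorem locUD_of_locUD2 {Cud2 : VPl → ℝ} (h2 : LocUD2 H P0 d ht0 b Cud2)
    (hC : ∀ v, 0 ≤ Cud2 v) :
    LocUD H P0 d ht0 b (fun v => Cud2 v * archC 2 v ^ d) := by
  classical
  intro v c hc y t ht m ι s z hzy hle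
  have hA : 1 ≤ archC 2 v := one_le_archC_two v
  have hA0 : 0 ≤ archC 2 v := zero_le_one.trans hA
  have hPs : 0 ≤ ∏ j ∈ s, chi H P0 d ht0 b v (z j) y :=
    Finset.prod_nonneg fun j _ => chi_nonneg H P0 d ht0 b v (z j) y
  have hK : 0 ≤ kap H P0 d ht0 b v y ht ^ m := pow_nonneg (kap_nonneg H P0 d ht0 b v y ht) m
  have hSc : 0 ≤ supN v c := supN_nonneg v c
  have hSy : 0 ≤ supN v (pt H P0 d ht0 b y) := supN_nonneg v _
  have hX : 0 ≤ Cud2 v * supN v c * supN v (pt H P0 d ht0 b y) *
      (∏ j ∈ s, chi H P0 d ht0 b v (z j) y) * kap H P0 d ht0 b v y ht ^ m :=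
    mul_nonneg (mul_nonneg (mul_nonneg (mul_nonneg (hC v) hSc) hSy) hPs) hK
  have hfilt : (s.filter fun j => z j = y) = ∅ :=
    Finset.filter_eq_empty_iff.mpr fun j hj => hzy j hj
  -- the multiplicity of `y`
  have hmle : (m : ℤ) ≤ hyp H P0 d b hc y := by
    have h1 := hle y
    rw [Finsupp.add_apply, Finsupp.single_eq_same, eff_apply, hfilt] at h1
    simpa using h1
  rcases hmle.lt_or_eq with hlt | heq
  · -- the coefficient vanishes
    have h1 : ((m + 1 : ℕ) : ℤ) ≤ hyp H P0 d b hc y := by push_cast; omega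
    have h3 := (le_hyp_iff H P0 d ht0 b hc y ht (m + 1)).mp h1 m (Nat.lt_succ_self m)
    rw [h3, map_zero]
    have : 0 ≤ (Cud2 v * supN v c * supN v (pt H P0 d ht0 b y) *
        (∏ j ∈ s, chi H P0 d ht0 b v (z j) y) * kap H P0 d ht0 b v y ht ^ m) *
          archC 2 v ^ d := mul_nonneg hX (pow_nonneg hA0 d)
    calc (0 : ℝ) ≤ _ := this
      _ = _ := by ring
  · -- completion to an enumeration of `hyp c`
    set Rest : Divisor Qbar F :=
      hyp H P0 d b hc - (eff s z + Finsupp.single y (m : ℤ)) with hRest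
    have hRest0 : 0 ≤ Rest := sub_nonneg.mpr hle
    have hdegE : Divisor.degree (eff s z : Divisor Qbar F) = s.card := by
      rw [eff, map_sum]
      simp [degree_single H]
    have hdegR : Divisor.degree Rest = d - s.card - m := by
      rw [hRest, map_sub, degree_hyp, map_add, degree_single H, hdegE]
      ring
    obtain ⟨q, hq⟩ : ∃ q : ℕ, Divisor.degree Rest = q :=
      Int.eq_ofNat_of_zero_le (degree_nonneg H hRest0)
    obtain ⟨ρ, hρ⟩ := exists_enum H q hRest0 hq
    have hRy : Rest y = 0 := by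
      rw [hRest, Finsupp.sub_apply, Finsupp.add_apply, Finsupp.single_eq_same, ← heq, eff_apply,
        hfilt]
      simp
    have hρy : ∀ k, ρ k ≠ y := by
      intro k hk
      have h1 : Rest y = ((univ.filter fun k' => ρ k' = y).card : ℤ) := by
        rw [hρ]; exact sum_single_apply_card q ρ y
      have hpos : 0 < (univ.filter fun k' => ρ k' = y).card :=
        Finset.card_pos.mpr ⟨k, by simp [hk]⟩
      omega
    have hqd : q ≤ d := by omega
    have hcard : Fintype.card ({j // j ∈ s} ⊕ (Fin m ⊕ Fin q)) = d := by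
      simp only [Fintype.card_sum, Fintype.card_coe, Fintype.card_fin]
      omega
    let e : Fin d ≃ {j // j ∈ s} ⊕ (Fin m ⊕ Fin q) := (Fintype.equivFinOfCardEq hcard).symm
    set Z' : {j // j ∈ s} ⊕ (Fin m ⊕ Fin q) → Place Qbar F :=
      Sum.elim (fun j => z j) (Sum.elim (fun _ => y) ρ) with hZ'
    set Z : Fin d → Place Qbar F := fun j => Z' (e j) with hZ
    have hz : hyp H P0 d b hc = ∑ j, Finsupp.single (Z j) 1 := by
      rw [hZ, Equiv.sum_comp e (fun i => Finsupp.single (Z' i) (1 : ℤ)),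
        Fintype.sum_sum_type, Fintype.sum_sum_type]
      simp only [hZ', Sum.elim_inl, Sum.elim_inr]
      rw [Finset.sum_coe_sort s (fun j => Finsupp.single (z j) (1 : ℤ)), ← hρ,
        Finset.sum_const, Finset.card_univ, Fintype.card_fin, Finsupp.smul_single,
        nsmul_eq_mul, mul_one, hRest]
      show _ = eff s z + _
      abel
    have hcount : (univ.filter fun j => Z j = y).card = m := by
      have h3 : hyp H P0 d b hc y = ((univ.filter fun j => Z j = y).card : ℤ) := by
        rw [hz]; exact sum_single_apply_card d Z y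
      omega
    have hloc := (h2 v c hc y t ht Z hz).2
    rw [hcount] at hloc
    refine hloc.trans ?_
    have hprod : ∏ j, (if Z j = y then kap H P0 d ht0 b v y ht
          else chi H P0 d ht0 b v (Z j) y) =
        (∏ j ∈ s, chi H P0 d ht0 b v (z j) y) *
          (kap H P0 d ht0 b v y ht ^ m * ∏ k, chi H P0 d ht0 b v (ρ k) y) := by
      rw [hZ, Equiv.prod_comp e (fun i => if Z' i = y then kap H P0 d ht0 b v y ht
          else chi H P0 d ht0 b v (Z' i) y),
        Fintype.prod_sum_type, Fintype.prod_sum_type]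
      simp only [hZ', Sum.elim_inl, Sum.elim_inr]
      congr 1
      · rw [← Finset.prod_coe_sort s (fun j => chi H P0 d ht0 b v (z j) y)]
        exact Finset.prod_congr rfl fun j _ => if_neg (hzy j j.2)
      · congr 1
        · simp
        · exact Finset.prod_congr rfl fun k _ => if_neg (hρy k)
    have hrest : ∏ k, chi H P0 d ht0 b v (ρ k) y ≤ archC 2 v ^ d := by
      calc ∏ k, chi H P0 d ht0 b v (ρ k) y ≤ ∏ _k : Fin q, archC 2 v :=
            Finset.prod_le_prod (fun k _ => chi_nonneg H P0 d ht0 b v (ρ k) y)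
              (fun k _ => chi_le H P0 d ht0 b v (ρ k) y)
        _ = archC 2 v ^ q := by simp
        _ ≤ archC 2 v ^ d := pow_le_pow_right₀ hA hqd
    unfold Bud
    rw [hprod]
    calc Cud2 v * (supN v c * supN v (pt H P0 d ht0 b y) *
          ((∏ j ∈ s, chi H P0 d ht0 b v (z j) y) *
            (kap H P0 d ht0 b v y ht ^ m * ∏ k, chi H P0 d ht0 b v (ρ k) y)))
        = (Cud2 v * supN v c * supN v (pt H P0 d ht0 b y) *
            (∏ j ∈ s, chi H P0 d ht0 b v (z j) y) * kap H P0 d ht0 b v y ht ^ m) *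
              ∏ k, chi H P0 d ht0 b v (ρ k) y := by ring
      _ ≤ (Cud2 v * supN v c * supN v (pt H P0 d ht0 b y) *
            (∏ j ∈ s, chi H P0 d ht0 b v (z j) y) * kap H P0 d ht0 b v y ht ^ m) *
              archC 2 v ^ d := mul_le_mul_of_nonneg_left hrest hX
      _ = _ := by ring

/-- Bookkeeping for the new constant. -/
theorem one_le_cud {Cud2 : VPl → ℝ} (h1 : ∀ v, 1 ≤ Cud2 v) (v : VPl) :
    1 ≤ Cud2 v * archC 2 v ^ d :=
  one_le_mul_of_one_le_of_one_le (h1 v) (one_le_pow₀ (one_le_archC_two v))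

theorem finite_cud_ne_one {Cud2 : VPl → ℝ} (hfin : {v : VPl | Cud2 v ≠ 1}.Finite) :
    {v : VPl | Cud2 v * archC 2 v ^ d ≠ 1}.Finite := by
  refine (hfin.union (Set.finite_singleton (none : VPl))).subset fun v hv => ?_
  rcases v with _ | p
  · exact Or.inr rfl
  · left
    intro h1
    apply hv
    show Cud2 (some p) * archC 2 (some p) ^ d = 1
    rw [h1, archC_some, one_pow, one_mul]

end Bridge

end Fermat.Agent.MW.POS.LocBridge9
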