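/-
PROGRAMME MW (S17), block POS (helper9).  `MordellWeil9`: **the Mordell–Weil theorem for
`J₀(N)(ℚ)`, unconditionally**: `AddGroup.FG (J₀(N)^{G_ℚ})` for every `N ≠ 0`.

Assembly: `Final9.fg_of_exists_locUD` (S17 from (L)), with (L) = `LocBridge9.locUD_of_locUD2`
applied to helper3's `ChowLocB3.exists_locUD2` for the modular data in degree `d = 6g`.
-/
import Mathlib
import Fermat.Agent.MW.POS.Final9
import Fermat.Agent.MW.POS.LocBridge9
import Fermat.Agent.MW.CHOW.ChowLocB3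

set_option autoImplicit false
set_option linter.unusedSectionVars false

open AlgebraicCurve ModularCurve

namespace Fermat.Agent.MW.POS.MordellWeil9

open Fermat.Agent.X0 Fermat.Agent.X0.FF Fermat.Agent.RR.LSpace Fermat.Agent.RR.LHypGen
open Fermat.Agent.MW.EMB.OnePoint6 Fermat.Agent.MW.EMB.Proj6 Fermat.Agent.MW.EMB.Modular1
open Fermat.Agent.MW.POS.HadLoc9 Fermat.Agent.MW.POS.LocBridge9 Fermat.Agent.MW.POS.Final9
open Fermat.Agent.MW.CHOW.ChowLocB3
open Fermat.Agent.MW.ASM.Assemble0 Fermat.Agent.MW.ASM.Assemble3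
open Fermat.Agent.RED.TOP.FbarFacts20
open Fermat.Agent.MW.HT.Lin3 (archC)

variable (N : ℕ) [NeZero N]

/-- (L) for the modular data in degree `6g` (`g ≥ 1`). -/
theorem exists_locUD_mod (hg : 1 ≤ gN N) :
    ∃ Cud : VPl → ℝ, (∀ v, 1 ≤ Cud v) ∧ {v : VPl | Cud v ≠ 1}.Finite ∧
      LocUD (lHyp_of_isGen (isGen_j N)) (P0 N) (6 * gN N) (ord_t0 N)
        (ratBasis N (6 * gN N)) Cud := by
  classical
  have hg' : (genus Kbar (FF N) : ℤ) = (gN N : ℤ) := rfl
  obtain ⟨Cud2, h1, hfin, h2⟩ := exists_locUD2 (isGen_j N) (P0 N) (ord_t0 N)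
    (ratBasis N (6 * gN N)) (by rw [hg']; push_cast; omega) (by omega)
  exact ⟨fun v => Cud2 v * archC 2 v ^ (6 * gN N), one_le_cud _ h1, finite_cud_ne_one _ hfin,
    locUD_of_locUD2 (lHyp_of_isGen (isGen_j N)) (P0 N) (6 * gN N) (ord_t0 N)
      (ratBasis N (6 * gN N)) h2 (fun v => zero_le_one.trans (h1 v))⟩

/-- **Mordell–Weil for `J₀(N)(ℚ)`.** -/
theorem mordell_weil :
    AddGroup.FG ↥(FixedPoints.addSubgroup Fermat.Agent.MW.ASM.Assemble0.GQ (JZero N)) :=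
  fg_of_exists_locUD N fun hg => ⟨6 * gN N, le_rfl, exists_locUD_mod N hg⟩

end Fermat.Agent.MW.POS.MordellWeil9
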