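/-
PROGRAMME MW (S17), block POS (helper9).  `PosFinal9`: **Mordell–Weil for `J₀(N)(ℚ)` from the
single local statement `GlobHyp3.LocUD2`** (two-sided local uniform decomposition for the modular
data `Modular1`: `P0 N`, `t0 N`, `ratBasis N d`), `d ≥ 6g`, `g ≥ 1`, plus 2-divisibility (block A).

* (U) `udle_mod2` : `UDle (lamT tu) principal (8g)` from `LocUD2` (`GlobHyp3.ud_hyp_ev` +
  `HypDiff6.udle_of_ud_hyp`);
* (L) `LocUD` from `LocUD2` (`LocBridge9.locUD_of_locUD2`);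
* `fg_mod2` : the final statement (`PosMod9.fg_mod`).
-/
import Mathlib
import Fermat.Agent.MW.POS.PosMod9
import Fermat.Agent.MW.POS.LocBridge9
import Fermat.Agent.MW.CHOW.HypDiff6

set_option autoImplicit false
set_option linter.unusedSectionVars false

open AlgebraicCurve ModularCurve

namespace Fermat.Agent.MW.POS.PosFinal9

open Fermat.Agent.X0 Fermat.Agent.X0.FF Fermat.Agent.RR.LSpace Fermat.Agent.RR.LHypGen
open Fermat.Agent.MW.EMB.OnePoint6 Fermat.Agent.MW.EMB.Proj6 Fermat.Agent.MW.EMB.Modular1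
open Fermat.Agent.MW.PAIR.Pairing4 Fermat.Agent.MW.PAIR.PairingB4
open Fermat.Agent.MW.POS.HadLoc9 Fermat.Agent.MW.POS.HadGlob9 Fermat.Agent.MW.POS.HadInst9
open Fermat.Agent.MW.POS.PosMod9 Fermat.Agent.MW.POS.LocBridge9
open Fermat.Agent.MW.CHOW.GlobHyp3 Fermat.Agent.MW.CHOW.HypDiff6
open Fermat.Agent.MW.ASM.Assemble0 Fermat.Agent.MW.ASM.Assemble3
open Fermat.Agent.RED.TOP.FbarFacts20
open Fermat.Agent.MW.HT.Ht3 (ht)

variable (N : ℕ) [NeZero N]

open scoped Classical in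
/-- (U) for the modular data from `LocUD2`. -/
theorem udle_mod2 (hg : 1 ≤ gN N) {d : ℕ} (hd : 6 * gN N ≤ d) (tu : Unif (FF N))
    {Cud : VPl → ℝ}
    (hUD : LocUD2 (lHyp_of_isGen (isGen_j N)) (P0 N) d (ord_t0 N) (ratBasis N d) Cud)
    (hCud : ∀ v, 1 ≤ Cud v) (hfin : {v : VPl | Cud v ≠ 1}.Finite) :
    UDle (lamT (lHyp_of_isGen (isGen_j N)) (P0 N) d (ord_t0 N) (ratBasis N d) tu)
      (Divisor.principal (K := AlgebraicClosure ℚ) (F := ↥(modularFunctionFieldBar N)))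
      (8 * gN N) := by
  have hg' : (genus Kbar (FF N) : ℤ) = (gN N : ℤ) := rfl
  have hd1 : 2 * (genus Kbar (FF N) : ℤ) + 1 ≤ d := by rw [hg']; omega
  have hE := embPos_of_isGen (isGen_j N) (P0 N) d (ord_t0 N) (ratBasis N d) hd1
  refine udle_of_ud_hyp (isGen_j N) (P0 N) (ratBasis N d)
    (lamT (lHyp_of_isGen (isGen_j N)) (P0 N) d (ord_t0 N) (ratBasis N d) tu)
    (fun c => ht c)
    (fun y => ht (pt (lHyp_of_isGen (isGen_j N)) (P0 N) d (ord_t0 N) (ratBasis N d) y))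
    ⟨∑ᶠ v, Real.log (Cud v), fun c hc y =>
      ud_hyp_ev (lHyp_of_isGen (isGen_j N)) (P0 N) d (ord_t0 N) (ratBasis N d) hE
        (galEq_mod N d) hUD hCud hfin tu hc y⟩ ?_
  rw [hg']
  push_cast
  omega

open scoped Classical in
/-- **Mordell–Weil for `J₀(N)(ℚ)` from `LocUD2` and 2-divisibility** (`1 ≤ g`, `6g ≤ d`). -/
theorem fg_mod2 (hg : 1 ≤ gN N) {d : ℕ} (hd : 6 * gN N ≤ d) (tu : Unif (FF N))
    {Cud : VPl → ℝ}
    (hUD : LocUD2 (lHyp_of_isGen (isGen_j N)) (P0 N) d (ord_t0 N) (ratBasis N d) Cud)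
    (hCud : ∀ v, 1 ≤ Cud v) (hfin : {v : VPl | Cud v ≠ 1}.Finite)
    (hdiv : ∀ x : JZero N, (∀ σ : Fermat.Agent.MW.ASM.Assemble0.GQ, σ • x = x) →
      ∃ y : JZero N, 2 • y = x) :
    AddGroup.FG ↥(FixedPoints.addSubgroup Fermat.Agent.MW.ASM.Assemble0.GQ (JZero N)) :=
  fg_mod N hg (by omega : 4 * gN N ≤ d) tu
    (locUD_of_locUD2 (lHyp_of_isGen (isGen_j N)) (P0 N) d (ord_t0 N) (ratBasis N d) hUD
      (fun v => zero_le_one.trans (hCud v)))
    (one_le_cud d hCud) (finite_cud_ne_one d hfin)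
    (udle_mod2 N hg hd tu hUD hCud hfin) hdiv

end Fermat.Agent.MW.POS.PosFinal9
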